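import Fermat.Agent.S55.Asm.Main

/-!
# S55, package ASM (spec): from the `H`-intrinsic statements to `CoreCrit`.

INTERFACE between SM (formal: Shapiro + Mackey, helper18), SB (arithmetic, helper13) and the
top layer.  Setting of `CoreCritSpec`: `k, G, 𝓛, D : LocSys 𝓛 ι Γ, χ`, `H` open `≤ ker χ`.

* `mackeySub (D.r v) H t = {γ ∈ Γ v | t * r_v γ * t⁻¹ ∈ H}`, `mackeyHom : mackeySub →* H`
  (both from `SM/Mackey.lean`),
  `locSysMackey D H T : LocSys (𝓛.sub H) (Σ v, T v) …` for a family `T v` of representatives of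
  the double cosets `H \ G / r_v (Γ v)`: the local system of `H` ("the places of `K' = fix H`
  above `S`").
* `pairI11`: the local pairing `P¹ × P¹ → k` attached to an ARBITRARY functional `inv` on
  `∏ H²(local)` (for `inv = trLoc D tr` it is `pair11 D P tr`).
* `CritTriv D' ρ₀ inv`: the `H`-intrinsic list (trivial coefficients `k`, pairing `k × k → k`,
  `inv = Σ_w inv_w`): NINE fields `c1 c2 a1 b1 b1f b1' b2f b2f2 b2` (no `c3`).
* ASM-MAIN `coreCrit_of_critTriv`: `CritTriv` for all `H` (for ANY normalisation of the `inv_w`)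
  plus `hN` = LEFT non-degeneracy of `pair02` on the base pairs  ⟹  `CoreCrit D χ tr`
  for ANY `tr`.

WHY NO COMPATIBILITY "inv ∘ cor = inv" IS NEEDED.  Put `Λ := trLoc D tr ∘ ε_*` transported by
Mackey–Shapiro to `∏_w H²(Γ_w, k)`, `Λ = Σ_w Λ_w`.  (1) `Λ ∘ loc_H = 0` for free
(`bdry3 ∘ locP2 = 0`).  (2) `a1` makes each `H²(Γ_w, k)` at most one-dimensional, `hN` says
`Λ_w ≠ 0`, so `Λ_w = c_w • inv_w`.  (3) `c2` (`ker Σ inv_w ⊆ im loc_H ⊆ ker Λ`) forces all
`c_w` equal to one `c ≠ 0`: `Λ = c • Σ_w inv_w`.  So every pairing of `CoreCrit` at `H` is `c` times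
the corresponding `H`-intrinsic pairing and the fields follow from `CritTriv` by transport along
`smShapiro_n` (global) and the Mackey–Shapiro isomorphisms (local), using
`sh_t (a ∪_m b) = sh_t a ∪ sh_t b` (evaluation at `t` is multiplicative on cochains) and
`basePairing = ε ∘ (pointwise product)`.

`hN` itself is discharged EITHER by `inv_v ∘ cor = u • inv_w`, `u ≠ 0` (route A, helper14 msg 897)
OR by `pair02_nondeg_left_of_cd2` (route B, `Top/CdSpec.lean`: `H³(Γ_v, finite module) = 0`).

SHIM: the definitions are in `Asm/Defs.lean`, ASM-MAIN `coreCrit_of_critTriv` is PROVED in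
`Asm/Main.lean` (statement identical to the former spec statement).
-/
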