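/-
S55 / ASM: INDEXED FORMS of the GK deliverables (no system `Φ` of embeddings, no dependent casts):
the local data are given by a finite family `(q w, i w)`, `w : ι`, of `q w`-adic embeddings of `K`
inducing pairwise distinct places, whose set of places is `T`.
Helper names are prefixed `asmgk`.
-/
import Fermat.Agent.S55.GK.Spec
import Fermat.Agent.S55.Global.Recip.SupportSpec

set_option autoImplicit false
set_option linter.style.haveILetI false
set_option linter.unusedSectionVars false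
set_option linter.unusedVariables false

namespace Fermat.Agent.S55

open NumberField IsDedekindDomain

section Indexed

variable {K : Type} [Field K] [NumberField K] {p : ℕ} [Fact p.Prime] {ζ : K}

/-- every finite place carries a local embedding datum -/
theorem asmgk_nonempty_gkEmb (v : HeightOneSpectrum (𝓞 K)) : Nonempty (GkEmb K v) := by
  obtain ⟨i, hi⟩ := exists_lgEmb (gePrime K v) v (natCast_gePrime_mem v)
  exact ⟨⟨gePrime K v, gePrime_fact K v, i, hi⟩⟩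

/-- EXACT ANNIHILATOR, indexed form. -/
theorem gk_exact_annihilator_indexed (hp2 : p ≠ 2) (hζ : IsPrimitiveRoot ζ p)
    {ι : Type} [Fintype ι] (q : ι → ℕ) [hq : ∀ w, Fact (q w).Prime]
    (i : ∀ w, K →+* PadicAlgCl (q w))
    (hinj : Function.Injective fun w => lgPlace (q w) (i w))
    (T : Finset (HeightOneSpectrum (𝓞 K)))
    (hT : ∀ u : HeightOneSpectrum (𝓞 K), u ∈ T ↔ ∃ w, lgPlace (q w) (i w) = u)
    (hTp : ∀ v : HeightOneSpectrum (𝓞 K), ((p : ℕ) : 𝓞 K) ∈ v.asIdeal → v ∈ T)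
    (x : ∀ w, (↥(lgField (q w) (i w)))ˣ)
    (hx : ∀ b : Kˣ, b ∈ gkV K (T : Set (HeightOneSpectrum (𝓞 K))) p →
      ∑ w, lfSymbol (q w) ↥(lgField (q w) (i w)) p (lgEmb (q w) (i w) ζ) (x w)
        (Units.map (lgEmb (q w) (i w) : K →* ↥(lgField (q w) (i w))) b) = 0) :
    ∃ a : Kˣ, a ∈ gkV K (T : Set (HeightOneSpectrum (𝓞 K))) p ∧
      ∀ w, ∃ c : (↥(lgField (q w) (i w)))ˣ,
        Units.map (lgEmb (q w) (i w) : K →* ↥(lgField (q w) (i w))) a = x w * c ^ p := by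
  classical
  -- a system of embeddings together with the transported family, chosen simultaneously
  have key : ∀ v : HeightOneSpectrum (𝓞 K), ∃ (Φv : GkEmb K v)
      (Xv : (↥(lgField Φv.q Φv.emb))ˣ), ∀ w, lgPlace (q w) (i w) = v →
        (∀ b : Kˣ, lfSymbol Φv.q ↥(lgField Φv.q Φv.emb) p (lgEmb Φv.q Φv.emb ζ) Xv
            (Units.map (lgEmb Φv.q Φv.emb : K →* ↥(lgField Φv.q Φv.emb)) b) =
          lfSymbol (q w) ↥(lgField (q w) (i w)) p (lgEmb (q w) (i w) ζ) (x w)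
            (Units.map (lgEmb (q w) (i w) : K →* ↥(lgField (q w) (i w))) b)) ∧
        (∀ a : Kˣ, (∃ c : (↥(lgField Φv.q Φv.emb))ˣ,
            Units.map (lgEmb Φv.q Φv.emb : K →* ↥(lgField Φv.q Φv.emb)) a = Xv * c ^ p) ↔
          ∃ c : (↥(lgField (q w) (i w)))ˣ,
            Units.map (lgEmb (q w) (i w) : K →* ↥(lgField (q w) (i w))) a = x w * c ^ p) := by
    intro v
    by_cases h : ∃ w, lgPlace (q w) (i w) = v
    · obtain ⟨w, rfl⟩ := h
      refine ⟨⟨q w, hq w, i w, rfl⟩, x w, fun w' hw' => ?_⟩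
      have hww : w' = w := hinj hw'
      subst hww
      exact ⟨fun b => rfl, fun a => Iff.rfl⟩
    · obtain ⟨Φv⟩ := asmgk_nonempty_gkEmb v
      exact ⟨Φv, 1, fun w hw => absurd ⟨w, hw⟩ h⟩
  choose Φ X hΦX using key
  have himg : Finset.univ.image (fun w => lgPlace (q w) (i w)) = T := by
    ext u
    rw [Finset.mem_image, hT u]
    constructor
    · rintro ⟨w, -, hw⟩
      exact ⟨w, hw⟩
    · rintro ⟨w, hw⟩
      exact ⟨w, Finset.mem_univ _, hw⟩
  obtain ⟨a, haV, ha⟩ := gk_exact_annihilator Φ p ζ hp2 hζ T hTp X (by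
    intro b hb
    rw [← himg, Finset.sum_image (fun w _ w' _ h => hinj h)]
    rw [← hx b hb]
    refine Finset.sum_congr rfl fun w _ => ?_
    exact (hΦX _ w rfl).1 b)
  refine ⟨a, haV, fun w => ?_⟩
  have hw : lgPlace (q w) (i w) ∈ T := (hT _).2 ⟨w, rfl⟩
  exact ((hΦX _ w rfl).2 a).1 (ha _ hw)

/-- `Δ_T` in indexed form: the elements of `V_T` that are local `p`-th powers at every `w`. -/
noncomputable def asmgkDelta {ι : Type} (q : ι → ℕ) [hq : ∀ w, Fact (q w).Prime]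
    (i : ∀ w, K →+* PadicAlgCl (q w)) (T : Set (HeightOneSpectrum (𝓞 K))) (p : ℕ) : Subgroup Kˣ :=
  gkV K T p ⊓ ⨅ w, (powMonoidHom p : (↥(lgField (q w) (i w)))ˣ →* (↥(lgField (q w) (i w)))ˣ).range.comap
    (Units.map (lgEmb (q w) (i w) : K →* ↥(lgField (q w) (i w))))

theorem mem_asmgkDelta_iff {ι : Type} {q : ι → ℕ} [hq : ∀ w, Fact (q w).Prime]
    {i : ∀ w, K →+* PadicAlgCl (q w)} {T : Set (HeightOneSpectrum (𝓞 K))} {p : ℕ} {b : Kˣ} :
    b ∈ asmgkDelta q i T p ↔ b ∈ gkV K T p ∧ ∀ w, ∃ c : (↥(lgField (q w) (i w)))ˣ,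
      c ^ p = Units.map (lgEmb (q w) (i w) : K →* ↥(lgField (q w) (i w))) b := by
  simp only [asmgkDelta, Subgroup.mem_inf, Subgroup.mem_iInf, Subgroup.mem_comap,
    MonoidHom.mem_range, powMonoidHom_apply]

/-- `[Δ_T : Kˣᵖ] = |Cl_T(K)/p|`, indexed form. -/
theorem gk_relIndex_delta_eq_indexed (hp2 : p ≠ 2) (hζ : IsPrimitiveRoot ζ p)
    {ι : Type} [Fintype ι] (q : ι → ℕ) [hq : ∀ w, Fact (q w).Prime]
    (i : ∀ w, K →+* PadicAlgCl (q w))
    (hinj : Function.Injective fun w => lgPlace (q w) (i w))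
    (T : Finset (HeightOneSpectrum (𝓞 K)))
    (hT : ∀ u : HeightOneSpectrum (𝓞 K), u ∈ T ↔ ∃ w, lgPlace (q w) (i w) = u)
    (hTp : ∀ v : HeightOneSpectrum (𝓞 K), ((p : ℕ) : 𝓞 K) ∈ v.asIdeal → v ∈ T) :
    (powMonoidHom p : Kˣ →* Kˣ).range.relIndex
        (asmgkDelta q i (T : Set (HeightOneSpectrum (𝓞 K))) p) =
      (gkClSub K (T : Set (HeightOneSpectrum (𝓞 K))) p).index := by
  classical
  have key : ∀ v : HeightOneSpectrum (𝓞 K), ∃ (Φv : GkEmb K v),
      ∀ w, lgPlace (q w) (i w) = v → ∀ b : Kˣ,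
        (∃ c : (↥(lgField Φv.q Φv.emb))ˣ,
            c ^ p = Units.map (lgEmb Φv.q Φv.emb : K →* ↥(lgField Φv.q Φv.emb)) b) ↔
          ∃ c : (↥(lgField (q w) (i w)))ˣ,
            c ^ p = Units.map (lgEmb (q w) (i w) : K →* ↥(lgField (q w) (i w))) b := by
    intro v
    by_cases h : ∃ w, lgPlace (q w) (i w) = v
    · obtain ⟨w, rfl⟩ := h
      refine ⟨⟨q w, hq w, i w, rfl⟩, fun w' hw' => ?_⟩
      have hww : w' = w := hinj hw'
      subst hww
      exact fun b => Iff.rfl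
    · obtain ⟨Φv⟩ := asmgk_nonempty_gkEmb v
      exact ⟨Φv, fun w hw => absurd ⟨w, hw⟩ h⟩
  choose Φ hΦ using key
  have hΔ : asmgkDelta q i (T : Set (HeightOneSpectrum (𝓞 K))) p =
      gkDelta Φ (T : Set (HeightOneSpectrum (𝓞 K))) p := by
    ext b
    rw [mem_asmgkDelta_iff, mem_gkDelta_iff]
    refine and_congr_right fun _ => ⟨fun h v hv => ?_, fun h w => ?_⟩
    · obtain ⟨w, rfl⟩ := (hT v).1 (Finset.mem_coe.1 hv)
      exact ((hΦ _ w rfl) b).2 (h w)
    · have hw : lgPlace (q w) (i w) ∈ (T : Set (HeightOneSpectrum (𝓞 K))) :=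
        Finset.mem_coe.2 ((hT _).2 ⟨w, rfl⟩)
      exact ((hΦ _ w rfl) b).1 (h _ hw)
  rw [hΔ]
  exact gk_relIndex_delta_eq Φ p ζ hp2 hζ T hTp

end Indexed

end Fermat.Agent.S55
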