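import Fermat.Agent.S55.Asm.Reps
import Fermat.Agent.S55.Bridge.Levels
import Fermat.Agent.S55.LocalBridgeSpec
import Fermat.Agent.S55.LG.QbarLevels

/-!
# S55, package ASM: THE DATA of `core_triv` (definitions, sorry-free).

`D = locSysS S`, `H ≤ GQ` open for `levelsS S`, `H ≤ ker (cycloChar p)`, `K' = fix H ∋ ζ_p`.

* `asmZeta p`             : a fixed primitive `p`-th root of unity `ζ₀ ∈ ℚ̄`.
* `smH2congr`             : transport of `smH2` along an equality of level structures.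
* `asmInvAt p S H v t`    : the local invariant of the place `w = (v, t)` of `K'`,
    `= lbInv q p ζ_w Γ_w ρ_w` (helper22) with `q = v`, `Γ_w = mackeySub ((locSysS S).r v) H t`
    `= {γ | t * r_q γ * t⁻¹ ∈ H}`, `ρ_w = (trivRep H).comp (mackeyHom ..)` (trivial), and
    **`ζ_w = padicEmbedding q (t⁻¹ ζ₀)`** (the place `w` is the embedding `x ↦ emb_q (t⁻¹ x)` of `ℚ̄`;
    a global class `[ζ₀^c]`, `c` a `ZMod p`-valued cocycle of `H`, localises to
    `(γ, δ) ↦ emb_q (t⁻¹ ζ₀) ^ c (t r γ t⁻¹, t r δ t⁻¹)`).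
* `asmInv p S H T`        : `Σ_w asmInvAt ∘ proj_w` on `∏_w H²(Γ_w, k)`, `w ∈ Σ v, T v`.
* `asmInvQAt p S v`, `asmInvQ p S` : the same over `ℚ` with coefficients `chiRep (cycloChar p)`
    (`Γ = ⊤`, `t = 1`): the functional whose reciprocity law gives the trace `tr`.
-/

set_option autoImplicit false
set_option linter.style.haveILetI false

namespace Fermat.Agent.S55

open ExtCitation

section Zeta

variable (p : ℕ) [Fact p.Prime]

theorem asm_exists_zeta : ∃ ζ : AlgebraicClosure ℚ, IsPrimitiveRoot ζ p := by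
  haveI : NeZero (p : AlgebraicClosure ℚ) := ⟨by
    exact_mod_cast (Fact.out : p.Prime).ne_zero⟩
  exact HasEnoughRootsOfUnity.exists_primitiveRoot (AlgebraicClosure ℚ) p

/-- a fixed primitive `p`-th root of unity in `ℚ̄` -/
noncomputable def asmZeta : AlgebraicClosure ℚ := Classical.choose (asm_exists_zeta p)

theorem asmZeta_spec : IsPrimitiveRoot (asmZeta p) p := Classical.choose_spec (asm_exists_zeta p)

end Zeta

section Congr

variable {k : Type*} [CommRing k] {G : Type*} [Group G] {V : Type*} [AddCommGroup V] [Module k V]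

/-- transport of `smH2` along an equality of level structures -/
noncomputable def smH2congr {𝓛 𝓛' : Levels G} (h : 𝓛 = 𝓛') (ρ : Representation k G V) :
    smH2 𝓛 ρ ≃ₗ[k] smH2 𝓛' ρ := h ▸ LinearEquiv.refl k _

theorem smH2congr_mk {𝓛 𝓛' : Levels G} (h : 𝓛 = 𝓛') (ρ : Representation k G V)
    (f : G × G → V) (hf : f ∈ smZ2 𝓛 ρ) :
    smH2congr h ρ (smH2π 𝓛 ρ ⟨f, hf⟩) = smH2π 𝓛' ρ ⟨f, h ▸ hf⟩ := by
  subst h
  rfl

end Congr

section Data

variable (p : ℕ) [Fact p.Prime] (S : Finset Nat.Primes) (H : Subgroup GQ)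

/-- the levels of the local group at `(v, t)` are those of helper22's local bridge -/
theorem asm_lev_eq (v : ↥S) (t : GQ) :
    haveI : Fact ((v.1 : Nat.Primes) : ℕ).Prime := ⟨v.1.2⟩
    (((locSysS S).lev v).sub (mackeySub ((locSysS S).r v) H t) :
        Levels ↥(mackeySub ((locSysS S).r v) H t)) =
      (lbLevels ((v.1 : Nat.Primes) : ℕ)).sub (mackeySub ((locSysS S).r v) H t) :=
  congrArg (fun 𝓛 : Levels (primeLocalGaloisGroup v.1) => 𝓛.sub (mackeySub ((locSysS S).r v) H t))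
    (lg_locSysS_lev S v)

/-- the primitive root `ζ_w = emb_q (t⁻¹ ζ₀)` at the place `w = (v, t)` -/
noncomputable def asmZetaAt (v : ↥S) (t : GQ) :
    haveI : Fact ((v.1 : Nat.Primes) : ℕ).Prime := ⟨v.1.2⟩
    PadicAlgCl ((v.1 : Nat.Primes) : ℕ) :=
  haveI : Fact ((v.1 : Nat.Primes) : ℕ).Prime := ⟨v.1.2⟩
  padicEmbedding ((v.1 : Nat.Primes) : ℕ) (t⁻¹ (asmZeta p))

/-- THE LOCAL INVARIANT at the place `w = (v, t)` of `K' = fix H` -/
noncomputable def asmInvAt (v : ↥S) (t : GQ) :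
    smH2 (((locSysS S).lev v).sub (mackeySub ((locSysS S).r v) H t))
      ((trivRep (k := ZMod p) H).comp (mackeyHom ((locSysS S).r v) H t)) →ₗ[ZMod p] ZMod p :=
  haveI : Fact ((v.1 : Nat.Primes) : ℕ).Prime := ⟨v.1.2⟩
  (lbInv ((v.1 : Nat.Primes) : ℕ) p (asmZetaAt p S v t) (mackeySub ((locSysS S).r v) H t)
      ((trivRep (k := ZMod p) H).comp (mackeyHom ((locSysS S).r v) H t))).comp
    (smH2congr (asm_lev_eq S H v t)
      ((trivRep (k := ZMod p) H).comp (mackeyHom ((locSysS S).r v) H t))).toLinearMap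

variable (T : ↥S → Finset GQ)

/-- THE FUNCTIONAL `inv = Σ_w inv_w` of `CritTriv` for `D' = locSysMackey (locSysS S) H T` -/
noncomputable def asmInv :
    (∀ w, smH2 ((locSysMackey (locSysS S) H T).lev w)
      ((locSysMackey (locSysS S) H T).rep (trivRep (k := ZMod p) H) w)) →ₗ[ZMod p] ZMod p :=
  ∑ w : (Σ v : ↥S, ↥(T v)), (asmInvAt p S H w.1 (w.2 : GQ)).comp
    (LinearMap.proj (R := ZMod p)
      (φ := fun w => smH2 ((locSysMackey (locSysS S) H T).lev w)
        ((locSysMackey (locSysS S) H T).rep (trivRep (k := ZMod p) H) w)) w)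

theorem asmInv_apply (b : ∀ w, smH2 ((locSysMackey (locSysS S) H T).lev w)
      ((locSysMackey (locSysS S) H T).rep (trivRep (k := ZMod p) H) w)) :
    asmInv p S H T b = ∑ w : (Σ v : ↥S, ↥(T v)), asmInvAt p S H w.1 (w.2 : GQ) (b w) := by
  rw [asmInv, LinearMap.sum_apply]
  rfl

end Data

section DataQ

variable (p : ℕ) [Fact p.Prime] (S : Finset Nat.Primes)

/-- the levels of `⊤ ≤ Gal(ℚ̄_q/ℚ_q)` -/
theorem asm_lev_top_eq (v : ↥S) :
    haveI : Fact ((v.1 : Nat.Primes) : ℕ).Prime := ⟨v.1.2⟩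
    (((locSysS S).lev v).sub (⊤ : Subgroup (primeLocalGaloisGroup v.1)) :
        Levels ↥(⊤ : Subgroup (primeLocalGaloisGroup v.1))) =
      (lbLevels ((v.1 : Nat.Primes) : ℕ)).sub (⊤ : Subgroup (primeLocalGaloisGroup v.1)) :=
  congrArg (fun 𝓛 : Levels (primeLocalGaloisGroup v.1) => 𝓛.sub ⊤) (lg_locSysS_lev S v)

/-- THE LOCAL INVARIANT of `ℚ_q`, `q = v ∈ S`, coefficients `μ_p = k(χ)` -/
noncomputable def asmInvQAt (v : ↥S) :
    smH2 ((locSysS S).lev v) ((locSysS S).rep (chiRep (cycloChar p)) v) →ₗ[ZMod p] ZMod p :=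
  haveI : Fact ((v.1 : Nat.Primes) : ℕ).Prime := ⟨v.1.2⟩
  ((lbInv ((v.1 : Nat.Primes) : ℕ) p (padicEmbedding ((v.1 : Nat.Primes) : ℕ) (asmZeta p))
      (⊤ : Subgroup (primeLocalGaloisGroup v.1))
      (((locSysS S).rep (chiRep (cycloChar p)) v).comp
        (⊤ : Subgroup (primeLocalGaloisGroup v.1)).subtype)).comp
    (smH2congr (asm_lev_top_eq S v) _).toLinearMap).comp
  (smH2res ((locSysS S).rep (chiRep (cycloChar p)) v)
    (Levels.continuous_comap ((locSysS S).lev v)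
      (⊤ : Subgroup (primeLocalGaloisGroup v.1)).subtype))

/-- THE FUNCTIONAL `Σ_v inv_v` on `∏_{v ∈ S} H²(ℚ_v, μ_p)` -/
noncomputable def asmInvQ :
    (∀ v, smH2 ((locSysS S).lev v) ((locSysS S).rep (chiRep (cycloChar p)) v)) →ₗ[ZMod p]
      ZMod p :=
  ∑ v : ↥S, (asmInvQAt p S v).comp
    (LinearMap.proj (R := ZMod p)
      (φ := fun v => smH2 ((locSysS S).lev v) ((locSysS S).rep (chiRep (cycloChar p)) v)) v)

theorem asmInvQ_apply
    (b : ∀ v, smH2 ((locSysS S).lev v) ((locSysS S).rep (chiRep (cycloChar p)) v)) :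
    asmInvQ p S b = ∑ v : ↥S, asmInvQAt p S v (b v) := by
  rw [asmInvQ, LinearMap.sum_apply]
  rfl

end DataQ

end Fermat.Agent.S55
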