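/-
S55 / ASM: the KUMMER DICTIONARY between the global Kummer functions `sbKumFun` (helper9, SB-KG1) on
`H = E.fixingSubgroup ≤ GQ` and the local ones `lbKumFun` (helper2, LB3) on the local groups
`V_w = {γ | t r_q(γ) t⁻¹ ∈ H}` of the places `w = (q, t)` of `E` (helper2, `LG/QbarMackey.lean`).

* section Local: the LB3 statements for a subgroup `V` that is only PROPOSITIONALLY equal to
  `Eloc.fixingSubgroup` and levels only propositionally equal to `(lbLevels q).sub V`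
  (the shape in which they occur in `locSysMackey`);
* section Restrict: `sbKumFun ζ₀ H a ∘ r = lbKumFun (emb_q (t⁻¹ ζ₀)) V (emb_q (t⁻¹ a))` for every
  `r : V →* H` with `r γ = t r_q(γ) t⁻¹`.
Helper names are prefixed `asmk`.
-/
import Fermat.Agent.S55.Asm.TrivDefs
import Fermat.Agent.S55.LG.QbarMackey
import Fermat.Agent.S55.SB.KummerGlobal

set_option autoImplicit false
set_option linter.style.haveILetI false
set_option linter.unusedSectionVars false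
set_option linter.unusedVariables false

namespace Fermat.Agent.S55

open NumberField ExtCitation

section Local

variable {q : ℕ} [Fact q.Prime] {p : ℕ} [Fact p.Prime] {ζ : PadicAlgCl q}
  (hζ : IsPrimitiveRoot ζ p) (Eloc : IntermediateField ℚ_[q] (PadicAlgCl q))
  [FiniteDimensional ℚ_[q] Eloc] (hζE : ζ ∈ Eloc)
  (V : Subgroup (lbGal q)) (hV : V = Eloc.fixingSubgroup)
  {𝓛 : Levels ↥V} (h𝓛 : 𝓛 = (lbLevels q).sub V)
  (ρ : Representation (ZMod p) ↥V (ZMod p)) (hρ : IsMuRep ζ V ρ)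

include hζ hζE hV h𝓛 hρ

/-- Kummer surjectivity for `V = Eloc.fixingSubgroup`. -/
theorem asmk_lbKumFun_surjective (f : ↥V → ZMod p) (hf : f ∈ smZ1 𝓛 ρ) :
    ∃ a : (↥Eloc)ˣ, f = lbKumFun ζ V (((a : (↥Eloc)ˣ) : ↥Eloc) : PadicAlgCl q) := by
  subst hV
  subst h𝓛
  exact lbKumFun_surjective hζ Eloc hζE ρ hρ f hf

theorem asmk_lbKumFun_mem_smZ1 (a : (↥Eloc)ˣ) :
    lbKumFun ζ V (((a : (↥Eloc)ˣ) : ↥Eloc) : PadicAlgCl q) ∈ smZ1 𝓛 ρ := by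
  subst hV
  subst h𝓛
  exact lbKumFun_mem_smZ1 hζ Eloc hζE ρ hρ a

omit h𝓛 hρ in
theorem asmk_lbKumFun_mul (a b : (↥Eloc)ˣ) :
    lbKumFun (p := p) ζ V ((((a * b : (↥Eloc)ˣ) : (↥Eloc)ˣ) : ↥Eloc) : PadicAlgCl q) =
      lbKumFun ζ V (((a : (↥Eloc)ˣ) : ↥Eloc) : PadicAlgCl q) +
        lbKumFun ζ V (((b : (↥Eloc)ˣ) : ↥Eloc) : PadicAlgCl q) := by
  subst hV
  exact lbKumFun_mul hζ Eloc hζE a b

omit h𝓛 hρ in
theorem asmk_lbKumFun_eq_zero_iff (a : (↥Eloc)ˣ) :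
    lbKumFun (p := p) ζ V (((a : (↥Eloc)ˣ) : ↥Eloc) : PadicAlgCl q) = 0 ↔
      ∃ c : (↥Eloc)ˣ, c ^ p = a := by
  subst hV
  exact lbKumFun_eq_zero_iff hζ Eloc hζE a

omit h𝓛 hρ in
/-- `κ_{x c^p} = κ_x`. -/
theorem asmk_lbKumFun_mul_pow (x c : (↥Eloc)ˣ) :
    lbKumFun (p := p) ζ V ((((x * c ^ p : (↥Eloc)ˣ) : (↥Eloc)ˣ) : ↥Eloc) : PadicAlgCl q) =
      lbKumFun ζ V (((x : (↥Eloc)ˣ) : ↥Eloc) : PadicAlgCl q) := by
  rw [asmk_lbKumFun_mul hζ Eloc hζE V hV x (c ^ p),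
    (asmk_lbKumFun_eq_zero_iff hζ Eloc hζE V hV (c ^ p)).2 ⟨c, rfl⟩, add_zero]

/-- CUP PRODUCT = KUMMER SYMBOL in `locSysMackey` form: `inv (κ_b ∪ κ_a) = (a, b)`. -/
theorem asmk_lbInv_cup (P : PairingData 𝓛 ρ ρ ρ (LinearMap.mul (ZMod p) (ZMod p)))
    (a b : (↥Eloc)ˣ)
    (ha : lbKumFun ζ V (((a : (↥Eloc)ˣ) : ↥Eloc) : PadicAlgCl q) ∈ smZ1 𝓛 ρ)
    (hb : lbKumFun ζ V (((b : (↥Eloc)ˣ) : ↥Eloc) : PadicAlgCl q) ∈ smZ1 𝓛 ρ) :
    lbInv q p ζ V ρ (smH2congr h𝓛 ρ (cupH11 P (smH1π 𝓛 ρ ⟨_, hb⟩) (smH1π 𝓛 ρ ⟨_, ha⟩))) =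
      lfSymbol q ↥Eloc p (⟨ζ, hζE⟩ : ↥Eloc) a b := by
  subst hV
  subst h𝓛
  have hρ1 := IsMuRep.eq_one hζ Eloc hζE ρ hρ
  have hc := crita_cup11_mem P
    (⟨_, hb⟩ : ↥(smZ1 ((lbLevels q).sub Eloc.fixingSubgroup) ρ))
    (⟨_, ha⟩ : ↥(smZ1 ((lbLevels q).sub Eloc.fixingSubgroup) ρ))
  have hfun : cup11 (LinearMap.mul (ZMod p) (ZMod p)) ρ
      (lbKumFun ζ Eloc.fixingSubgroup (((b : (↥Eloc)ˣ) : ↥Eloc) : PadicAlgCl q))
      (lbKumFun ζ Eloc.fixingSubgroup (((a : (↥Eloc)ˣ) : ↥Eloc) : PadicAlgCl q)) =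
      (fun s : ↥Eloc.fixingSubgroup × ↥Eloc.fixingSubgroup =>
        lbKumFun (p := p) ζ Eloc.fixingSubgroup (((b : (↥Eloc)ˣ) : ↥Eloc) : PadicAlgCl q) s.1 *
          lbKumFun ζ Eloc.fixingSubgroup (((a : (↥Eloc)ˣ) : ↥Eloc) : PadicAlgCl q) s.2) := by
    funext s
    rw [hρ1]
    rfl
  have hc' := hc
  simp only at hc'
  rw [hfun] at hc'
  have h1 := lbInv_cup_lbKumFun hζ Eloc hζE ρ hρ a b hc'
  rw [← h1]
  congr 1
  show smH2π _ ρ _ = smH2π _ ρ _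
  congr 1
  exact Subtype.ext hfun

end Local

section Restrict

variable {q : ℕ} [Fact q.Prime] {p : ℕ} [Fact p.Prime] {ζ₀ : AlgebraicClosure ℚ}
  (hζ₀ : IsPrimitiveRoot ζ₀ p) (E : IntermediateField ℚ (AlgebraicClosure ℚ)) [NumberField ↥E]
  (hζE : ζ₀ ∈ E) (t : GQ)

/-- the localisation `Eˣ → E_wˣ` at the `t`-twisted embedding -/
noncomputable def asmkLoc (q : ℕ) [Fact q.Prime] (E : IntermediateField ℚ (AlgebraicClosure ℚ))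
    [NumberField ↥E] (t : GQ) : (↥E)ˣ →* (↥(lgField q (lgqmEmb q E t)))ˣ :=
  Units.map (lgEmb q (lgqmEmb q E t) : ↥E →* ↥(lgField q (lgqmEmb q E t)))

theorem asmkLoc_coe (a : (↥E)ˣ) :
    (((asmkLoc q E t a : (↥(lgField q (lgqmEmb q E t)))ˣ) : ↥(lgField q (lgqmEmb q E t))) :
      PadicAlgCl q) = padicEmbedding q ((t⁻¹ : GQ) (((a : (↥E)ˣ) : ↥E) : AlgebraicClosure ℚ)) :=
  rfl

include hζ₀ in
/-- the local root of unity `ζ_w = emb_q (t⁻¹ ζ₀)` is primitive -/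
theorem asmk_isPrimitiveRoot_loc : IsPrimitiveRoot (padicEmbedding q ((t⁻¹ : GQ) ζ₀)) p := by
  have h1 : IsPrimitiveRoot ((t⁻¹ : GQ) ζ₀) p :=
    hζ₀.map_of_injective (f := ((t⁻¹ : GQ) : AlgebraicClosure ℚ ≃ₐ[ℚ] AlgebraicClosure ℚ))
      (AlgEquiv.injective _)
  exact h1.map_of_injective (f := padicEmbedding q) (lgq_padicEmbedding_injective q)

include hζE in
/-- `ζ_w` lies in the completion `E_w` -/
theorem asmk_zeta_mem : padicEmbedding q ((t⁻¹ : GQ) ζ₀) ∈ lgField q (lgqmEmb q E t) :=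
  range_le_lgField q (lgqmEmb q E t) ⟨ζ₀, hζE⟩

include hζ₀ hζE in
/-- RESTRICTION OF KUMMER FUNCTIONS: for `r γ = t r_q(γ) t⁻¹`,
`κ^glob_a (r γ) = κ^loc_{emb_q (t⁻¹ a)} (γ)`. -/
theorem asmk_kumFun_restrict (V : Subgroup (lbGal q))
    (hV : V = (lgField q (lgqmEmb q E t)).fixingSubgroup)
    (r : ↥V →* ↥E.fixingSubgroup)
    (hr : ∀ γ : ↥V, ((r γ : ↥E.fixingSubgroup) : GQ) =
      t * localGaloisToGlobal q (γ : lbGal q) * t⁻¹)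
    (a : (↥E)ˣ) (γ : ↥V) :
    sbKumFun (p := p) ζ₀ E.fixingSubgroup (((a : (↥E)ˣ) : ↥E) : AlgebraicClosure ℚ) (r γ) =
      lbKumFun (padicEmbedding q ((t⁻¹ : GQ) ζ₀)) V
        (((asmkLoc q E t a : (↥(lgField q (lgqmEmb q E t)))ˣ) :
          ↥(lgField q (lgqmEmb q E t))) : PadicAlgCl q) γ := by
  subst hV
  set α := sbRoot p ((((a : (↥E)ˣ) : ↥E) : AlgebraicClosure ℚ)) with hαdef
  have hα : α ^ p = (((a : (↥E)ˣ) : ↥E) : AlgebraicClosure ℚ) := sbRoot_pow (p := p) _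
  have h1 := sbKumFun_spec hζ₀ E hζE a α hα (r γ)
  rw [hr γ, AlgEquiv.mul_apply, AlgEquiv.mul_apply] at h1
  have h2 : localGaloisToGlobal q (γ : lbGal q) ((t⁻¹ : GQ) α) =
      ((t⁻¹ : GQ) ζ₀) ^ (sbKumFun (p := p) ζ₀ E.fixingSubgroup
        (((a : (↥E)ˣ) : ↥E) : AlgebraicClosure ℚ) (r γ)).val * (t⁻¹ : GQ) α := by
    have h3 := congrArg (t⁻¹ : GQ) h1
    rw [← AlgEquiv.mul_apply, inv_mul_cancel, AlgEquiv.one_apply, map_mul, map_pow] at h3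
    exact h3
  have hαw : (padicEmbedding q ((t⁻¹ : GQ) α)) ^ p =
      (((asmkLoc q E t a : (↥(lgField q (lgqmEmb q E t)))ˣ) :
          ↥(lgField q (lgqmEmb q E t))) : PadicAlgCl q) := by
    rw [asmkLoc_coe, ← map_pow, ← map_pow, hα]
  symm
  rw [lbk_kumFun_eq_iff (asmk_isPrimitiveRoot_loc hζ₀ t) (lgField q (lgqmEmb q E t))
    (asmk_zeta_mem E hζE t) (asmkLoc q E t a) _ hαw γ]
  rw [← padicEmbedding_localGaloisToGlobal, h2, map_mul, map_pow]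

end Restrict

end Fermat.Agent.S55
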