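/-
S55 / ASM, leaf AS-b1 (row 331): the field `b1` of `CritTriv` for `D' = locSysMackey (locSysS S) H T`,
`inv = asmInv p S H T`: a family `b ∈ ∏_w H¹(Γ_w, 𝔽_p)` orthogonal to the image of `H¹(H, 𝔽_p)` under
`Σ_w inv_w (b_w ∪ c_w)` is global.

Route: `H = E.fixingSubgroup` (`sb_isOpen_iff`), `ζ₀ ∈ E`; local Kummer theory at every `w = (v, t)`
(helper2 LB3 through `Asm/KumDict.lean`): `b_w = [κ_{x_w}]`, `x_w ∈ E_wˣ`; global Kummer theory
(helper9 SB-KG1): `H¹(H, 𝔽_p) = {[κ_a] | a ∈ V_T}`; restriction `κ_a ∘ mackeyHom = κ_{loc_w a}`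
(`asmk_kumFun_restrict`); `inv_w (κ_x ∪ κ_y) = (y, x)_w` (`asmk_lbInv_cup`); places of `E` above `S`
`↔ Σ v, T v` (helper2 `LG/QbarMackey.lean`); then helper9's `gk_exact_annihilator` in indexed form
(`Asm/GkIndexed.lean`).  Helper names are prefixed `asmb1`.
-/
import Fermat.Agent.S55.Asm.KumDict
import Fermat.Agent.S55.Asm.GkIndexed
import Fermat.Agent.S55.GK.SpecU5

set_option autoImplicit false
set_option linter.style.haveILetI false
set_option linter.unusedSectionVars false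
set_option linter.unusedVariables false

namespace Fermat.Agent.S55

open NumberField IsDedekindDomain ExtCitation

section Place

set_option maxSynthPendingDepth 3

variable (p : ℕ) [Fact p.Prime] (S : Finset Nat.Primes)
  (E : IntermediateField ℚ (AlgebraicClosure ℚ))

/-- the local group at the place `w = (v, t)` of `E` -/
noncomputable abbrev asmb1V (v : ↥S) (t : GQ) : Subgroup (primeLocalGaloisGroup v.1) :=
  mackeySub ((locSysS S).r v) E.fixingSubgroup t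

/-- its levels (as they occur in `locSysMackey`) -/
noncomputable abbrev asmb1Lev (v : ↥S) (t : GQ) : Levels ↥(asmb1V S E v t) :=
  ((locSysS S).lev v).sub (asmb1V S E v t)

/-- the (trivial) local representation (as it occurs in `locSysMackey`) -/
noncomputable abbrev asmb1Rho (v : ↥S) (t : GQ) : Representation (ZMod p) ↥(asmb1V S E v t) (ZMod p) :=
  (trivRep (k := ZMod p) E.fixingSubgroup).comp (mackeyHom ((locSysS S).r v) E.fixingSubgroup t)

/-- the completion of `E` at `w = (v, t)` -/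
noncomputable abbrev asmb1Fld (v : ↥S) (t : GQ) :
    haveI : Fact ((v.1 : Nat.Primes) : ℕ).Prime := ⟨v.1.2⟩
    IntermediateField ℚ_[((v.1 : Nat.Primes) : ℕ)] (PadicAlgCl ((v.1 : Nat.Primes) : ℕ)) :=
  haveI : Fact ((v.1 : Nat.Primes) : ℕ).Prime := ⟨v.1.2⟩
  lgField ((v.1 : Nat.Primes) : ℕ) (lgqmEmb ((v.1 : Nat.Primes) : ℕ) E t)

variable {p} [NumberField ↥E] (hζE : asmZeta p ∈ E) (v : ↥S) (t : GQ)

include hζE

/-- (a) every local class at `w = (v, t)` is a Kummer class. -/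
theorem asmb1_exists_kum (β : smH1 (asmb1Lev S E v t) (asmb1Rho p S E v t)) :
    haveI : Fact ((v.1 : Nat.Primes) : ℕ).Prime := ⟨v.1.2⟩
    ∃ (x : (↥(asmb1Fld S E v t))ˣ)
      (hx : lbKumFun (p := p) (asmZetaAt p S v t) (asmb1V S E v t)
        (((x : (↥(asmb1Fld S E v t))ˣ) : ↥(asmb1Fld S E v t)) :
            PadicAlgCl ((v.1 : Nat.Primes) : ℕ)) ∈
        smZ1 (asmb1Lev S E v t) (asmb1Rho p S E v t)),
      β = smH1π (asmb1Lev S E v t) (asmb1Rho p S E v t) ⟨_, hx⟩ := by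
  haveI : Fact ((v.1 : Nat.Primes) : ℕ).Prime := ⟨v.1.2⟩
  obtain ⟨f, rfl⟩ := Submodule.mkQ_surjective _ β
  obtain ⟨x, hx⟩ := asmk_lbKumFun_surjective
    (asmk_isPrimitiveRoot_loc (q := ((v.1 : Nat.Primes) : ℕ)) (asmZeta_spec p) t)
    (lgField ((v.1 : Nat.Primes) : ℕ) (lgqmEmb ((v.1 : Nat.Primes) : ℕ) E t))
    (asmk_zeta_mem E hζE t) (mackeySub ((locSysS S).r v) E.fixingSubgroup t)
    (lgqm_mackeySub_eq S v E t) (asm_lev_eq S E.fixingSubgroup v t) _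
    (lgqm_isMuRep_triv S v p t (asmZeta p) hζE) f.1 f.2
  refine ⟨x, ?_, ?_⟩
  · have h2 := f.2
    rw [hx] at h2
    exact h2
  · congr 1
    apply Subtype.ext
    exact hx

/-- Kummer functions of local units are smooth cocycles at `w = (v, t)`. -/
theorem asmb1_kum_mem :
    haveI : Fact ((v.1 : Nat.Primes) : ℕ).Prime := ⟨v.1.2⟩
    ∀ x : (↥(asmb1Fld S E v t))ˣ,
      lbKumFun (p := p) (asmZetaAt p S v t) (asmb1V S E v t)
        (((x : (↥(asmb1Fld S E v t))ˣ) : ↥(asmb1Fld S E v t)) :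
            PadicAlgCl ((v.1 : Nat.Primes) : ℕ)) ∈
        smZ1 (asmb1Lev S E v t) (asmb1Rho p S E v t) := by
  haveI : Fact ((v.1 : Nat.Primes) : ℕ).Prime := ⟨v.1.2⟩
  intro x
  exact asmk_lbKumFun_mem_smZ1
    (asmk_isPrimitiveRoot_loc (q := ((v.1 : Nat.Primes) : ℕ)) (asmZeta_spec p) t)
    (lgField ((v.1 : Nat.Primes) : ℕ) (lgqmEmb ((v.1 : Nat.Primes) : ℕ) E t))
    (asmk_zeta_mem E hζE t) (mackeySub ((locSysS S).r v) E.fixingSubgroup t)
    (lgqm_mackeySub_eq S v E t) (asm_lev_eq S E.fixingSubgroup v t) _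
    (lgqm_isMuRep_triv S v p t (asmZeta p) hζE) x

/-- (b) the restriction to `w = (v, t)` of a global Kummer class is the Kummer class of the
localisation. -/
theorem asmb1_res_kum (a : (↥E)ˣ)
    (hsm : sbKumFun (p := p) (asmZeta p) E.fixingSubgroup
        (((a : (↥E)ˣ) : ↥E) : AlgebraicClosure ℚ) ∈
      smZ1 ((levelsS S).sub E.fixingSubgroup) (trivRep (k := ZMod p) E.fixingSubgroup))
    (hcont : (asmb1Lev S E v t).Continuous ((levelsS S).sub E.fixingSubgroup)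
      (mackeyHom ((locSysS S).r v) E.fixingSubgroup t)) :
    haveI : Fact ((v.1 : Nat.Primes) : ℕ).Prime := ⟨v.1.2⟩
    smH1res (trivRep (k := ZMod p) E.fixingSubgroup) hcont
        (smH1π ((levelsS S).sub E.fixingSubgroup) (trivRep (k := ZMod p) E.fixingSubgroup)
          ⟨_, hsm⟩) =
      smH1π (asmb1Lev S E v t) (asmb1Rho p S E v t)
        ⟨_, asmb1_kum_mem S E hζE v t (asmkLoc ((v.1 : Nat.Primes) : ℕ) E t a)⟩ := by
  haveI : Fact ((v.1 : Nat.Primes) : ℕ).Prime := ⟨v.1.2⟩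
  rw [smH1res_mk]
  congr 1
  apply Subtype.ext
  funext γ
  exact asmk_kumFun_restrict (q := ((v.1 : Nat.Primes) : ℕ)) (asmZeta_spec p) E hζE t
    (mackeySub ((locSysS S).r v) E.fixingSubgroup t) (lgqm_mackeySub_eq S v E t)
    (mackeyHom ((locSysS S).r v) E.fixingSubgroup t) (fun γ => rfl) a γ

/-- (c) `inv_w (κ_x ∪ κ_y) = (y, x)_w`. -/
theorem asmb1_inv_cup
    (P' : PairingData (asmb1Lev S E v t) (asmb1Rho p S E v t) (asmb1Rho p S E v t)
      (asmb1Rho p S E v t) (LinearMap.mul (ZMod p) (ZMod p))) :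
    haveI : Fact ((v.1 : Nat.Primes) : ℕ).Prime := ⟨v.1.2⟩
    ∀ x y : (↥(asmb1Fld S E v t))ˣ,
      asmInvAt p S E.fixingSubgroup v t
          (cupH11 P' (smH1π (asmb1Lev S E v t) (asmb1Rho p S E v t)
              ⟨_, asmb1_kum_mem S E hζE v t x⟩)
            (smH1π (asmb1Lev S E v t) (asmb1Rho p S E v t) ⟨_, asmb1_kum_mem S E hζE v t y⟩)) =
        lfSymbol ((v.1 : Nat.Primes) : ℕ) ↥(asmb1Fld S E v t) p
          (⟨asmZetaAt p S v t, asmk_zeta_mem E hζE t⟩ : ↥(asmb1Fld S E v t)) y x := by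
  haveI : Fact ((v.1 : Nat.Primes) : ℕ).Prime := ⟨v.1.2⟩
  intro x y
  exact asmk_lbInv_cup
    (asmk_isPrimitiveRoot_loc (q := ((v.1 : Nat.Primes) : ℕ)) (asmZeta_spec p) t)
    (lgField ((v.1 : Nat.Primes) : ℕ) (lgqmEmb ((v.1 : Nat.Primes) : ℕ) E t))
    (asmk_zeta_mem E hζE t) (mackeySub ((locSysS S).r v) E.fixingSubgroup t)
    (lgqm_mackeySub_eq S v E t) (asm_lev_eq S E.fixingSubgroup v t) _
    (lgqm_isMuRep_triv S v p t (asmZeta p) hζE) P' y x
    (asmb1_kum_mem S E hζE v t y) (asmb1_kum_mem S E hζE v t x)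

end Place

section Places

variable (S : Finset Nat.Primes) (E : IntermediateField ℚ (AlgebraicClosure ℚ)) [NumberField ↥E]
  (T : ↥S → Finset GQ) (hT : IsDoubleCosetReps (locSysS S) E.fixingSubgroup T)

/-- the place of `E` attached to `w = (v, t)` -/
noncomputable def asmb1Place (w : Σ v : ↥S, ↥(T v)) : HeightOneSpectrum (𝓞 ↥E) :=
  haveI : Fact ((w.1.1 : Nat.Primes) : ℕ).Prime := ⟨w.1.1.2⟩
  lgPlace ((w.1.1 : Nat.Primes) : ℕ) (lgqmEmb ((w.1.1 : Nat.Primes) : ℕ) E (w.2 : GQ))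

include hT in
theorem asmb1Place_injective : Function.Injective (asmb1Place S E T) := by
  rintro ⟨v, t⟩ ⟨v', t'⟩ h
  haveI : Fact ((v.1 : Nat.Primes) : ℕ).Prime := ⟨v.1.2⟩
  haveI : Fact ((v'.1 : Nat.Primes) : ℕ).Prime := ⟨v'.1.2⟩
  have h1 : gePrime ↥E (asmb1Place S E T ⟨v, t⟩) = ((v.1 : Nat.Primes) : ℕ) :=
    gePrime_eq_of_mem _ v.1.2 (natCast_mem_lgIdeal _ _)
  have h2 : gePrime ↥E (asmb1Place S E T ⟨v', t'⟩) = ((v'.1 : Nat.Primes) : ℕ) :=
    gePrime_eq_of_mem _ v'.1.2 (natCast_mem_lgIdeal _ _)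
  rw [h, h2] at h1
  have hv : v = v' := Subtype.ext (Subtype.ext h1.symm)
  subst hv
  have ht : (t : GQ) = (t' : GQ) := lgqm_place_injOn hT v t.2 t'.2 h
  have ht' : t = t' := Subtype.ext ht
  rw [ht']

include hT in
theorem asmb1_mem_gkT_iff (u : HeightOneSpectrum (𝓞 ↥E)) :
    u ∈ gkT S ↥E ↔ ∃ w, asmb1Place S E T w = u := by
  rw [mem_gkT]
  constructor
  · rintro ⟨q, hq, hqu⟩
    obtain ⟨t, ht, htu⟩ := lgqm_place_surj hT ⟨q, hq⟩ u hqu
    exact ⟨⟨⟨q, hq⟩, ⟨t, ht⟩⟩, htu⟩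
  · rintro ⟨w, rfl⟩
    haveI : Fact ((w.1.1 : Nat.Primes) : ℕ).Prime := ⟨w.1.1.2⟩
    exact ⟨w.1.1, w.1.2, natCast_mem_lgIdeal _ _⟩

end Places

section Main

set_option maxSynthPendingDepth 3

variable {p : ℕ} [Fact p.Prime]

set_option maxHeartbeats 1600000 in
/-- **AS-b1** for an arbitrary pairing datum `P` of the multiplication pairing (in `Asm/TrivSpec.lean`
`P = asm_P _`). -/
theorem asmb1_main (hp2 : p ≠ 2) (S : Finset Nat.Primes) (hpS : pPrime p ∈ S)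
    (H : Subgroup GQ) (hH : (levelsS S).IsOpen H) (hHχ : H ≤ (cycloChar p).ker)
    (T : ↥S → Finset GQ) (hT : IsDoubleCosetReps (locSysS S) H T)
    (P : PairingData ((levelsS S).sub H) (trivRep (k := ZMod p) H) (trivRep (k := ZMod p) H)
      (trivRep (k := ZMod p) H) (LinearMap.mul (ZMod p) (ZMod p))) :
    ∀ b : ∀ w, smH1 ((locSysMackey (locSysS S) H T).lev w)
        ((locSysMackey (locSysS S) H T).rep (trivRep (k := ZMod p) H) w),
      (∀ y : smH1 ((levelsS S).sub H) (trivRep (k := ZMod p) H),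
        pairI11 (locSysMackey (locSysS S) H T) P (asmInv p S H T) b
          (locP1 (locSysMackey (locSysS S) H T) (ρ := trivRep (k := ZMod p) H) y) = 0) →
        ∃ x : smH1 ((levelsS S).sub H) (trivRep (k := ZMod p) H),
          locP1 (locSysMackey (locSysS S) H T) (ρ := trivRep (k := ZMod p) H) x = b := by
  classical
  obtain ⟨E, hE, rfl⟩ := (sb_isOpen_iff S H).1 hH
  haveI hnf : NumberField ↥E := sb_numberField hE.1
  intro b hb
  have hζ0 := asmZeta_spec p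
  have hζE : asmZeta p ∈ E := sb_root_mem hHχ hζ0.pow_eq_one
  have hpS' : ∃ q ∈ S, ((q : Nat.Primes) : ℕ) = p := ⟨pPrime p, hpS, rfl⟩
  -- the root of unity in `E`
  have hζE' : IsPrimitiveRoot (⟨asmZeta p, hζE⟩ : ↥E) p :=
    IsPrimitiveRoot.of_map_of_injective (f := E.val) (by exact hζ0) E.val.injective
  -- local Kummer generators
  have hloc : ∀ w : Σ v : ↥S, ↥(T v),
      haveI : Fact ((w.1.1 : Nat.Primes) : ℕ).Prime := ⟨w.1.1.2⟩
      ∃ x : (↥(asmb1Fld S E w.1 (w.2 : GQ)))ˣ,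
        b w = smH1π (asmb1Lev S E w.1 (w.2 : GQ)) (asmb1Rho p S E w.1 (w.2 : GQ))
          ⟨_, asmb1_kum_mem S E hζE w.1 (w.2 : GQ) x⟩ := by
    intro w
    obtain ⟨x, hx, hbx⟩ := asmb1_exists_kum S E hζE w.1 (w.2 : GQ) (b w)
    exact ⟨x, hbx⟩
  choose x hbx using hloc
  -- the pairing against a global Kummer class, termwise
  have hterm : ∀ (b' : (↥E)ˣ)
      (hsm : sbKumFun (p := p) (asmZeta p) E.fixingSubgroup
          (((b' : (↥E)ˣ) : ↥E) : AlgebraicClosure ℚ) ∈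
        smZ1 ((levelsS S).sub E.fixingSubgroup) (trivRep (k := ZMod p) E.fixingSubgroup))
      (w : Σ v : ↥S, ↥(T v)),
      haveI : Fact ((w.1.1 : Nat.Primes) : ℕ).Prime := ⟨w.1.1.2⟩
      asmInvAt p S E.fixingSubgroup w.1 (w.2 : GQ)
          (cupH11 (P.loc (locSysMackey (locSysS S) E.fixingSubgroup T) w) (b w)
            (locP1 (locSysMackey (locSysS S) E.fixingSubgroup T)
              (ρ := trivRep (k := ZMod p) E.fixingSubgroup)
              (smH1π ((levelsS S).sub E.fixingSubgroup)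
                (trivRep (k := ZMod p) E.fixingSubgroup) ⟨_, hsm⟩) w)) =
        - lfSymbol ((w.1.1 : Nat.Primes) : ℕ) ↥(asmb1Fld S E w.1 (w.2 : GQ)) p
            (lgEmb ((w.1.1 : Nat.Primes) : ℕ) (lgqmEmb ((w.1.1 : Nat.Primes) : ℕ) E (w.2 : GQ))
              (⟨asmZeta p, hζE⟩ : ↥E)) (x w)
            (Units.map (lgEmb ((w.1.1 : Nat.Primes) : ℕ)
              (lgqmEmb ((w.1.1 : Nat.Primes) : ℕ) E (w.2 : GQ)) :
                ↥E →* ↥(asmb1Fld S E w.1 (w.2 : GQ))) b') := by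
    intro b' hsm w
    haveI : Fact ((w.1.1 : Nat.Primes) : ℕ).Prime := ⟨w.1.1.2⟩
    have e1 : locP1 (locSysMackey (locSysS S) E.fixingSubgroup T)
        (ρ := trivRep (k := ZMod p) E.fixingSubgroup)
        (smH1π ((levelsS S).sub E.fixingSubgroup)
          (trivRep (k := ZMod p) E.fixingSubgroup) ⟨_, hsm⟩) w =
        smH1π (asmb1Lev S E w.1 (w.2 : GQ)) (asmb1Rho p S E w.1 (w.2 : GQ))
          ⟨_, asmb1_kum_mem S E hζE w.1 (w.2 : GQ)
            (asmkLoc ((w.1.1 : Nat.Primes) : ℕ) E (w.2 : GQ) b')⟩ :=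
      asmb1_res_kum S E hζE w.1 (w.2 : GQ) b' hsm
        ((locSysMackey (locSysS S) E.fixingSubgroup T).cont w)
    rw [e1, hbx w]
    have h4 := asmb1_inv_cup S E hζE w.1 (w.2 : GQ)
      (P.loc (locSysMackey (locSysS S) E.fixingSubgroup T) w) (x w)
      (asmkLoc ((w.1.1 : Nat.Primes) : ℕ) E (w.2 : GQ) b')
    refine h4.trans ?_
    have hζw : IsPrimitiveRoot (⟨asmZetaAt p S w.1 (w.2 : GQ), asmk_zeta_mem E hζE (w.2 : GQ)⟩ :
        ↥(asmb1Fld S E w.1 (w.2 : GQ))) p :=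
      IsPrimitiveRoot.of_map_of_injective (f := (asmb1Fld S E w.1 (w.2 : GQ)).val)
        (by exact asmk_isPrimitiveRoot_loc (q := ((w.1.1 : Nat.Primes) : ℕ)) hζ0 (w.2 : GQ))
        (asmb1Fld S E w.1 (w.2 : GQ)).val.injective
    rw [lfSymbol_swap _ _ _ _ hζw]
    rfl
  -- the hypothesis of the exact-annihilator theorem
  have hx : ∀ b' : (↥E)ˣ, b' ∈ gkV ↥E (gkT S ↥E : Set (HeightOneSpectrum (𝓞 ↥E))) p →
      (∑ w : Σ v : ↥S, ↥(T v),
        (haveI : Fact ((w.1.1 : Nat.Primes) : ℕ).Prime := ⟨w.1.1.2⟩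
        lfSymbol ((w.1.1 : Nat.Primes) : ℕ) ↥(asmb1Fld S E w.1 (w.2 : GQ)) p
            (lgEmb ((w.1.1 : Nat.Primes) : ℕ) (lgqmEmb ((w.1.1 : Nat.Primes) : ℕ) E (w.2 : GQ))
              (⟨asmZeta p, hζE⟩ : ↥E)) (x w)
            (Units.map (lgEmb ((w.1.1 : Nat.Primes) : ℕ)
              (lgqmEmb ((w.1.1 : Nat.Primes) : ℕ) E (w.2 : GQ)) :
                ↥E →* ↥(asmb1Fld S E w.1 (w.2 : GQ))) b'))) = 0 := by
    intro b' hb'
    have hsm := (sbKumFun_mem_smZ1_iff hζ0 E hζE S hpS' hE b').2 hb'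
    have h1 := hb (smH1π ((levelsS S).sub E.fixingSubgroup)
      (trivRep (k := ZMod p) E.fixingSubgroup) ⟨_, hsm⟩)
    have h2 : pairI11 (locSysMackey (locSysS S) E.fixingSubgroup T) P
        (asmInv p S E.fixingSubgroup T) b
        (locP1 (locSysMackey (locSysS S) E.fixingSubgroup T)
          (ρ := trivRep (k := ZMod p) E.fixingSubgroup)
          (smH1π ((levelsS S).sub E.fixingSubgroup)
            (trivRep (k := ZMod p) E.fixingSubgroup) ⟨_, hsm⟩)) =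
        ∑ w : Σ v : ↥S, ↥(T v), asmInvAt p S E.fixingSubgroup w.1 (w.2 : GQ)
          (cupH11 (P.loc (locSysMackey (locSysS S) E.fixingSubgroup T) w) (b w)
            (locP1 (locSysMackey (locSysS S) E.fixingSubgroup T)
              (ρ := trivRep (k := ZMod p) E.fixingSubgroup)
              (smH1π ((levelsS S).sub E.fixingSubgroup)
                (trivRep (k := ZMod p) E.fixingSubgroup) ⟨_, hsm⟩) w)) :=
      asmInv_apply p S E.fixingSubgroup T _
    rw [h2, Finset.sum_congr rfl (fun w _ => hterm b' hsm w), Finset.sum_neg_distrib,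
      neg_eq_zero] at h1
    exact h1
  -- apply the exact-annihilator theorem
  obtain ⟨a, haV, ha⟩ := gk_exact_annihilator_indexed (K := ↥E) (ζ := (⟨asmZeta p, hζE⟩ : ↥E))
    hp2 hζE' (ι := Σ v : ↥S, ↥(T v))
    (fun w => ((w.1.1 : Nat.Primes) : ℕ)) (hq := fun w => ⟨w.1.1.2⟩)
    (fun w => lgqmEmb ((w.1.1 : Nat.Primes) : ℕ) E (w.2 : GQ))
    (asmb1Place_injective S E T hT) (gkT S ↥E) (asmb1_mem_gkT_iff S E T hT)
    (gkT_of_natCast_mem hpS') x hx
  -- the global class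
  have hsm := (sbKumFun_mem_smZ1_iff hζ0 E hζE S hpS' hE a).2 haV
  refine ⟨smH1π ((levelsS S).sub E.fixingSubgroup)
    (trivRep (k := ZMod p) E.fixingSubgroup) ⟨_, hsm⟩, ?_⟩
  funext w
  haveI : Fact ((w.1.1 : Nat.Primes) : ℕ).Prime := ⟨w.1.1.2⟩
  have e1 : locP1 (locSysMackey (locSysS S) E.fixingSubgroup T)
      (ρ := trivRep (k := ZMod p) E.fixingSubgroup)
      (smH1π ((levelsS S).sub E.fixingSubgroup)
        (trivRep (k := ZMod p) E.fixingSubgroup) ⟨_, hsm⟩) w =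
      smH1π (asmb1Lev S E w.1 (w.2 : GQ)) (asmb1Rho p S E w.1 (w.2 : GQ))
        ⟨_, asmb1_kum_mem S E hζE w.1 (w.2 : GQ)
          (asmkLoc ((w.1.1 : Nat.Primes) : ℕ) E (w.2 : GQ) a)⟩ :=
    asmb1_res_kum S E hζE w.1 (w.2 : GQ) a hsm
      ((locSysMackey (locSysS S) E.fixingSubgroup T).cont w)
  rw [e1, hbx w]
  congr 1
  apply Subtype.ext
  obtain ⟨c, hc⟩ := ha w
  have hc' : asmkLoc ((w.1.1 : Nat.Primes) : ℕ) E (w.2 : GQ) a = x w * c ^ p := hc
  show lbKumFun (p := p) (asmZetaAt p S w.1 (w.2 : GQ)) (asmb1V S E w.1 (w.2 : GQ)) _ =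
    lbKumFun (p := p) (asmZetaAt p S w.1 (w.2 : GQ)) (asmb1V S E w.1 (w.2 : GQ)) _
  rw [hc']
  exact asmk_lbKumFun_mul_pow
    (asmk_isPrimitiveRoot_loc (q := ((w.1.1 : Nat.Primes) : ℕ)) hζ0 (w.2 : GQ))
    (lgField ((w.1.1 : Nat.Primes) : ℕ) (lgqmEmb ((w.1.1 : Nat.Primes) : ℕ) E (w.2 : GQ)))
    (asmk_zeta_mem E hζE (w.2 : GQ)) (mackeySub ((locSysS S).r w.1) E.fixingSubgroup (w.2 : GQ))
    (lgqm_mackeySub_eq S w.1 E (w.2 : GQ)) (x w) c

end Main

end Fermat.Agent.S55
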