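/-
S55 / ASM, leaf AS-b2 (row 332): the fields `b2f`, `b2f2`, `b2` of `CritTriv` for
`D' = locSysMackey (locSysS S) H T`, trivial coefficients `𝔽_p` (statements of `Asm/TrivSpec.lean`
VERBATIM): `Ш¹(H, 𝔽_p)`, `Ш²(H, 𝔽_p)` are finite-dimensional and `dim Ш² ≤ dim Ш¹`.

Route (`H = E.fixingSubgroup`, `ζ_p ∈ E`, `T' = gkT S E` the places of `E` above `S`,
`N = |Cl_{T'}(E)/p|`):
* `b2f`  : `H¹_sm(H, 𝔽_p) ≅ V_{T'}/Eˣᵖ` (Kummer, SB-KG1 = `AsmKum`) is finite (`gk_relIndex_pow_gkV`);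
* `b2f2` : more than `log_p N` classes of `Ш²` are dependent: common finite layer
  (`sb_exists_factor₂`), local triviality everywhere in the `geInv` sense (`asmb2_geInv_eq_zero`:
  GL-c `lgqm_geInv_eq_res` + GL-b `lgqm_place_surj` + `geInv_eq_of_lgPlace_eq` above `S`,
  unramified + units outside `S`), then SB-KG2 `sb_sha2_layer` (U5d); linear algebra
  `asmb2_finite_of_dependent`;
* `b2`   : `p ^ dim Ш² ≤ N = [Δ_{T'} : Eˣᵖ]` (`gk_relIndex_delta_eq`) `≤ |Ш¹|`: the Kummer class of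
  `a ∈ Δ_{T'}` is locally trivial (`asmb2_kumFun_local_eq_zero`), for a system of local embeddings
  made of the twisted embeddings at the double coset representatives (`asmb2_exists_system`).

BLACK BOXES: SB-KG1 (`sbKumFun_*`, row 335) and SB-KG2 (`sb_sha2_layer`, row 336) of
`SB/KummerGlobalSpec.lean`; they enter ONLY through `asmb2_kum` and the three final theorems.
Everything else is proved here (helper lemmas prefixed `asmb2`).
-/
import Fermat.Agent.S55.Asm.GlBridge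
import Fermat.Agent.S55.SB.KummerGlobalSpec
import Fermat.Agent.S55.Global.UnramLoc
import Fermat.Agent.S55.Global.Recip.SupportSpec
import Fermat.Agent.S55.Global.Recip.IndepSpec

set_option autoImplicit false
set_option linter.style.haveILetI false
set_option linter.unusedSectionVars false
set_option linter.unusedVariables false

namespace Fermat.Agent.S55

open scoped NumberField
open NumberField IsDedekindDomain ExtCitation

/-! ## Linear algebra -/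

section LinAlg

variable {p : ℕ} [Fact p.Prime] {W : Type*} [AddCommGroup W] [Module (ZMod p) W]

/-- If every family of `m` vectors with `N < p ^ m` is linearly dependent over `𝔽_p`, then the space
is finite-dimensional and `p ^ dim ≤ N`. -/
theorem asmb2_finite_of_dependent (N : ℕ)
    (h : ∀ (m : ℕ) (x : Fin m → W), N < p ^ m → ∃ n : Fin m → ZMod p, n ≠ 0 ∧ ∑ i, n i • x i = 0) :
    FiniteDimensional (ZMod p) W ∧ p ^ Module.finrank (ZMod p) W ≤ N := by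
  have hp : p.Prime := Fact.out
  have hdep : ∀ (m : ℕ) (x : Fin m → W), N < p ^ m → ¬ LinearIndependent (ZMod p) x := by
    intro m x hm hli
    obtain ⟨n, hn0, hn⟩ := h m x hm
    rw [Fintype.linearIndependent_iff] at hli
    exact hn0 (funext fun i => hli n hn i)
  obtain ⟨m₀, hm₀⟩ : ∃ m₀ : ℕ, N < p ^ m₀ := ⟨N, Nat.lt_pow_self hp.one_lt⟩
  have hfin : FiniteDimensional (ZMod p) W := by
    rw [FiniteDimensional, ← Module.rank_lt_aleph0_iff]
    by_contra hcon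
    rw [not_lt] at hcon
    have hle : (m₀ : Cardinal) ≤ Module.rank (ZMod p) W :=
      (Cardinal.natCast_lt_aleph0 (n := m₀)).le.trans hcon
    obtain ⟨f, hf⟩ := exists_linearIndependent_of_le_rank hle
    exact hdep m₀ f hm₀ hf
  refine ⟨hfin, ?_⟩
  by_contra hcon
  rw [not_le] at hcon
  obtain ⟨f, hf⟩ := exists_linearIndependent_of_le_finrank (R := ZMod p) (M := W) le_rfl
  exact hdep _ f hcon hf

end LinAlg

/-! ## The Kummer interface (KG1) -/

section Kum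

variable (p : ℕ) [Fact p.Prime] (S : Finset Nat.Primes) (ζ : AlgebraicClosure ℚ)
  (E : IntermediateField ℚ (AlgebraicClosure ℚ)) [NumberField ↥E]

/-- The Kummer description of the smooth `H¹(H, 𝔽_p)`, `H = E.fixingSubgroup` (= the statements of
leaf SB-KG1 for fixed `E ∋ ζ`). -/
structure AsmKum : Prop where
  spec : ∀ (a : (↥E)ˣ) (α : AlgebraicClosure ℚ),
    α ^ p = (((a : (↥E)ˣ) : ↥E) : AlgebraicClosure ℚ) → ∀ σ : ↥E.fixingSubgroup,
      (σ : GQ) α = ζ ^ (sbKumFun (p := p) ζ E.fixingSubgroup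
        (((a : (↥E)ˣ) : ↥E) : AlgebraicClosure ℚ) σ).val * α
  mul : ∀ a b : (↥E)ˣ,
    sbKumFun (p := p) ζ E.fixingSubgroup ((((a * b : (↥E)ˣ) : (↥E)ˣ) : ↥E) : AlgebraicClosure ℚ) =
      sbKumFun ζ E.fixingSubgroup (((a : (↥E)ˣ) : ↥E) : AlgebraicClosure ℚ) +
        sbKumFun ζ E.fixingSubgroup (((b : (↥E)ˣ) : ↥E) : AlgebraicClosure ℚ)
  eq_zero_iff : ∀ a : (↥E)ˣ,
    sbKumFun (p := p) ζ E.fixingSubgroup (((a : (↥E)ˣ) : ↥E) : AlgebraicClosure ℚ) = 0 ↔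
      ∃ c : (↥E)ˣ, c ^ p = a
  mem_smZ1_iff : ∀ a : (↥E)ˣ,
    sbKumFun ζ E.fixingSubgroup (((a : (↥E)ˣ) : ↥E) : AlgebraicClosure ℚ) ∈
        smZ1 ((levelsS S).sub E.fixingSubgroup)
          (1 : Representation (ZMod p) ↥E.fixingSubgroup (ZMod p)) ↔
      a ∈ gkV ↥E (gkT S ↥E : Set (HeightOneSpectrum (𝓞 ↥E))) p
  surj : ∀ f : ↥E.fixingSubgroup → ZMod p,
    f ∈ smZ1 ((levelsS S).sub E.fixingSubgroup)
      (1 : Representation (ZMod p) ↥E.fixingSubgroup (ZMod p)) →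
    ∃ a : (↥E)ˣ, a ∈ gkV ↥E (gkT S ↥E : Set (HeightOneSpectrum (𝓞 ↥E))) p ∧
      f = sbKumFun ζ E.fixingSubgroup (((a : (↥E)ˣ) : ↥E) : AlgebraicClosure ℚ)

end Kum

section B2f

variable {p : ℕ} [Fact p.Prime] {S : Finset Nat.Primes} {ζ : AlgebraicClosure ℚ}
  {E : IntermediateField ℚ (AlgebraicClosure ℚ)} [NumberField ↥E]

/-- `B¹ = 0` for the trivial representation. -/
theorem asmb2_smB1_triv {G : Type*} [Group G] (f : G → ZMod p)
    (hf : f ∈ smB1 (1 : Representation (ZMod p) G (ZMod p))) : f = 0 := by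
  obtain ⟨m, rfl⟩ := hf
  funext g
  simp [dd0_apply]

/-- the Kummer class map `V_T → H¹_sm(H, 𝔽_p)`, `a ↦ [f_a]` -/
noncomputable def asmb2Kum (hK : AsmKum p S ζ E) :
    ↥(gkV ↥E (gkT S ↥E : Set (HeightOneSpectrum (𝓞 ↥E))) p) →*
      Multiplicative (smH1 ((levelsS S).sub E.fixingSubgroup)
        (1 : Representation (ZMod p) ↥E.fixingSubgroup (ZMod p))) where
  toFun a := Multiplicative.ofAdd (smH1π ((levelsS S).sub E.fixingSubgroup)
      (1 : Representation (ZMod p) ↥E.fixingSubgroup (ZMod p))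
    ⟨sbKumFun ζ E.fixingSubgroup ((((a : (↥E)ˣ) : (↥E)ˣ) : ↥E) : AlgebraicClosure ℚ),
      (hK.mem_smZ1_iff (a : (↥E)ˣ)).2 a.2⟩)
  map_one' := by
    have h0 : sbKumFun (p := p) ζ E.fixingSubgroup
        (((((1 : ↥(gkV ↥E (gkT S ↥E : Set (HeightOneSpectrum (𝓞 ↥E))) p)) : (↥E)ˣ) : (↥E)ˣ) : ↥E) :
          AlgebraicClosure ℚ) = 0 :=
      (hK.eq_zero_iff 1).2 ⟨1, one_pow p⟩
    rw [← ofAdd_zero]
    congr 1
    rw [← map_zero (smH1π ((levelsS S).sub E.fixingSubgroup)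
      (1 : Representation (ZMod p) ↥E.fixingSubgroup (ZMod p)))]
    congr 1
    exact Subtype.ext h0
  map_mul' a b := by
    rw [← ofAdd_add, ← map_add]
    congr 2
    exact Subtype.ext (hK.mul (a : (↥E)ˣ) (b : (↥E)ˣ))

theorem asmb2Kum_apply (hK : AsmKum p S ζ E)
    (a : ↥(gkV ↥E (gkT S ↥E : Set (HeightOneSpectrum (𝓞 ↥E))) p)) :
    Multiplicative.toAdd (asmb2Kum hK a) = smH1π ((levelsS S).sub E.fixingSubgroup)
      (1 : Representation (ZMod p) ↥E.fixingSubgroup (ZMod p))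
      ⟨sbKumFun ζ E.fixingSubgroup ((((a : (↥E)ˣ) : (↥E)ˣ) : ↥E) : AlgebraicClosure ℚ),
        (hK.mem_smZ1_iff (a : (↥E)ˣ)).2 a.2⟩ := rfl

theorem asmb2Kum_surjective (hK : AsmKum p S ζ E) : Function.Surjective (asmb2Kum hK) := by
  intro x
  obtain ⟨f, hf⟩ := Submodule.mkQ_surjective _ (Multiplicative.toAdd x)
  obtain ⟨a, ha, hfa⟩ := hK.surj (f : ↥E.fixingSubgroup → ZMod p) f.2
  refine ⟨⟨a, ha⟩, ?_⟩
  apply Multiplicative.toAdd.injective
  rw [asmb2Kum_apply, ← hf]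
  congr 1
  exact Subtype.ext hfa.symm

theorem asmb2Kum_eq_one_iff (hK : AsmKum p S ζ E)
    (a : ↥(gkV ↥E (gkT S ↥E : Set (HeightOneSpectrum (𝓞 ↥E))) p)) :
    asmb2Kum hK a = 1 ↔ ∃ c : (↥E)ˣ, c ^ p = (a : (↥E)ˣ) := by
  rw [← hK.eq_zero_iff]
  constructor
  · intro h
    have h1 : Multiplicative.toAdd (asmb2Kum hK a) = 0 := by rw [h]; rfl
    rw [asmb2Kum_apply, smH1π_eq_zero_iff] at h1
    exact asmb2_smB1_triv _ h1
  · intro h
    apply Multiplicative.toAdd.injective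
    rw [asmb2Kum_apply, toAdd_one, smH1π_eq_zero_iff]
    show sbKumFun ζ E.fixingSubgroup _ ∈ _
    rw [h]
    exact Submodule.zero_mem _

/-- `H¹_sm(H, 𝔽_p)` is finite (`≅ V_T / Eˣᵖ`). -/
theorem asmb2_finite_smH1 (hζ : IsPrimitiveRoot ζ p) (hζE : ζ ∈ E) (hK : AsmKum p S ζ E) :
    Finite (smH1 ((levelsS S).sub E.fixingSubgroup)
      (1 : Representation (ZMod p) ↥E.fixingSubgroup (ZMod p))) := by
  have hp : p.Prime := Fact.out
  -- the root of unity in `E`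
  have hζ' : IsPrimitiveRoot (⟨ζ, hζE⟩ : ↥E) p :=
    IsPrimitiveRoot.of_map_of_injective (f := E.val) (by exact hζ) E.val.injective
  have hidx := gk_relIndex_pow_gkV ↥E p hζ' (gkT S ↥E)
  have hne : (powMonoidHom p : (↥E)ˣ →* (↥E)ˣ).range.relIndex
      (gkV ↥E (gkT S ↥E : Set (HeightOneSpectrum (𝓞 ↥E))) p) ≠ 0 := by
    rw [hidx]
    exact mul_ne_zero (pow_ne_zero _ hp.ne_zero) (gkClSub_index_ne_zero ↥E p _)
  set V := gkV ↥E (gkT S ↥E : Set (HeightOneSpectrum (𝓞 ↥E))) p with hV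
  set P := ((powMonoidHom p : (↥E)ˣ →* (↥E)ˣ).range.subgroupOf V) with hP
  haveI : P.FiniteIndex := ⟨hne⟩
  haveI : Finite (↥V ⧸ P) := Subgroup.finite_quotient_of_finiteIndex
  have hker : P ≤ (asmb2Kum hK).ker := by
    intro a ha
    rw [MonoidHom.mem_ker, asmb2Kum_eq_one_iff]
    obtain ⟨c, hc⟩ := Subgroup.mem_subgroupOf.1 ha
    exact ⟨c, hc⟩
  have hsurj : Function.Surjective (QuotientGroup.lift P (asmb2Kum hK) hker) := by
    intro x
    obtain ⟨a, ha⟩ := asmb2Kum_surjective hK x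
    exact ⟨QuotientGroup.mk a, by rw [QuotientGroup.lift_mk]; exact ha⟩
  have : Finite (Multiplicative (smH1 ((levelsS S).sub E.fixingSubgroup)
      (1 : Representation (ZMod p) ↥E.fixingSubgroup (ZMod p)))) := Finite.of_surjective _ hsurj
  exact this

end B2f

/-! ## `Ш²`: local triviality in the `geInv` sense and dependence -/

section Abstract

variable {p : ℕ} [Fact p.Prime] {K F : Type} [Field K] [Field F] [Algebra K F]

/-- `ζ^c` is a multiplicative `2`-cocycle if `c` is an additive one and `ζ` comes from the base. -/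
theorem asmb2_isMulCocycle₂ {ζ : Fˣ} (hζ : IsPrimitiveRoot ζ p)
    (hmem : ((ζ : Fˣ) : F) ∈ (algebraMap K F).range)
    (c : (F ≃ₐ[K] F) × (F ≃ₐ[K] F) → ZMod p)
    (hc : dd2 (1 : Representation (ZMod p) (F ≃ₐ[K] F) (ZMod p)) c = 0) :
    groupCohomology.IsMulCocycle₂ (sbMul₂ ζ c) := by
  have hfix : ∀ g : F ≃ₐ[K] F, g • ζ = ζ := by
    intro g
    apply Units.ext
    rw [AlgEquiv.smul_units_def]
    show g ((ζ : Fˣ) : F) = ((ζ : Fˣ) : F)
    obtain ⟨x, hx⟩ := hmem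
    rw [← hx]
    exact g.commutes x
  exact (isMulCocycle₂_sbMul₂_iff (sb_primitiveRoot_pow_eq_one hζ) (sb_primitiveRoot_ne_one hζ)
    hfix c).2 hc

end Abstract

section LocalVanishing

variable {p : ℕ} [Fact p.Prime] (S : Finset Nat.Primes) {T : ↥S → Finset GQ}
  {E M : IntermediateField ℚ (AlgebraicClosure ℚ)} [NumberField ↥E] [NumberField ↥M]

/-- roots of unity have norm one at every `q`-adic embedding -/
theorem asmb2_norm_eq_one {F : Type} [Field F] (q : ℕ) [Fact q.Prime] (j : F →+* PadicAlgCl q)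
    (x : Fˣ) (hx : x ^ p = 1) : ‖j ((x : Fˣ) : F)‖ = 1 := by
  have hp : p ≠ 0 := (Fact.out : p.Prime).ne_zero
  have h1 : (j ((x : Fˣ) : F)) ^ p = 1 := by
    rw [← map_pow, ← Units.val_pow_eq_pow_val, hx, Units.val_one, map_one]
  have h2 : ‖j ((x : Fˣ) : F)‖ ^ p = 1 := by
    rw [← norm_pow, h1, norm_one]
  exact (pow_eq_one_iff_of_nonneg (norm_nonneg _) hp).1 h2

/-- A class of `Ш²(H, 𝔽_p)` represented on a finite layer `M/E` is locally trivial EVERYWHERE in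
the sense of `geInv`. -/
theorem asmb2_geInv_eq_zero (hT : IsDoubleCosetReps (locSysS S) E.fixingSubgroup T)
    (h : E ≤ M) (hM : M.IsUnramifiedOutside S) (hg : letI := sbAlgebra h; IsGalois ↥E ↥M)
    (ζM : (↥M)ˣ) (hζM : IsPrimitiveRoot ((ζM : ↥M) : AlgebraicClosure ℚ) p)
    (hζE : ((ζM : ↥M) : AlgebraicClosure ℚ) ∈ E)
    (c' : (letI := sbAlgebra h; (↥M ≃ₐ[↥E] ↥M) × (↥M ≃ₐ[↥E] ↥M)) → ZMod p)
    (hc' : letI := sbAlgebra h
      dd2 (1 : Representation (ZMod p) (↥M ≃ₐ[↥E] ↥M) (ZMod p)) c' = 0)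
    (hcg : (fun s : ↥E.fixingSubgroup × ↥E.fixingSubgroup =>
        c' (sbRes h hg.to_normal s.1, sbRes h hg.to_normal s.2)) ∈
      smZ2 ((levelsS S).sub E.fixingSubgroup) (trivRep (k := ZMod p) E.fixingSubgroup))
    (hsha : smH2π ((levelsS S).sub E.fixingSubgroup) (trivRep (k := ZMod p) E.fixingSubgroup)
        ⟨_, hcg⟩ ∈
      sha2 (locSysMackey (locSysS S) E.fixingSubgroup T) (trivRep (k := ZMod p) E.fixingSubgroup))
    (q : ℕ) [Fact q.Prime] (j : ↥M →+* PadicAlgCl q) :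
    letI := sbAlgebra h
    geInv (K := ↥E) q j (sbMul₂ ζM c') = 0 := by
  letI := sbAlgebra h
  haveI := hg
  have hp : p.Prime := Fact.out
  -- `ζ^c'` is a multiplicative cocycle
  have hζM' : IsPrimitiveRoot ζM p := by
    apply IsPrimitiveRoot.coe_units_iff.1
    exact IsPrimitiveRoot.of_map_of_injective (f := M.val) (by exact hζM) M.val.injective
  have hcoc := asmb2_isMulCocycle₂ (K := ↥E) (F := ↥M) hζM' ⟨⟨_, hζE⟩, Subtype.ext rfl⟩ c' hc'
  by_cases hq : ∃ s ∈ S, ((s : Nat.Primes) : ℕ) = q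
  · obtain ⟨s, hs, rfl⟩ := hq
    set v : ↥S := ⟨s, hs⟩ with hv
    have hw : ((((v.1 : Nat.Primes) : ℕ) : ℕ) : 𝓞 ↥E) ∈
        (lgPlace ((s : Nat.Primes) : ℕ) (j.comp (algebraMap ↥E ↥M))).asIdeal :=
      natCast_mem_lgIdeal ((s : Nat.Primes) : ℕ) (j.comp (algebraMap ↥E ↥M))
    obtain ⟨t, ht, hpl⟩ := lgqm_place_surj hT v _ hw
    have h1 : geInv (K := ↥E) ((s : Nat.Primes) : ℕ) j (sbMul₂ ζM c') =
        geInv (K := ↥E) ((s : Nat.Primes) : ℕ) (lgqmEmb ((s : Nat.Primes) : ℕ) M t)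
          (sbMul₂ ζM c') :=
      geInv_eq_of_lgPlace_eq _ j (lgqmEmb ((s : Nat.Primes) : ℕ) M t) hpl.symm hcoc
    rw [h1]
    have hcont : (((locSysS S).lev v).sub (mackeySub ((locSysS S).r v) E.fixingSubgroup t)).Continuous
        ((levelsS S).sub E.fixingSubgroup) (mackeyHom ((locSysS S).r v) E.fixingSubgroup t) :=
      (locSysMackey (locSysS S) E.fixingSubgroup T).cont ⟨v, ⟨t, ht⟩⟩
    have h2 := lgqm_geInv_eq_res S v p h hg t ζM hζM hζE c' hcg hcont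
    have h3 : smH2res (trivRep (k := ZMod p) E.fixingSubgroup) hcont
        (smH2π ((levelsS S).sub E.fixingSubgroup) (trivRep (k := ZMod p) E.fixingSubgroup)
          ⟨_, hcg⟩) = 0 := by
      have h4 : locP2 (locSysMackey (locSysS S) E.fixingSubgroup T)
          (ρ := trivRep (k := ZMod p) E.fixingSubgroup) _ = 0 := hsha
      exact congrFun h4 ⟨v, ⟨t, ht⟩⟩
    rw [h3] at h2
    have h5 : ∀ y : ZMod p, y = 0 →
        ((((y.val : ℕ) : ℚ) / (p : ℚ) : ℚ) : AddCircle (1 : ℚ)) = 0 := by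
      intro y hy
      subst hy
      simp
    exact h2.trans (h5 _ (map_zero _))
  · push Not at hq
    have hur : GlUnramOutside S ↥E ↥M := sb_glUnramOutside S h hM
    have hur' := gl_lfUnramified_of_unramOutside S hur q hq j
    exact geInv_eq_zero_of_unramified_of_units q j hur' _ hcoc
      (fun s => asmb2_norm_eq_one q j _ (sb_glMuValued_pow hζM' c' s))

end LocalVanishing

section PiLC

variable {G : Type*} [Group G] {𝓛 : Levels G}

/-- a finite family of level-constant `2`-cochains is level-constant as a vector-valued cochain -/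
theorem asmb2_isLC₂_pi {X : Type*} : ∀ {m : ℕ} (Z : Fin m → G × G → X),
    (∀ i, IsLC₂ 𝓛 (Z i)) → IsLC₂ 𝓛 (fun s i => Z i s)
  | 0, Z, _ => by
    have h : (fun (s : G × G) (i : Fin 0) => Z i s) = fun _ => Fin.elim0 := by
      funext s i
      exact i.elim0
    rw [h]
    exact isLC₂_const 𝓛 _
  | m + 1, Z, hZ => by
    have h1 := asmb2_isLC₂_pi (fun i : Fin m => Z i.succ) (fun i => hZ i.succ)
    have h2 := (hZ 0).map₂ h1 (fun (a : X) (b : Fin m → X) => (Fin.cons a b : Fin (m + 1) → X))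
    have h : (fun (s : G × G) (i : Fin (m + 1)) => Z i s) =
        fun s => (Fin.cons (Z 0 s) (fun i : Fin m => Z i.succ s) : Fin (m + 1) → X) := by
      funext s i
      refine Fin.cases ?_ (fun i => ?_) i
      · rfl
      · rfl
    rw [h]
    exact h2

end PiLC

section Dependent

variable {p : ℕ} [Fact p.Prime] (S : Finset Nat.Primes) {T : ↥S → Finset GQ}
  {E : IntermediateField ℚ (AlgebraicClosure ℚ)} [NumberField ↥E]

/-- More than `log_p |Cl_T(E)/p|` classes of `Ш²(H, 𝔽_p)` are linearly dependent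
(`sb_sha2_layer` = U5d + the local-global glue). -/
theorem asmb2_sha2_dependent (hp2 : p ≠ 2) (hpS : ∃ q ∈ S, ((q : Nat.Primes) : ℕ) = p)
    (hT : IsDoubleCosetReps (locSysS S) E.fixingSubgroup T) (hE : E.IsUnramifiedOutside S)
    {ζ : AlgebraicClosure ℚ} (hζ : IsPrimitiveRoot ζ p) (hζE : ζ ∈ E) {m : ℕ}
    (x : Fin m → ↥(sha2 (locSysMackey (locSysS S) E.fixingSubgroup T)
      (trivRep (k := ZMod p) E.fixingSubgroup)))
    (hm : (gkClSub ↥E (gkT S ↥E : Set (HeightOneSpectrum (𝓞 ↥E))) p).index < p ^ m) :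
    ∃ n : Fin m → ZMod p, n ≠ 0 ∧ ∑ i, n i • x i = 0 := by
  have hp : p.Prime := Fact.out
  have h0 : ζ ≠ 0 := hζ.ne_zero hp.ne_zero
  -- representatives
  have hrep : ∀ i, ∃ z : ↥(smZ2 ((levelsS S).sub E.fixingSubgroup)
      (trivRep (k := ZMod p) E.fixingSubgroup)),
      smH2π ((levelsS S).sub E.fixingSubgroup) (trivRep (k := ZMod p) E.fixingSubgroup) z =
        ((x i : ↥(sha2 (locSysMackey (locSysS S) E.fixingSubgroup T)
          (trivRep (k := ZMod p) E.fixingSubgroup))) :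
          smH2 ((levelsS S).sub E.fixingSubgroup) (trivRep (k := ZMod p) E.fixingSubgroup)) :=
    fun i => Submodule.mkQ_surjective _ _
  choose z hz using hrep
  -- common layer
  have hZ : IsLC₂ ((levelsS S).sub E.fixingSubgroup)
      (fun (s : ↥E.fixingSubgroup × ↥E.fixingSubgroup) (i : Fin m) =>
        (z i : ↥E.fixingSubgroup × ↥E.fixingSubgroup → ZMod p) s) :=
    asmb2_isLC₂_pi (fun i => (z i : ↥E.fixingSubgroup × ↥E.fixingSubgroup → ZMod p))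
      (fun i => ((mem_smZ2 _ _ _).1 (z i).2).2)
  obtain ⟨M, h, -, hM, -, hg, Z', hZ'⟩ :=
    sb_exists_factor₂ S E hE _ hZ ⊥ (IntermediateField.isUnramifiedOutside_bot S)
  letI := sbAlgebra h
  haveI := hg
  haveI hnfM : NumberField ↥M := sb_numberField hM.1
  set c : Fin m → (↥M ≃ₐ[↥E] ↥M) × (↥M ≃ₐ[↥E] ↥M) → ZMod p := fun i s => Z' s i with hcdef
  have hzc : ∀ i (s : ↥E.fixingSubgroup × ↥E.fixingSubgroup),
      (z i : ↥E.fixingSubgroup × ↥E.fixingSubgroup → ZMod p) s =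
        c i (sbRes h hg.to_normal s.1, sbRes h hg.to_normal s.2) := fun i s =>
    congrFun (hZ' s) i
  have hzc' : ∀ i, (z i : ↥E.fixingSubgroup × ↥E.fixingSubgroup → ZMod p) =
      fun s => c i (sbRes h hg.to_normal s.1, sbRes h hg.to_normal s.2) := fun i =>
    funext (hzc i)
  -- the `c i` are cocycles
  have hc : ∀ i, dd2 (1 : Representation (ZMod p) (↥M ≃ₐ[↥E] ↥M) (ZMod p)) (c i) = 0 := by
    intro i
    funext ⟨a₁, a₂, a₃⟩
    obtain ⟨g₁, rfl⟩ := sbRes_surjective h hg.to_normal a₁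
    obtain ⟨g₂, rfl⟩ := sbRes_surjective h hg.to_normal a₂
    obtain ⟨g₃, rfl⟩ := sbRes_surjective h hg.to_normal a₃
    have h1 := congrFun ((mem_smZ2 _ _ _).1 (z i).2).1 (g₁, g₂, g₃)
    simp only [dd2_apply, MonoidHom.one_apply, Module.End.one_apply, Pi.zero_apply] at h1 ⊢
    rw [← map_mul, ← map_mul, ← hzc i (g₂, g₃), ← hzc i (g₁ * g₂, g₃), ← hzc i (g₁, g₂ * g₃),
      ← hzc i (g₁, g₂)]
    exact h1
  -- local triviality
  set ζM : (↥M)ˣ := Units.mk0 (⟨ζ, h hζE⟩ : ↥M)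
    (fun h0' => h0 (congrArg Subtype.val h0')) with hζMdef
  have hloc : ∀ i, ∀ (q : ℕ) [Fact q.Prime] (j : ↥M →+* PadicAlgCl q),
      geInv (K := ↥E) q j (sbMul₂ ζM (c i)) = 0 := by
    intro i q _ j
    have hcg : (fun s : ↥E.fixingSubgroup × ↥E.fixingSubgroup =>
        c i (sbRes h hg.to_normal s.1, sbRes h hg.to_normal s.2)) ∈
        smZ2 ((levelsS S).sub E.fixingSubgroup) (trivRep (k := ZMod p) E.fixingSubgroup) := by
      rw [← hzc' i]
      exact (z i).2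
    have hsha : smH2π ((levelsS S).sub E.fixingSubgroup) (trivRep (k := ZMod p) E.fixingSubgroup)
        ⟨_, hcg⟩ ∈ sha2 (locSysMackey (locSysS S) E.fixingSubgroup T)
          (trivRep (k := ZMod p) E.fixingSubgroup) := by
      have h1 : (⟨_, hcg⟩ : ↥(smZ2 ((levelsS S).sub E.fixingSubgroup)
          (trivRep (k := ZMod p) E.fixingSubgroup))) = z i := Subtype.ext (hzc' i).symm
      rw [h1, hz i]
      exact (x i).2
    exact asmb2_geInv_eq_zero S hT h hM hg ζM hζ hζE (c i) (hc i) hcg hsha q j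
  -- U5d in layer form
  obtain ⟨n, hn, M', hMM', hM', hg', e, he⟩ :=
    sb_sha2_layer S hp2 hpS h hM hg hζ hζE c hc hloc hm
  refine ⟨n, hn, ?_⟩
  letI := sbAlgebra hMM'
  letI := sbAlgebra (h.trans hMM')
  haveI htow : IsScalarTower ↥E ↥M ↥M' := IsScalarTower.of_algebraMap_eq (fun _ => rfl)
  apply Subtype.ext
  rw [Submodule.coe_sum, Submodule.coe_zero]
  simp only [Submodule.coe_smul]
  have h1 : ∑ i, n i • ((x i : ↥(sha2 (locSysMackey (locSysS S) E.fixingSubgroup T)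
      (trivRep (k := ZMod p) E.fixingSubgroup))) :
      smH2 ((levelsS S).sub E.fixingSubgroup) (trivRep (k := ZMod p) E.fixingSubgroup)) =
      smH2π ((levelsS S).sub E.fixingSubgroup) (trivRep (k := ZMod p) E.fixingSubgroup)
        (∑ i, n i • z i) := by
    rw [map_sum]
    refine Finset.sum_congr rfl fun i _ => ?_
    rw [map_smul, hz i]
  rw [h1, smH2π_eq_zero_iff, mem_smB2]
  refine ⟨fun σ => e (sbRes (h.trans hMM') hg'.to_normal σ),
    sb_isLC₁_sbRes S hM' (h.trans hMM') hg'.to_normal e, ?_⟩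
  funext ⟨g₁, g₂⟩
  have h2 := congrFun he (sbRes (h.trans hMM') hg'.to_normal g₁,
    sbRes (h.trans hMM') hg'.to_normal g₂)
  have h3 := restrictNormalHom_sbRes h hMM' hg.to_normal hg'.to_normal
  simp only [dd1_apply, MonoidHom.one_apply, Module.End.one_apply, map_mul] at h2 ⊢
  rw [h2, h3 g₁, h3 g₂]
  rw [Submodule.coe_sum, Finset.sum_apply]
  refine Finset.sum_congr rfl fun i _ => ?_
  rw [Submodule.coe_smul, Pi.smul_apply, smul_eq_mul, hzc i (g₁, g₂)]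

end Dependent

/-! ## `Ш¹ ⊇ Δ_T / Eˣᵖ` -/

section LocalKummer

variable {p : ℕ} [Fact p.Prime] {ζ : AlgebraicClosure ℚ}
  {E : IntermediateField ℚ (AlgebraicClosure ℚ)}

/-- If `a ∈ Eˣ` is a `p`-th power in the completion of `E` at the `t`-twisted `q`-adic embedding,
then the Kummer function of `a` vanishes on the decomposition group `t r_q(Γ_w) t⁻¹`. -/
theorem asmb2_kumFun_local_eq_zero (q : ℕ) [Fact q.Prime] [NumberField ↥E]
    (hζ : IsPrimitiveRoot ζ p) (hζE : ζ ∈ E)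
    (hspec : ∀ (a : (↥E)ˣ) (α : AlgebraicClosure ℚ),
      α ^ p = (((a : (↥E)ˣ) : ↥E) : AlgebraicClosure ℚ) → ∀ σ : ↥E.fixingSubgroup,
        (σ : GQ) α = ζ ^ (sbKumFun (p := p) ζ E.fixingSubgroup
          (((a : (↥E)ˣ) : ↥E) : AlgebraicClosure ℚ) σ).val * α)
    (t : GQ) (a : (↥E)ˣ)
    (hpow : ∃ c : PadicAlgCl q, c ∈ lgField q (lgqmEmb q E t) ∧
      c ^ p = lgqmEmb q E t ((a : (↥E)ˣ) : ↥E))
    (γ : lbGal q) (hγ : t * localGaloisToGlobal q γ * t⁻¹ ∈ E.fixingSubgroup) :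
    sbKumFun (p := p) ζ E.fixingSubgroup (((a : (↥E)ˣ) : ↥E) : AlgebraicClosure ℚ)
      ⟨t * localGaloisToGlobal q γ * t⁻¹, hγ⟩ = 0 := by
  have hp : p.Prime := Fact.out
  obtain ⟨c, hcL, hc⟩ := hpow
  have hγ' : γ ∈ (lgField q (lgqmEmb q E t)).fixingSubgroup :=
    (lgqm_conj_mem_fixingSubgroup_iff q E t γ).1 hγ
  rw [IntermediateField.mem_fixingSubgroup_iff] at hγ'
  set α : AlgebraicClosure ℚ := sbRoot p (((a : (↥E)ˣ) : ↥E) : AlgebraicClosure ℚ) with hαdef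
  have hα : α ^ p = (((a : (↥E)ˣ) : ↥E) : AlgebraicClosure ℚ) := sbRoot_pow _
  have ha0 : (((a : (↥E)ˣ) : ↥E) : AlgebraicClosure ℚ) ≠ 0 := by
    intro h
    exact a.ne_zero (Subtype.ext h)
  have hα0 : α ≠ 0 := by
    intro h
    rw [h, zero_pow hp.ne_zero] at hα
    exact ha0 hα.symm
  set β : PadicAlgCl q := padicEmbedding q ((t⁻¹ : GQ) α) with hβdef
  have hβ : β ^ p = c ^ p := by
    rw [hc, lgqmEmb_apply, hβdef, ← map_pow, ← map_pow, hα]
  have hc0 : c ≠ 0 := by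
    intro h
    rw [h, zero_pow hp.ne_zero, lgqmEmb_apply] at hc
    have h1 : (t⁻¹ : GQ) (((a : (↥E)ˣ) : ↥E) : AlgebraicClosure ℚ) = 0 :=
      lgq_padicEmbedding_injective q (by rw [← hc, map_zero])
    exact ha0 ((map_eq_zero_iff _ (t⁻¹ : GQ).injective).1 h1)
  -- the local root of unity
  set ζ' : PadicAlgCl q := padicEmbedding q ((t⁻¹ : GQ) ζ) with hζ'def
  have hζ' : IsPrimitiveRoot ζ' p :=
    (hζ.map_of_injective (t⁻¹ : GQ).injective).map_of_injective (lgq_padicEmbedding_injective q)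
  have hζ'L : ζ' ∈ lgField q (lgqmEmb q E t) :=
    range_le_lgField q (lgqmEmb q E t) ⟨ζ, hζE⟩
  have hβL : β ∈ lgField q (lgqmEmb q E t) := by
    have h1 : (β / c) ^ p = 1 := by rw [div_pow, hβ, div_self (pow_ne_zero _ hc0)]
    obtain ⟨k, -, hk⟩ := hζ'.eq_pow_of_pow_eq_one h1
    have h2 : β = ζ' ^ k * c := by rw [hk, div_mul_cancel₀ _ hc0]
    rw [h2]
    exact mul_mem (pow_mem hζ'L k) hcL
  have hfixβ : γ β = β := hγ' β hβL
  have hfix : localGaloisToGlobal q γ ((t⁻¹ : GQ) α) = (t⁻¹ : GQ) α := by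
    apply lgq_padicEmbedding_injective q
    rw [padicEmbedding_localGaloisToGlobal]
    exact hfixβ
  have hσα : (t * localGaloisToGlobal q γ * t⁻¹ : GQ) α = α := by
    rw [AlgEquiv.mul_apply, AlgEquiv.mul_apply, hfix, ← AlgEquiv.mul_apply, mul_inv_cancel,
      AlgEquiv.one_apply]
  have h1 := hspec a α hα ⟨t * localGaloisToGlobal q γ * t⁻¹, hγ⟩
  rw [show ((⟨t * localGaloisToGlobal q γ * t⁻¹, hγ⟩ : ↥E.fixingSubgroup) : GQ) =
    t * localGaloisToGlobal q γ * t⁻¹ from rfl, hσα] at h1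
  have h2 : ζ ^ (sbKumFun (p := p) ζ E.fixingSubgroup
      (((a : (↥E)ˣ) : ↥E) : AlgebraicClosure ℚ) ⟨t * localGaloisToGlobal q γ * t⁻¹, hγ⟩).val = 1 := by
    have h3 : (1 : AlgebraicClosure ℚ) * α = ζ ^ (sbKumFun (p := p) ζ E.fixingSubgroup
      (((a : (↥E)ˣ) : ↥E) : AlgebraicClosure ℚ) ⟨t * localGaloisToGlobal q γ * t⁻¹, hγ⟩).val * α := by
      rw [one_mul]
      exact h1
    exact (mul_right_cancel₀ hα0 h3).symm
  have h3 := (hζ.pow_eq_one_iff_dvd _).1 h2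
  have h4 : (sbKumFun (p := p) ζ E.fixingSubgroup
      (((a : (↥E)ˣ) : ↥E) : AlgebraicClosure ℚ) ⟨t * localGaloisToGlobal q γ * t⁻¹, hγ⟩).val = 0 :=
    Nat.eq_zero_of_dvd_of_lt h3 (ZMod.val_lt _)
  exact (ZMod.val_eq_zero _).1 h4

end LocalKummer

section Sha1

variable {p : ℕ} [Fact p.Prime] {S : Finset Nat.Primes} {T : ↥S → Finset GQ}
  {ζ : AlgebraicClosure ℚ} {E : IntermediateField ℚ (AlgebraicClosure ℚ)} [NumberField ↥E]

/-- The Kummer class of `a ∈ V_T` which is a local `p`-th power at all places `(s, t)` lies in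
`Ш¹`. -/
theorem asmb2_kum_mem_sha1 (hK : AsmKum p S ζ E) (hζ : IsPrimitiveRoot ζ p) (hζE : ζ ∈ E)
    (a : ↥(gkV ↥E (gkT S ↥E : Set (HeightOneSpectrum (𝓞 ↥E))) p))
    (hloc : ∀ (s : ↥S) (t : GQ), t ∈ T s →
      haveI : Fact ((s.1 : Nat.Primes) : ℕ).Prime := ⟨s.1.2⟩
      ∃ c : PadicAlgCl ((s.1 : Nat.Primes) : ℕ),
        c ∈ lgField ((s.1 : Nat.Primes) : ℕ) (lgqmEmb ((s.1 : Nat.Primes) : ℕ) E t) ∧
        c ^ p = lgqmEmb ((s.1 : Nat.Primes) : ℕ) E t (((a : (↥E)ˣ) : (↥E)ˣ) : ↥E)) :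
    Multiplicative.toAdd (asmb2Kum hK a) ∈
      sha1 (locSysMackey (locSysS S) E.fixingSubgroup T)
        (trivRep (k := ZMod p) E.fixingSubgroup) := by
  have key : ∀ w, smH1res (trivRep (k := ZMod p) E.fixingSubgroup)
      ((locSysMackey (locSysS S) E.fixingSubgroup T).cont w)
      (Multiplicative.toAdd (asmb2Kum hK a)) = 0 := by
    intro w
    obtain ⟨s, t, ht⟩ := w
    haveI : Fact ((s.1 : Nat.Primes) : ℕ).Prime := ⟨s.1.2⟩
    rw [asmb2Kum_apply, smH1res_mk, smH1π_eq_zero_iff]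
    have h0 : ((smZ1res (trivRep (k := ZMod p) E.fixingSubgroup)
        ((locSysMackey (locSysS S) E.fixingSubgroup T).cont ⟨s, ⟨t, ht⟩⟩)
        ⟨sbKumFun ζ E.fixingSubgroup ((((a : (↥E)ˣ) : (↥E)ˣ) : ↥E) : AlgebraicClosure ℚ),
          (hK.mem_smZ1_iff (a : (↥E)ˣ)).2 a.2⟩ : ↥(smZ1 _ _)) :
        ↥(mackeySub ((locSysS S).r s) E.fixingSubgroup t) → ZMod p) = 0 := by
      funext γ
      exact asmb2_kumFun_local_eq_zero ((s.1 : Nat.Primes) : ℕ) hζ hζE hK.spec t (a : (↥E)ˣ)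
        (hloc s t ht) γ.1 (mem_mackeySub.1 γ.2)
    rw [h0]
    exact Submodule.zero_mem _
  exact funext key

end Sha1

section System

variable {p : ℕ} [Fact p.Prime] {S : Finset Nat.Primes} {T : ↥S → Finset GQ}
  {E : IntermediateField ℚ (AlgebraicClosure ℚ)} [NumberField ↥E]

variable (E) in
/-- the place of `E` attached to `(s, t)` -/
noncomputable def asmb2Place (s : ↥S) (t : GQ) : HeightOneSpectrum (𝓞 ↥E) :=
  haveI : Fact ((s.1 : Nat.Primes) : ℕ).Prime := ⟨s.1.2⟩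
  lgPlace ((s.1 : Nat.Primes) : ℕ) (lgqmEmb ((s.1 : Nat.Primes) : ℕ) E t)

theorem asmb2_exists_gkEmb (v : HeightOneSpectrum (𝓞 ↥E)) : Nonempty (GkEmb ↥E v) := by
  obtain ⟨i, hi⟩ := exists_lgEmb (gePrime ↥E v) v (natCast_gePrime_mem v)
  exact ⟨⟨gePrime ↥E v, inferInstance, i, hi⟩⟩

/-- the local embedding datum at a place is determined by the place, among the twisted embeddings
at double coset representatives -/
theorem asmb2_gkEmb_eq (hT : IsDoubleCosetReps (locSysS S) E.fixingSubgroup T) (s s' : ↥S)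
    (t t' : GQ) (ht : t ∈ T s) (ht' : t' ∈ T s') (v : HeightOneSpectrum (𝓞 ↥E))
    (hpl : haveI : Fact ((s.1 : Nat.Primes) : ℕ).Prime := ⟨s.1.2⟩
      lgPlace ((s.1 : Nat.Primes) : ℕ) (lgqmEmb ((s.1 : Nat.Primes) : ℕ) E t) = v)
    (hpl' : haveI : Fact ((s'.1 : Nat.Primes) : ℕ).Prime := ⟨s'.1.2⟩
      lgPlace ((s'.1 : Nat.Primes) : ℕ) (lgqmEmb ((s'.1 : Nat.Primes) : ℕ) E t') = v) :
    (⟨((s'.1 : Nat.Primes) : ℕ), ⟨s'.1.2⟩, lgqmEmb ((s'.1 : Nat.Primes) : ℕ) E t', hpl'⟩ :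
      GkEmb ↥E v) =
      ⟨((s.1 : Nat.Primes) : ℕ), ⟨s.1.2⟩, lgqmEmb ((s.1 : Nat.Primes) : ℕ) E t, hpl⟩ := by
  haveI : Fact ((s.1 : Nat.Primes) : ℕ).Prime := ⟨s.1.2⟩
  haveI : Fact ((s'.1 : Nat.Primes) : ℕ).Prime := ⟨s'.1.2⟩
  have h1 : ((((s.1 : Nat.Primes) : ℕ) : ℕ) : 𝓞 ↥E) ∈ v.asIdeal := by
    rw [← hpl]
    exact natCast_mem_lgIdeal ((s.1 : Nat.Primes) : ℕ) (lgqmEmb ((s.1 : Nat.Primes) : ℕ) E t)
  have h2 : ((((s'.1 : Nat.Primes) : ℕ) : ℕ) : 𝓞 ↥E) ∈ v.asIdeal := by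
    rw [← hpl']
    exact natCast_mem_lgIdeal ((s'.1 : Nat.Primes) : ℕ) (lgqmEmb ((s'.1 : Nat.Primes) : ℕ) E t')
  haveI := v.isPrime
  have h3 : ((s'.1 : Nat.Primes) : ℕ) = ((s.1 : Nat.Primes) : ℕ) :=
    sbur_eq_of_natCast_mem ↥E s'.1.2 s.1.2 h2 h1
  have h4 : s' = s := Subtype.ext (Subtype.ext h3)
  subst h4
  have h5 : t' = t := lgqm_place_injOn hT s' ht' ht (hpl'.trans hpl.symm)
  subst h5
  rfl

/-- a system of local embeddings which, at the places above `S`, consists of the twisted embeddings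
at the double coset representatives -/
theorem asmb2_exists_system (hT : IsDoubleCosetReps (locSysS S) E.fixingSubgroup T) :
    ∃ Φ : ∀ v : HeightOneSpectrum (𝓞 ↥E), GkEmb ↥E v,
      ∀ (s : ↥S) (t : GQ), t ∈ T s →
        haveI : Fact ((s.1 : Nat.Primes) : ℕ).Prime := ⟨s.1.2⟩
        Φ (lgPlace ((s.1 : Nat.Primes) : ℕ) (lgqmEmb ((s.1 : Nat.Primes) : ℕ) E t)) =
          ⟨((s.1 : Nat.Primes) : ℕ), ⟨s.1.2⟩, lgqmEmb ((s.1 : Nat.Primes) : ℕ) E t, rfl⟩ := by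
  classical
  let P : HeightOneSpectrum (𝓞 ↥E) → Prop := fun v => ∃ (s : ↥S) (t : GQ), t ∈ T s ∧
    asmb2Place E s t = v
  refine ⟨fun v => if h : P v then
      ⟨((h.choose.1 : Nat.Primes) : ℕ), ⟨h.choose.1.2⟩,
        lgqmEmb ((h.choose.1 : Nat.Primes) : ℕ) E h.choose_spec.choose,
        h.choose_spec.choose_spec.2⟩
    else (asmb2_exists_gkEmb v).some, ?_⟩
  intro s t ht
  haveI : Fact ((s.1 : Nat.Primes) : ℕ).Prime := ⟨s.1.2⟩
  have h : P (lgPlace ((s.1 : Nat.Primes) : ℕ) (lgqmEmb ((s.1 : Nat.Primes) : ℕ) E t)) :=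
    ⟨s, t, ht, rfl⟩
  show (if h : P _ then _ else _) = _
  rw [dif_pos h]
  exact asmb2_gkEmb_eq hT s h.choose t h.choose_spec.choose ht h.choose_spec.choose_spec.1 _ rfl
    h.choose_spec.choose_spec.2

end System

section Index

variable {p : ℕ} [Fact p.Prime] {S : Finset Nat.Primes} {T : ↥S → Finset GQ}
  {ζ : AlgebraicClosure ℚ} {E : IntermediateField ℚ (AlgebraicClosure ℚ)} [NumberField ↥E]

/-- `a` is a `p`-th power in the local field of the embedding datum `φ` (in `PadicAlgCl`-form) -/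
def AsmLocPow (p : ℕ) {v : HeightOneSpectrum (𝓞 ↥E)} (φ : GkEmb ↥E v) (a : (↥E)ˣ) : Prop :=
  ∃ c : PadicAlgCl φ.q, c ∈ lgField φ.q φ.emb ∧ c ^ p = φ.emb ((a : (↥E)ˣ) : ↥E)

theorem asmLocPow_of_gkDelta {Φ : ∀ v : HeightOneSpectrum (𝓞 ↥E), GkEmb ↥E v}
    {T' : Set (HeightOneSpectrum (𝓞 ↥E))} {a : (↥E)ˣ} (ha : a ∈ gkDelta Φ T' p)
    (v : HeightOneSpectrum (𝓞 ↥E)) (hv : v ∈ T') : AsmLocPow p (Φ v) a := by
  obtain ⟨c, hc⟩ := (mem_gkDelta_iff.1 ha).2 v hv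
  refine ⟨((c : (gkFld Φ v)ˣ) : gkFld Φ v), (c : gkFld Φ v).2, ?_⟩
  have h1 := congrArg (fun u : (gkFld Φ v)ˣ => (((u : (gkFld Φ v)ˣ) : gkFld Φ v) : PadicAlgCl (Φ v).q)) hc
  simpa using h1

/-- `|Cl_T(E)/p| = [Δ_T : Eˣᵖ] ≤ |Ш¹(H, 𝔽_p)|`. -/
theorem asmb2_index_le_card_sha1 (hp2 : p ≠ 2) (hpS : ∃ q ∈ S, ((q : Nat.Primes) : ℕ) = p)
    (hT : IsDoubleCosetReps (locSysS S) E.fixingSubgroup T) (hK : AsmKum p S ζ E)
    (hζ : IsPrimitiveRoot ζ p) (hζE : ζ ∈ E)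
    [Finite ↥(sha1 (locSysMackey (locSysS S) E.fixingSubgroup T)
      (trivRep (k := ZMod p) E.fixingSubgroup))] :
    (gkClSub ↥E (gkT S ↥E : Set (HeightOneSpectrum (𝓞 ↥E))) p).index ≤
      Nat.card ↥(sha1 (locSysMackey (locSysS S) E.fixingSubgroup T)
        (trivRep (k := ZMod p) E.fixingSubgroup)) := by
  obtain ⟨Φ, hΦ⟩ := asmb2_exists_system (E := E) hT
  have hζ' : IsPrimitiveRoot (⟨ζ, hζE⟩ : ↥E) p :=
    IsPrimitiveRoot.of_map_of_injective (f := E.val) (by exact hζ) E.val.injective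
  have hTp : ∀ v : HeightOneSpectrum (𝓞 ↥E), ((p : ℕ) : 𝓞 ↥E) ∈ v.asIdeal → v ∈ gkT S ↥E :=
    fun v hv => gkT_of_natCast_mem hpS v hv
  have hidx := gk_relIndex_delta_eq Φ p (⟨ζ, hζE⟩ : ↥E) hp2 hζ' (gkT S ↥E) hTp
  rw [← hidx]
  have hΔV : gkDelta Φ (gkT S ↥E : Set (HeightOneSpectrum (𝓞 ↥E))) p ≤
      gkV ↥E (gkT S ↥E : Set (HeightOneSpectrum (𝓞 ↥E))) p := gkfin_gkDelta_le_gkV Φ p _
  set κ' : ↥(gkDelta Φ (gkT S ↥E : Set (HeightOneSpectrum (𝓞 ↥E))) p) →*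
      Multiplicative (smH1 ((levelsS S).sub E.fixingSubgroup)
        (1 : Representation (ZMod p) ↥E.fixingSubgroup (ZMod p))) :=
    (asmb2Kum hK).comp (Subgroup.inclusion hΔV) with hκ'
  have hker : κ'.ker = (powMonoidHom p : (↥E)ˣ →* (↥E)ˣ).range.subgroupOf
      (gkDelta Φ (gkT S ↥E : Set (HeightOneSpectrum (𝓞 ↥E))) p) := by
    ext a
    rw [MonoidHom.mem_ker, Subgroup.mem_subgroupOf]
    show asmb2Kum hK (Subgroup.inclusion hΔV a) = 1 ↔ _
    rw [asmb2Kum_eq_one_iff]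
    constructor
    · rintro ⟨c, hc⟩
      exact ⟨c, hc⟩
    · rintro ⟨c, hc⟩
      exact ⟨c, hc⟩
  have h1 : (powMonoidHom p : (↥E)ˣ →* (↥E)ˣ).range.relIndex
      (gkDelta Φ (gkT S ↥E : Set (HeightOneSpectrum (𝓞 ↥E))) p) = Nat.card κ'.range := by
    rw [← Subgroup.index_ker, hker]
    rfl
  rw [h1]
  -- the range lies in `Ш¹`
  have hmem : ∀ x : ↥κ'.range, Multiplicative.toAdd (x : Multiplicative (smH1 _ _)) ∈
      sha1 (locSysMackey (locSysS S) E.fixingSubgroup T)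
        (trivRep (k := ZMod p) E.fixingSubgroup) := by
    rintro ⟨x, a, rfl⟩
    refine asmb2_kum_mem_sha1 hK hζ hζE (Subgroup.inclusion hΔV a) fun s t ht => ?_
    haveI : Fact ((s.1 : Nat.Primes) : ℕ).Prime := ⟨s.1.2⟩
    have hv : lgPlace ((s.1 : Nat.Primes) : ℕ) (lgqmEmb ((s.1 : Nat.Primes) : ℕ) E t) ∈
        (gkT S ↥E : Set (HeightOneSpectrum (𝓞 ↥E))) := by
      rw [Finset.mem_coe, mem_gkT]
      exact ⟨s.1, s.2, natCast_mem_lgIdeal ((s.1 : Nat.Primes) : ℕ) _⟩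
    have h2 := asmLocPow_of_gkDelta a.2 _ hv
    rw [hΦ s t ht] at h2
    exact h2
  refine Nat.card_le_card_of_injective (fun x => (⟨Multiplicative.toAdd x.1, hmem x⟩ :
    ↥(sha1 (locSysMackey (locSysS S) E.fixingSubgroup T)
      (trivRep (k := ZMod p) E.fixingSubgroup)))) ?_
  intro x y hxy
  have h3 := congrArg Subtype.val hxy
  exact Subtype.ext (Multiplicative.toAdd.injective h3)

end Index

/-! ## The leaves -/

section Leaves

set_option maxSynthPendingDepth 3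

variable {p : ℕ} [Fact p.Prime] (hp2 : p ≠ 2) (S : Finset Nat.Primes) (hpS : pPrime p ∈ S)
  (H : Subgroup GQ) (hH : (levelsS S).IsOpen H) (hHχ : H ≤ (cycloChar p).ker)

/-- the SB-KG1 black boxes, bundled -/
theorem asmb2_kum (hpS : pPrime p ∈ S) {ζ : AlgebraicClosure ℚ} (hζ : IsPrimitiveRoot ζ p)
    (E : IntermediateField ℚ (AlgebraicClosure ℚ)) (hζE : ζ ∈ E)
    (hE : E.IsUnramifiedOutside S) :
    haveI := sb_numberField hE.1
    AsmKum p S ζ E := by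
  haveI := sb_numberField hE.1
  have hpS' : ∃ q ∈ S, ((q : Nat.Primes) : ℕ) = p := ⟨pPrime p, hpS, rfl⟩
  exact
    { spec := fun a α hα σ => sbKumFun_spec hζ E hζE a α hα σ
      mul := fun a b => sbKumFun_mul hζ E hζE a b
      eq_zero_iff := fun a => sbKumFun_eq_zero_iff hζ E hζE a
      mem_smZ1_iff := fun a => sbKumFun_mem_smZ1_iff hζ E hζE S hpS' hE a
      surj := fun f hf => sbKumFun_surjective hζ E hζE S hpS' hE f hf }

include hp2 hpS hH hHχ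

variable (T : ↥S → Finset GQ) (hT : IsDoubleCosetReps (locSysS S) H T)

include hT

/-- LEAF AS-b2f: `Ш¹(H, k)` is finite-dimensional. -/
theorem asm_b2f : FiniteDimensional (ZMod p)
    ↥(sha1 (locSysMackey (locSysS S) H T) (trivRep (k := ZMod p) H)) := by
  obtain ⟨E, hE, rfl⟩ := (sb_isOpen_iff S H).1 hH
  obtain ⟨ζ, hζ⟩ := Fermat.Agent.S14.plumb_exists_primitiveRoot p
  have hζE : ζ ∈ E := sb_root_mem hHχ hζ.pow_eq_one
  haveI := sb_numberField hE.1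
  have hK : AsmKum p S ζ E := asmb2_kum S hpS hζ E hζE hE
  haveI : Finite (smH1 ((levelsS S).sub E.fixingSubgroup)
      (1 : Representation (ZMod p) ↥E.fixingSubgroup (ZMod p))) := asmb2_finite_smH1 hζ hζE hK
  haveI : Module.Finite (ZMod p) (smH1 ((levelsS S).sub E.fixingSubgroup)
      (1 : Representation (ZMod p) ↥E.fixingSubgroup (ZMod p))) := Module.Finite.of_finite
  exact FiniteDimensional.finiteDimensional_submodule _

/-- LEAF AS-b2f2: `Ш²(H, k)` is finite-dimensional. -/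
theorem asm_b2f2 : FiniteDimensional (ZMod p)
    ↥(sha2 (locSysMackey (locSysS S) H T) (trivRep (k := ZMod p) H)) := by
  obtain ⟨E, hE, rfl⟩ := (sb_isOpen_iff S H).1 hH
  obtain ⟨ζ, hζ⟩ := Fermat.Agent.S14.plumb_exists_primitiveRoot p
  have hζE : ζ ∈ E := sb_root_mem hHχ hζ.pow_eq_one
  haveI := sb_numberField hE.1
  have hpS' : ∃ q ∈ S, ((q : Nat.Primes) : ℕ) = p := ⟨pPrime p, hpS, rfl⟩
  exact (asmb2_finite_of_dependent
    (gkClSub ↥E (gkT S ↥E : Set (HeightOneSpectrum (𝓞 ↥E))) p).index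
    (fun m x hm => asmb2_sha2_dependent S hp2 hpS' hT hE hζ hζE x hm)).1

/-- LEAF AS-b2: `dim Ш²(H, k) ≤ dim Ш¹(H, k)`. -/
theorem asm_b2 : Module.finrank (ZMod p)
      ↥(sha2 (locSysMackey (locSysS S) H T) (trivRep (k := ZMod p) H)) ≤
    Module.finrank (ZMod p)
      ↥(sha1 (locSysMackey (locSysS S) H T) (trivRep (k := ZMod p) H)) := by
  have hp : p.Prime := Fact.out
  obtain ⟨E, hE, rfl⟩ := (sb_isOpen_iff S H).1 hH
  obtain ⟨ζ, hζ⟩ := Fermat.Agent.S14.plumb_exists_primitiveRoot p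
  have hζE : ζ ∈ E := sb_root_mem hHχ hζ.pow_eq_one
  haveI := sb_numberField hE.1
  have hpS' : ∃ q ∈ S, ((q : Nat.Primes) : ℕ) = p := ⟨pPrime p, hpS, rfl⟩
  have hK : AsmKum p S ζ E := asmb2_kum S hpS hζ E hζE hE
  have h2 := (asmb2_finite_of_dependent
    (gkClSub ↥E (gkT S ↥E : Set (HeightOneSpectrum (𝓞 ↥E))) p).index
    (fun m x hm => asmb2_sha2_dependent S hp2 hpS' hT hE hζ hζE x hm)).2
  haveI : Finite (smH1 ((levelsS S).sub E.fixingSubgroup)
      (1 : Representation (ZMod p) ↥E.fixingSubgroup (ZMod p))) := asmb2_finite_smH1 hζ hζE hK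
  haveI : Finite ↥(sha1 (locSysMackey (locSysS S) E.fixingSubgroup T)
      (trivRep (k := ZMod p) E.fixingSubgroup)) := Subtype.finite
  haveI : Module.Finite (ZMod p) ↥(sha1 (locSysMackey (locSysS S) E.fixingSubgroup T)
      (trivRep (k := ZMod p) E.fixingSubgroup)) := Module.Finite.of_finite
  have h3 := asmb2_index_le_card_sha1 hp2 hpS' hT hK hζ hζE
  rw [Module.natCard_eq_pow_finrank (K := ZMod p), Nat.card_zmod] at h3
  exact (Nat.pow_le_pow_iff_right hp.one_lt).1 (h2.trans h3)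

end Leaves

end Fermat.Agent.S55
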