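import Fermat.Agent.S55.SB.AsC1
import Fermat.Agent.S55.Global.H3Mu

/-!
# S55, package ASM, leaf AS-c1: `H³(H, 𝔽_p) = 0` (smooth cohomology of an open `H ≤ ker χ`)
from helper13's `sb_c1` (SB/AsC1.lean) and U4 `gl_h3_mu_vanish` (Global/H3Mu.lean). Sorry-free.
-/

set_option autoImplicit false

namespace Fermat.Agent.S55

open ExtCitation

variable {p : ℕ} [Fact p.Prime]

/-- U4 in the hypothesis form `SbU4` consumed by `sb_c1` -/
theorem asmc1_sbU4 (hp2 : p ≠ 2) (S : Finset Nat.Primes) (hpS : pPrime p ∈ S) : SbU4 p S := by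
  intro K F _ _ _ _ _ _ hζ hur f hf hμ
  exact gl_h3_mu_vanish hp2 S ⟨pPrime p, hpS, rfl⟩ K F hζ hur f hf hμ

/-- LEAF AS-c1 (any open `H ≤ ker χ`): smooth `3`-cocycles with trivial coefficients are
coboundaries. -/
theorem asmc1_c1 (hp2 : p ≠ 2) (S : Finset Nat.Primes) (hpS : pPrime p ∈ S)
    (H : Subgroup GQ) (hH : (levelsS S).IsOpen H) (hHχ : H ≤ (cycloChar p).ker) :
    ∀ a : ↥H × ↥H × ↥H → ZMod p,
      a ∈ smZ3 ((levelsS S).sub H) (1 : Representation (ZMod p) ↥H (ZMod p)) →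
        a ∈ smB3 ((levelsS S).sub H) (1 : Representation (ZMod p) ↥H (ZMod p)) :=
  fun a ha => sb_c1 S (asmc1_sbU4 hp2 S hpS) H hH hHχ a ha

end Fermat.Agent.S55
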