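/-
S55, package ASM, leaf AS-c2 (row 330): `asm_c2` = field `c2` of `CritTriv` for
`D' = locSysMackey (locSysS S) H T`, `inv = asmInv p S H T`: a family of local classes with
`Σ_w inv_w = 0` is the localisation of a global class.

Route: `H = E.fixingSubgroup` (`sb_isOpen_iff`), `ζ₀ ∈ E` (`sb_root_mem`); the family
`r (place of w) := inv_w (b_w) / p` on the places of `E` (`lgqm_place_injOn`: `w ↦ place` is injective)
has sum `0`, is killed by `p` and supported above `S`; U3 `gl_realise_mu` gives an `S`-field `F / E` and a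
`μ_p`-valued cocycle with these invariants; embed `F` in `ℚ̄` (`sb_exists_embed`), inflate along
`F ≃ M`, write the cocycle as `ζ^c'` (`sb_exists_eq_sbMul`); the smooth class `x = [c' ∘ sbRes]` has
`inv_w (loc_w x) = p · geInv (ζ^c') = inv_w (b_w)` (helper2's `lgqm_geInv_eq_res`), and `inv_w` is
injective (`lgqmInv_injective`).  Helper names are prefixed `asmc2`.
-/
import Fermat.Agent.S55.Asm.TrivDefs
import Fermat.Agent.S55.LG.QbarMackey
import Fermat.Agent.S55.SB.AsC1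
import Fermat.Agent.S55.Global.RealiseMu

set_option autoImplicit false
set_option linter.unusedSectionVars false
set_option linter.unusedVariables false
set_option linter.style.haveILetI false

namespace Fermat.Agent.S55

open scoped NumberField
open NumberField IsDedekindDomain groupCohomology ExtCitation

section Layer

variable {p : ℕ} [Fact p.Prime]

/-- LAYER FORM of the realisation statement U3: over a number field `E ⊆ ℚ̄` unramified outside `S`
containing `ζ`, every `p`-torsion family of invariants supported above `S` with sum `0` is the family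
of invariants of `ζ^c'` for an additive `2`-cocycle `c'` of a finite Galois layer `M / E`
unramified outside `S`. -/
theorem asmc2_layer (hp2 : p ≠ 2) (S : Finset Nat.Primes) (hpS : pPrime p ∈ S)
    {E : IntermediateField ℚ (AlgebraicClosure ℚ)} (hE : E.IsUnramifiedOutside S)
    [NumberField ↥E] {ζ : AlgebraicClosure ℚ} (hζ : IsPrimitiveRoot ζ p) (hζE : ζ ∈ E)
    (r : HeightOneSpectrum (𝓞 ↥E) → AddCircle (1 : ℚ))
    (hS : ∀ v, ¬ GlAbove S ↥E v → r v = 0) (hp : ∀ v, p • r v = 0) (hsum : ∑ᶠ v, r v = 0) :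
    ∃ (M : IntermediateField ℚ (AlgebraicClosure ℚ)) (h : E ≤ M) (hM : M.IsUnramifiedOutside S)
      (hg : letI := sbAlgebra h; IsGalois ↥E ↥M) (ζM : (↥M)ˣ)
      (c' : (letI := sbAlgebra h; (↥M ≃ₐ[↥E] ↥M) × (↥M ≃ₐ[↥E] ↥M)) → ZMod p),
      letI := sbAlgebra h
      haveI : NumberField ↥M := sb_numberField hM.1
      ((ζM : ↥M) : AlgebraicClosure ℚ) = ζ ∧
      dd2 (1 : Representation (ZMod p) (↥M ≃ₐ[↥E] ↥M) (ZMod p)) c' = 0 ∧
      ∀ (q : ℕ) [Fact q.Prime] (J : ↥M →+* PadicAlgCl q),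
        geInv q J (sbMul₂ ζM c') = r (lgPlace q (J.comp (algebraMap ↥E ↥M))) := by
  classical
  have h0 : ζ ≠ 0 := hζ.ne_zero (Fact.out : p.Prime).ne_zero
  let ζE : (↥E)ˣ := Units.mk0 ⟨ζ, hζE⟩ (fun h' => h0 (congrArg Subtype.val h'))
  have hζE' : IsPrimitiveRoot ζE p := by
    apply IsPrimitiveRoot.coe_units_iff.1
    exact IsPrimitiveRoot.of_map_of_injective (f := E.val) (by exact hζ) E.val.injective
  obtain ⟨F, iF, inF, iEF, igal, hurF, c, hc, hμ, hinv⟩ :=
    gl_realise_mu hp2 S ⟨pPrime p, hpS, rfl⟩ ↥E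
      ⟨(ζE : ↥E), IsPrimitiveRoot.coe_units_iff.2 hζE'⟩ r hS hp hsum
  obtain ⟨M, hEM, hfd, ⟨φ⟩⟩ := sb_exists_embed E F
  letI := sbAlgebra hEM
  haveI hnfM : NumberField ↥M := sb_numberField hfd
  have hgal : IsGalois ↥E ↥M := IsGalois.of_algEquiv φ
  have hurM : GlUnramOutside S ↥E ↥M := glUnramOutside_congr S φ hurF
  have hM : M.IsUnramifiedOutside S :=
    sb_isUnramifiedOutside_of_glUnramOutside S hEM hE hfd hurM
  -- `M` as an `F`-algebra through `φ`
  letI : Algebra F ↥M := (φ : F →+* ↥M).toAlgebra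
  haveI : IsScalarTower ↥E F ↥M := IsScalarTower.of_algebraMap_eq (fun x => (φ.commutes x).symm)
  haveI := hgal
  -- the inflated cocycle
  have hc₂ : IsMulCocycle₂ (glInfl₂ ↥E F ↥M c) := glInfl₂_isMulCocycle₂ ↥E F ↥M c hc
  have hμ₂ : GlMuValued p (glInfl₂ ↥E F ↥M c) := glInfl₂_muValued ↥E F ↥M p c hμ
  have hζM : IsPrimitiveRoot (Units.map (algebraMap ↥E ↥M : ↥E →* ↥M) ζE) p :=
    sb_isPrimitiveRoot_map (F := ↥M) hζE'
  obtain ⟨c', hc'⟩ := sb_exists_eq_sbMul hζM (glInfl₂ ↥E F ↥M c) hμ₂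
  have hc₂' : glInfl₂ ↥E F ↥M c = sbMul₂ (Units.map (algebraMap ↥E ↥M : ↥E →* ↥M) ζE) c' :=
    funext hc'
  refine ⟨M, hEM, hM, hgal, Units.map (algebraMap ↥E ↥M : ↥E →* ↥M) ζE, c', rfl, ?_, ?_⟩
  · rw [← isMulCocycle₂_sbMul₂_iff (sb_primitiveRoot_pow_eq_one hζM) (sb_primitiveRoot_ne_one hζM)
      (sb_smul_map_algebraMap ζE), ← hc₂']
    exact hc₂
  · intro q _ J
    rw [← hc₂', glInfl₂_eq_lfBC, geInv_inflation q J hc, hinv q (J.comp (algebraMap F ↥M)),
      RingHom.comp_assoc, ← IsScalarTower.algebraMap_eq ↥E F ↥M]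

end Layer

section Places

variable {p : ℕ} [Fact p.Prime] (S : Finset Nat.Primes)
  (E : IntermediateField ℚ (AlgebraicClosure ℚ)) [NumberField ↥E] (T : ↥S → Finset GQ)

/-- the place of `E` attached to `w = (v, t)`: induced by the `t`-twisted `v`-adic embedding -/
noncomputable def asmc2Place (w : Σ v : ↥S, ↥(T v)) : HeightOneSpectrum (𝓞 ↥E) :=
  haveI : Fact ((w.1.1 : Nat.Primes) : ℕ).Prime := ⟨w.1.1.2⟩
  lgPlace ((w.1.1 : Nat.Primes) : ℕ) (lgqmEmb ((w.1.1 : Nat.Primes) : ℕ) E (w.2 : GQ))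

theorem asmc2Place_above (w : Σ v : ↥S, ↥(T v)) : GlAbove S ↥E (asmc2Place S E T w) := by
  haveI : Fact ((w.1.1 : Nat.Primes) : ℕ).Prime := ⟨w.1.1.2⟩
  exact ⟨w.1.1, w.1.2, natCast_mem_lgIdeal ((w.1.1 : Nat.Primes) : ℕ)
    (lgqmEmb ((w.1.1 : Nat.Primes) : ℕ) E (w.2 : GQ))⟩

theorem asmc2Place_injective (hT : IsDoubleCosetReps (locSysS S) E.fixingSubgroup T) :
    Function.Injective (asmc2Place S E T) := by
  rintro ⟨v, t⟩ ⟨v', t'⟩ h
  haveI : Fact ((v.1 : Nat.Primes) : ℕ).Prime := ⟨v.1.2⟩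
  haveI : Fact ((v'.1 : Nat.Primes) : ℕ).Prime := ⟨v'.1.2⟩
  have h1 : ((v.1 : Nat.Primes) : ℕ) = ((v'.1 : Nat.Primes) : ℕ) := by
    have e1 := gePrime_lgPlace ((v.1 : Nat.Primes) : ℕ) (lgqmEmb ((v.1 : Nat.Primes) : ℕ) E (t : GQ))
    have e2 := gePrime_lgPlace ((v'.1 : Nat.Primes) : ℕ)
      (lgqmEmb ((v'.1 : Nat.Primes) : ℕ) E (t' : GQ))
    have h' : lgPlace ((v.1 : Nat.Primes) : ℕ) (lgqmEmb ((v.1 : Nat.Primes) : ℕ) E (t : GQ)) =
        lgPlace ((v'.1 : Nat.Primes) : ℕ) (lgqmEmb ((v'.1 : Nat.Primes) : ℕ) E (t' : GQ)) := h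
    rw [← e1, h', e2]
  have h2 : v = v' := Subtype.ext (Subtype.ext h1)
  subst h2
  have h3 : (t : GQ) = (t' : GQ) := lgqm_place_injOn hT v t.2 t'.2 h
  have h4 : t = t' := Subtype.ext h3
  rw [h4]

end Places

section Family

variable {p : ℕ} [Fact p.Prime] (S : Finset Nat.Primes)
  (E : IntermediateField ℚ (AlgebraicClosure ℚ)) [NumberField ↥E] (T : ↥S → Finset GQ)

open Classical in
/-- the family of prescribed invariants on the places of `E`: `a w / p` at the place of `w`, `0`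
elsewhere -/
noncomputable def asmc2Fam (a : (Σ v : ↥S, ↥(T v)) → ZMod p) :
    HeightOneSpectrum (𝓞 ↥E) → AddCircle (1 : ℚ) :=
  fun P => if h : ∃ w, asmc2Place S E T w = P then lbinvPhi p (a h.choose) else 0

variable {S E T}

theorem asmc2Fam_place (hinj : Function.Injective (asmc2Place S E T))
    (a : (Σ v : ↥S, ↥(T v)) → ZMod p) (w : Σ v : ↥S, ↥(T v)) :
    asmc2Fam S E T a (asmc2Place S E T w) = lbinvPhi p (a w) := by
  classical
  have hex : ∃ w', asmc2Place S E T w' = asmc2Place S E T w := ⟨w, rfl⟩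
  unfold asmc2Fam
  rw [dif_pos hex, hinj hex.choose_spec]

theorem asmc2Fam_of_forall_ne (a : (Σ v : ↥S, ↥(T v)) → ZMod p) (P : HeightOneSpectrum (𝓞 ↥E))
    (hP : ∀ w, asmc2Place S E T w ≠ P) : asmc2Fam S E T a P = 0 := by
  classical
  unfold asmc2Fam
  rw [dif_neg]
  rintro ⟨w, hw⟩
  exact hP w hw

theorem asmc2Fam_of_not_above (a : (Σ v : ↥S, ↥(T v)) → ZMod p) (P : HeightOneSpectrum (𝓞 ↥E))
    (hP : ¬ GlAbove S ↥E P) : asmc2Fam S E T a P = 0 := by
  apply asmc2Fam_of_forall_ne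
  rintro w rfl
  exact hP (asmc2Place_above S E T w)

theorem asmc2_nsmul_lbinvPhi (x : ZMod p) : p • lbinvPhi p x = 0 := by
  rw [← map_nsmul, nsmul_eq_mul, CharP.cast_eq_zero, zero_mul, map_zero]

theorem asmc2Fam_nsmul (a : (Σ v : ↥S, ↥(T v)) → ZMod p) (P : HeightOneSpectrum (𝓞 ↥E)) :
    p • asmc2Fam S E T a P = 0 := by
  classical
  unfold asmc2Fam
  split_ifs
  · exact asmc2_nsmul_lbinvPhi _
  · exact smul_zero _

theorem asmc2Fam_finsum (hinj : Function.Injective (asmc2Place S E T))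
    (a : (Σ v : ↥S, ↥(T v)) → ZMod p) :
    ∑ᶠ P, asmc2Fam S E T a P = lbinvPhi p (∑ w, a w) := by
  classical
  have hsupp : Function.support (asmc2Fam S E T a) ⊆
      ↑(Finset.univ.image (asmc2Place S E T)) := by
    intro P hP
    by_contra hP'
    apply hP
    apply asmc2Fam_of_forall_ne
    intro w hw
    apply hP'
    rw [Finset.coe_image, Set.mem_image]
    exact ⟨w, Finset.mem_coe.2 (Finset.mem_univ w), hw⟩
  rw [finsum_eq_sum_of_support_subset _ hsupp, Finset.sum_image (fun x _ y _ h => hinj h), map_sum]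
  exact Finset.sum_congr rfl (fun w _ => asmc2Fam_place hinj a w)

end Family

section Inv

variable (p : ℕ) [Fact p.Prime] (S : Finset Nat.Primes) (H : Subgroup GQ)

/-- `asmInvAt` is helper2's `lgqmInv` at `ζ_w = emb_v (t⁻¹ ζ₀)` -/
theorem asmc2_invAt_eq_lgqmInv (v : ↥S) (t : GQ) :
    haveI : Fact ((v.1 : Nat.Primes) : ℕ).Prime := ⟨v.1.2⟩
    asmInvAt p S H v t =
      lgqmInv ((v.1 : Nat.Primes) : ℕ) p
        (padicEmbedding ((v.1 : Nat.Primes) : ℕ) ((t⁻¹ : GQ) (asmZeta p))) (lg_locSysS_lev S v)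
        (mackeySub ((locSysS S).r v) H t : Subgroup (primeLocalGaloisGroup v.1))
        ((trivRep (k := ZMod p) H).comp (mackeyHom ((locSysS S).r v) H t)) := rfl

end Inv

section Leaves

set_option maxSynthPendingDepth 3

variable {p : ℕ} [Fact p.Prime] (hp2 : p ≠ 2) (S : Finset Nat.Primes) (hpS : pPrime p ∈ S)
  (H : Subgroup GQ) (hH : (levelsS S).IsOpen H) (hHχ : H ≤ (cycloChar p).ker)

include hp2 hpS hH hHχ

variable (T : ↥S → Finset GQ) (hT : IsDoubleCosetReps (locSysS S) H T)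

include hT

/-- LEAF AS-c2: a family of local classes with `Σ_w inv_w = 0` is global. -/
theorem asm_c2 : ∀ b : ∀ w, smH2 ((locSysMackey (locSysS S) H T).lev w)
      ((locSysMackey (locSysS S) H T).rep (trivRep (k := ZMod p) H) w),
    asmInv p S H T b = 0 →
      ∃ x : smH2 ((levelsS S).sub H) (trivRep (k := ZMod p) H),
        locP2 (locSysMackey (locSysS S) H T) (ρ := trivRep (k := ZMod p) H) x = b := by
  intro b hb
  obtain ⟨E, hE, rfl⟩ := (sb_isOpen_iff S H).1 hH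
  haveI : NumberField ↥E := sb_numberField hE.1
  have hζ := asmZeta_spec p
  have hζE : asmZeta p ∈ E := sb_root_mem hHχ hζ.pow_eq_one
  have hinj := asmc2Place_injective S E T hT
  -- the prescribed invariants
  set a : (Σ v : ↥S, ↥(T v)) → ZMod p :=
    fun w => asmInvAt p S E.fixingSubgroup w.1 (w.2 : GQ) (b w) with ha
  have hsum : ∑ᶠ P, asmc2Fam S E T a P = 0 := by
    rw [asmc2Fam_finsum hinj a, ← asmInv_apply, hb, map_zero]
  obtain ⟨M, h, hM, hg, ζM, c', hζM, hc', hinv⟩ :=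
    asmc2_layer hp2 S hpS hE hζ hζE (asmc2Fam S E T a) (asmc2Fam_of_not_above a)
      (asmc2Fam_nsmul a) hsum
  letI := sbAlgebra h
  haveI : NumberField ↥M := sb_numberField hM.1
  -- the global class
  have hcg : (fun s : ↥E.fixingSubgroup × ↥E.fixingSubgroup =>
      c' (sbRes h hg.to_normal s.1, sbRes h hg.to_normal s.2)) ∈
      smZ2 ((levelsS S).sub E.fixingSubgroup) (trivRep (k := ZMod p) E.fixingSubgroup) := by
    rw [mem_smZ2]
    refine ⟨?_, sb_isLC₂_sbRes S hM h hg.to_normal c'⟩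
    funext ⟨g₁, g₂, g₃⟩
    have h1 := congrFun hc'
      (sbRes h hg.to_normal g₁, sbRes h hg.to_normal g₂, sbRes h hg.to_normal g₃)
    simp only [dd2_apply, MonoidHom.one_apply, Module.End.one_apply, Pi.zero_apply, map_mul]
      at h1 ⊢
    exact h1
  refine ⟨smH2π ((levelsS S).sub E.fixingSubgroup) (trivRep (k := ZMod p) E.fixingSubgroup)
    ⟨_, hcg⟩, ?_⟩
  funext w
  obtain ⟨v, t⟩ := w
  haveI : Fact ((v.1 : Nat.Primes) : ℕ).Prime := ⟨v.1.2⟩
  have hζM' : IsPrimitiveRoot ((ζM : ↥M) : AlgebraicClosure ℚ) p := by rw [hζM]; exact hζ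
  have hζK : ((ζM : ↥M) : AlgebraicClosure ℚ) ∈ E := by rw [hζM]; exact hζE
  have key := lgqm_geInv_eq_res S v p h hg (t : GQ) ζM hζM' hζK c' hcg
    ((locSysMackey (locSysS S) E.fixingSubgroup T).cont ⟨v, t⟩)
  have e1 : lgPlace ((v.1 : Nat.Primes) : ℕ)
      ((lgqmEmb ((v.1 : Nat.Primes) : ℕ) M (t : GQ)).comp (algebraMap ↥E ↥M)) =
      asmc2Place S E T ⟨v, t⟩ := rfl
  rw [hinv, e1, asmc2Fam_place hinj a ⟨v, t⟩, hζM, ← lbinvPhi_apply] at key
  have key2 := lbinvPhi_injective p key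
  rw [ha] at key2
  simp only at key2
  rw [asmc2_invAt_eq_lgqmInv] at key2
  have hζw : IsPrimitiveRoot
      (padicEmbedding ((v.1 : Nat.Primes) : ℕ) ((t⁻¹ : GQ) (asmZeta p))) p := by
    have h1 : IsPrimitiveRoot ((t⁻¹ : GQ) (asmZeta p)) p :=
      hζ.map_of_injective ((t : GQ)⁻¹ : GQ).injective
    exact h1.map_of_injective (lgq_padicEmbedding_injective ((v.1 : Nat.Primes) : ℕ))
  have hopen : ((locSysS S).lev v).IsOpen
      (mackeySub ((locSysS S).r v) E.fixingSubgroup (t : GQ) :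
        Subgroup (primeLocalGaloisGroup v.1)) := by
    rw [lg_locSysS_lev S v, lgqm_mackeySub_eq S v E (t : GQ)]
    exact ⟨_, ⟨lgField ((v.1 : Nat.Primes) : ℕ)
      (lgqmEmb ((v.1 : Nat.Primes) : ℕ) E (t : GQ)), inferInstance, rfl⟩, le_rfl⟩
  exact (lgqmInv_injective hζw (lg_locSysS_lev S v) _ hopen _
    (lgqm_isMuRep_triv S v p (t : GQ) (asmZeta p) hζE) key2).symm

end Leaves

end Fermat.Agent.S55
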