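import Fermat.Agent.S55.Asm.TrivDefs

/-!
# S55, package ASM, leaf AS-lamQ: the local invariant `asmInvQAt` of `ℚ_q` is onto (sorry-free).
-/

set_option autoImplicit false
set_option linter.style.haveILetI false

namespace Fermat.Agent.S55

open ExtCitation

section Top

variable {k : Type*} [CommRing k] {G : Type*} [Group G] (𝓛 : Levels G)
  {V : Type*} [AddCommGroup V] [Module k V] (ρ : Representation k G V)

/-- restriction to the subgroup `⊤` is onto on smooth `H²` -/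
theorem asm_smH2res_top_surjective :
    Function.Surjective (smH2res (𝓛H := 𝓛.sub (⊤ : Subgroup G)) ρ
      (Levels.continuous_comap 𝓛 (⊤ : Subgroup G).subtype)) := by
  intro x
  obtain ⟨⟨f, hf⟩, rfl⟩ := Submodule.mkQ_surjective _ x
  have hf' := (mem_smZ2 (𝓛.sub (⊤ : Subgroup G)) (ρ.comp (⊤ : Subgroup G).subtype) f).1 hf
  let f' : G × G → V := fun s => f (⟨s.1, Subgroup.mem_top _⟩, ⟨s.2, Subgroup.mem_top _⟩)
  have hf'Z : f' ∈ smZ2 𝓛 ρ := by
    refine (mem_smZ2 𝓛 ρ f').2 ⟨?_, ?_⟩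
    · funext ⟨g, h, j⟩
      have h1 := congrFun hf'.1 ((⟨g, Subgroup.mem_top _⟩ : ↥(⊤ : Subgroup G)),
        (⟨h, Subgroup.mem_top _⟩ : ↥(⊤ : Subgroup G)), (⟨j, Subgroup.mem_top _⟩ : ↥(⊤ : Subgroup G)))
      simp only [dd2_apply, Pi.zero_apply] at h1 ⊢
      exact h1
    · obtain ⟨_, ⟨U, hU, rfl⟩, hc⟩ := hf'.2
      refine ⟨U, hU, fun g g' s s' hs hs' => ?_⟩
      exact hc ⟨g, Subgroup.mem_top _⟩ ⟨g', Subgroup.mem_top _⟩ ⟨s, Subgroup.mem_top _⟩
        ⟨s', Subgroup.mem_top _⟩ hs hs'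
  refine ⟨smH2π 𝓛 ρ ⟨f', hf'Z⟩, ?_⟩
  rw [smH2res_mk]
  congr 1

end Top

section LamQ

variable {p : ℕ} [Fact p.Prime] (S : Finset Nat.Primes)

/-- LEAF AS-lamQ: the local invariant of `ℚ_q`, `q ∈ S`, is onto. -/
theorem asmInvQAt_surjective (v : ↥S) : Function.Surjective (asmInvQAt p S v) := by
  haveI : Fact ((v.1 : Nat.Primes) : ℕ).Prime := ⟨v.1.2⟩
  have hζ₀ : IsPrimitiveRoot (asmZeta p) p := asmZeta_spec p
  have hζ : IsPrimitiveRoot (padicEmbedding ((v.1 : Nat.Primes) : ℕ) (asmZeta p)) p :=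
    hζ₀.map_of_injective (padicEmbedding ((v.1 : Nat.Primes) : ℕ)).toRingHom.injective
  have hV : (lbLevels ((v.1 : Nat.Primes) : ℕ)).IsOpen
      (⊤ : Subgroup (lbGal ((v.1 : Nat.Primes) : ℕ))) := by
    obtain ⟨U, hU⟩ := (lbLevels ((v.1 : Nat.Primes) : ℕ)).exists_level
    exact ⟨U, hU, le_top⟩
  have hρ := lg_isMuRep_cycloChar_prime v.1 p (asmZeta p) hζ₀.pow_eq_one
    (⊤ : Subgroup (lbGal ((v.1 : Nat.Primes) : ℕ)))
  have h1 := lbInv_surjective hζ (⊤ : Subgroup (lbGal ((v.1 : Nat.Primes) : ℕ))) hV _ hρ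
  have h2 := asm_smH2res_top_surjective ((locSysS S).lev v)
    ((locSysS S).rep (chiRep (cycloChar p)) v)
  unfold asmInvQAt
  exact (h1.comp (smH2congr (asm_lev_top_eq S v) _).surjective).comp h2

end LamQ

end Fermat.Agent.S55
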