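import Fermat.Agent.S55.Asm.TrivDefs
import Fermat.Agent.S55.LocalBridgeCrit

/-!
# S55, package ASM, leaf AS-loc (row 329): the purely LOCAL fields `a1`, `b1f`, `b1'` of `CritTriv`
for `D' = locSysMackey (locSysS S) H T`, `inv = asmInv p S H T`.

Per place `w = (v, t)`, `q = v`: `Γ_w = mackeySub … = {γ | t r(γ) t⁻¹ ∈ H}` is OPEN for `lbLevels q`
(`asmloc_isOpen`), `ζ_w = asmZetaAt p S v t = emb_q (t⁻¹ ζ₀)` is a primitive `p`-th root of unity
(`asmloc_zetaAt_isPrimitiveRoot`) FIXED by `Γ_w` (`asmloc_fix`, from `H ≤ ker χ`), so the trivial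
representation is an `IsMuRep` (`asmloc_isMuRep`).  Then helper22's `LocalBridgeCrit`
(`lbInv_injective`, `lb_smH1_finite_of_isOpen`, `lbInv_cupH11_nondeg_right_of_isOpen`) transported
along `asm_lev_eq` gives the three leaves:

* `asmloc_a1`  = `asm_a1`  VERBATIM (same hypotheses, same order);
* `asmloc_b1f` = `asm_b1f` VERBATIM;
* `asmloc_b1'` = `asm_b1'` for an ARBITRARY `P : PairingData …` (a `Prop`), so
  `asm_b1' := asmloc_b1' hp2 S hpS H hH hHχ T hT (asm_P _)`.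
-/

set_option autoImplicit false
set_option linter.style.haveILetI false
set_option linter.unusedSectionVars false

namespace Fermat.Agent.S55

open ExtCitation

section Gen

variable {G : Type*} [Group G] {𝓛 : Levels G}
  {ι : Type*} {Γ : ι → Type*} [∀ v, Group (Γ v)] (D : LocSys 𝓛 ι Γ) (H : Subgroup G)

/-- the Mackey subgroup of an open subgroup is open -/
theorem asmloc_mackeySub_isOpen (hH : 𝓛.IsOpen H) (v : ι) (t : G) :
    (D.lev v).IsOpen (mackeySub (D.r v) H t) := by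
  obtain ⟨U, hU, hUH⟩ := hH
  obtain ⟨W, hW, hWn, hWU⟩ := 𝓛.exists_normal_le U hU
  obtain ⟨V, hV, hVW⟩ := D.cont v W hW
  refine ⟨V, hV, fun γ hγ => ?_⟩
  have h1 : D.r v γ ∈ W := hVW hγ
  exact hUH (hWU (hWn.conj_mem _ h1 t))

end Gen

section Congr

variable {k : Type*} [Field k] {G : Type*} [Group G]

theorem asmloc_finite_congr {𝓛 𝓛' : Levels G} (h : 𝓛 = 𝓛') (ρ : Representation k G k)
    (hfin : Module.Finite k (smH1 𝓛' ρ)) : Module.Finite k (smH1 𝓛 ρ) := by
  subst h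
  exact hfin

theorem asmloc_nondeg_congr {𝓛 𝓛' : Levels G} (h : 𝓛 = 𝓛') (ρ : Representation k G k)
    (inv' : smH2 𝓛' ρ →ₗ[k] k)
    (hnd : ∀ (P' : PairingData 𝓛' ρ ρ ρ (LinearMap.mul k k)) (c : smH1 𝓛' ρ),
      (∀ b, inv' (cupH11 P' b c) = 0) → c = 0)
    (P : PairingData 𝓛 ρ ρ ρ (LinearMap.mul k k)) (c : smH1 𝓛 ρ)
    (hc : ∀ b, (inv'.comp (smH2congr h ρ).toLinearMap) (cupH11 P b c) = 0) : c = 0 := by
  subst h
  exact hnd P c hc

end Congr

section Place

variable {p : ℕ} [Fact p.Prime] (S : Finset Nat.Primes) (H : Subgroup GQ)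

theorem asmloc_zetaAt_isPrimitiveRoot (v : ↥S) (t : GQ) :
    haveI : Fact ((v.1 : Nat.Primes) : ℕ).Prime := ⟨v.1.2⟩
    IsPrimitiveRoot (asmZetaAt p S v t) p := by
  haveI : Fact ((v.1 : Nat.Primes) : ℕ).Prime := ⟨v.1.2⟩
  have h1 : IsPrimitiveRoot ((t⁻¹ : GQ) (asmZeta p)) p :=
    (asmZeta_spec p).map_of_injective (t⁻¹ : GQ).injective
  exact h1.map_of_injective (padicEmbedding ((v.1 : Nat.Primes) : ℕ)).injective

theorem asmloc_fix_zeta (hHχ : H ≤ (cycloChar p).ker) (h : GQ) (hh : h ∈ H) :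
    h (asmZeta p) = asmZeta p := by
  have h1 : cycloChar p h = 1 := hHχ hh
  have h2 := Fermat.Agent.S14.plumb_cycloExp_spec p h (asmZeta_spec p).pow_eq_one
  rw [h2, ← val_cycloChar, h1, Units.val_one, ZMod.val_one, pow_one]

theorem asmloc_fix (hHχ : H ≤ (cycloChar p).ker) (v : ↥S) (t : GQ) :
    haveI : Fact ((v.1 : Nat.Primes) : ℕ).Prime := ⟨v.1.2⟩
    ∀ σ : lbGal ((v.1 : Nat.Primes) : ℕ), σ ∈ mackeySub ((locSysS S).r v) H t →
      σ (asmZetaAt p S v t) = asmZetaAt p S v t := by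
  haveI : Fact ((v.1 : Nat.Primes) : ℕ).Prime := ⟨v.1.2⟩
  intro σ hσ
  have hmem : t * localGaloisToGlobal ((v.1 : Nat.Primes) : ℕ) σ * t⁻¹ ∈ H := hσ
  have h1 := asmloc_fix_zeta H hHχ _ hmem
  have h2 : localGaloisToGlobal ((v.1 : Nat.Primes) : ℕ) σ ((t⁻¹ : GQ) (asmZeta p)) =
      (t⁻¹ : GQ) (asmZeta p) := by
    have h3 := congrArg (t⁻¹ : GQ) h1
    rw [AlgEquiv.mul_apply, AlgEquiv.mul_apply] at h3
    rw [← AlgEquiv.mul_apply, inv_mul_cancel, AlgEquiv.one_apply] at h3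
    exact h3
  show σ (padicEmbedding _ ((t⁻¹ : GQ) (asmZeta p))) = padicEmbedding _ ((t⁻¹ : GQ) (asmZeta p))
  rw [← padicEmbedding_localGaloisToGlobal, h2]

theorem asmloc_isMuRep (hHχ : H ≤ (cycloChar p).ker) (v : ↥S) (t : GQ) :
    haveI : Fact ((v.1 : Nat.Primes) : ℕ).Prime := ⟨v.1.2⟩
    IsMuRep (asmZetaAt p S v t) (mackeySub ((locSysS S).r v) H t)
      ((trivRep (k := ZMod p) H).comp (mackeyHom ((locSysS S).r v) H t) :
        Representation (ZMod p) ↥(mackeySub ((locSysS S).r v) H t) (ZMod p)) := by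
  haveI : Fact ((v.1 : Nat.Primes) : ℕ).Prime := ⟨v.1.2⟩
  intro σ x
  have h1 := asmloc_fix S H hHχ v t σ.1 σ.2
  rw [map_pow, h1]
  rfl

theorem asmloc_isOpen (hH : (levelsS S).IsOpen H) (v : ↥S) (t : GQ) :
    haveI : Fact ((v.1 : Nat.Primes) : ℕ).Prime := ⟨v.1.2⟩
    (lbLevels ((v.1 : Nat.Primes) : ℕ)).IsOpen (mackeySub ((locSysS S).r v) H t) := by
  haveI : Fact ((v.1 : Nat.Primes) : ℕ).Prime := ⟨v.1.2⟩
  have h1 := asmloc_mackeySub_isOpen (locSysS S) H hH v t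
  rw [lg_locSysS_lev S v] at h1
  exact h1

end Place

section Leaves

set_option maxSynthPendingDepth 3

variable {p : ℕ} [Fact p.Prime] (hp2 : p ≠ 2) (S : Finset Nat.Primes) (hpS : pPrime p ∈ S)
  (H : Subgroup GQ) (hH : (levelsS S).IsOpen H) (hHχ : H ≤ (cycloChar p).ker)
  (T : ↥S → Finset GQ) (hT : IsDoubleCosetReps (locSysS S) H T)

include hH hHχ in
/-- each `asmInvAt` is injective -/
theorem asmloc_invAt_injective (v : ↥S) (t : GQ) :
    Function.Injective (asmInvAt p S H v t) := by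
  haveI : Fact ((v.1 : Nat.Primes) : ℕ).Prime := ⟨v.1.2⟩
  have h1 := lbInv_injective (asmloc_zetaAt_isPrimitiveRoot (p := p) S v t)
    (mackeySub ((locSysS S).r v) H t) (asmloc_isOpen S H hH v t) _ (asmloc_isMuRep S H hHχ v t)
  exact h1.comp (LinearEquiv.injective _)

include hp2 hpS hH hHχ hT

/-- LEAF AS-a1: each `inv_w` is injective. -/
theorem asmloc_a1 : ∀ c : ∀ w, smH2 ((locSysMackey (locSysS S) H T).lev w)
      ((locSysMackey (locSysS S) H T).rep (trivRep (k := ZMod p) H) w),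
    (∀ a : (Σ v : ↥S, ↥(T v)) → ZMod p, asmInv p S H T (fun w => a w • c w) = 0) → c = 0 := by
  classical
  intro c hc
  refine lbc_a1_of_injective (k := ZMod p) (ι := Σ v : ↥S, ↥(T v))
    (X := fun w => smH2 ((locSysMackey (locSysS S) H T).lev w)
      ((locSysMackey (locSysS S) H T).rep (trivRep (k := ZMod p) H) w))
    (fun w => asmInvAt p S H w.1 (w.2 : GQ))
    (fun w => asmloc_invAt_injective S H hH hHχ w.1 (w.2 : GQ)) c ?_
  intro a
  have := hc a
  rw [asmInv_apply] at this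
  exact this

/-- LEAF AS-b1f: `P¹` is finite-dimensional. -/
theorem asmloc_b1f : FiniteDimensional (ZMod p)
    (∀ w, smH1 ((locSysMackey (locSysS S) H T).lev w)
      ((locSysMackey (locSysS S) H T).rep (trivRep (k := ZMod p) H) w)) := by
  classical
  refine lbc_b1f_of_finite (k := ZMod p) (ι := Σ v : ↥S, ↥(T v))
    (X := fun w => smH1 ((locSysMackey (locSysS S) H T).lev w)
      ((locSysMackey (locSysS S) H T).rep (trivRep (k := ZMod p) H) w)) (fun w => ?_)
  haveI : Fact ((w.1.1 : Nat.Primes) : ℕ).Prime := ⟨w.1.1.2⟩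
  exact asmloc_finite_congr (asm_lev_eq S H w.1 (w.2 : GQ)) _
    (lb_smH1_finite_of_isOpen (asmloc_zetaAt_isPrimitiveRoot (p := p) S w.1 (w.2 : GQ))
      (mackeySub ((locSysS S).r w.1) H (w.2 : GQ)) (asmloc_isOpen S H hH w.1 (w.2 : GQ))
      (asmloc_fix S H hHχ w.1 (w.2 : GQ)) _ (asmloc_isMuRep S H hHχ w.1 (w.2 : GQ)))

/-- LEAF AS-b1': the local pairing on `P¹` has trivial right kernel (for ANY pairing data `P`;
`PairingData` is a `Prop`, so this is the statement for `asm_P`). -/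
theorem asmloc_b1' (P : PairingData ((levelsS S).sub H) (trivRep (k := ZMod p) H)
      (trivRep (k := ZMod p) H) (trivRep (k := ZMod p) H) (LinearMap.mul (ZMod p) (ZMod p))) :
    ∀ c : ∀ w, smH1 ((locSysMackey (locSysS S) H T).lev w)
      ((locSysMackey (locSysS S) H T).rep (trivRep (k := ZMod p) H) w),
    (∀ b, pairI11 (locSysMackey (locSysS S) H T) P (asmInv p S H T) b c = 0) → c = 0 := by
  classical
  intro c hc
  refine lbc_b1'_of_nondeg (k := ZMod p) (ι := Σ v : ↥S, ↥(T v))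
    (X := fun w => smH1 ((locSysMackey (locSysS S) H T).lev w)
      ((locSysMackey (locSysS S) H T).rep (trivRep (k := ZMod p) H) w))
    (Y := fun w => smH1 ((locSysMackey (locSysS S) H T).lev w)
      ((locSysMackey (locSysS S) H T).rep (trivRep (k := ZMod p) H) w))
    (Z := fun w => smH2 ((locSysMackey (locSysS S) H T).lev w)
      ((locSysMackey (locSysS S) H T).rep (trivRep (k := ZMod p) H) w))
    (fun w => cupH11 (P.loc (locSysMackey (locSysS S) H T) w))
    (fun w => asmInvAt p S H w.1 (w.2 : GQ)) (fun w c' hc' => ?_) c ?_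
  · haveI : Fact ((w.1.1 : Nat.Primes) : ℕ).Prime := ⟨w.1.1.2⟩
    exact asmloc_nondeg_congr (asm_lev_eq S H w.1 (w.2 : GQ)) _ _
      (fun P' c'' h'' => lbInv_cupH11_nondeg_right_of_isOpen
        (asmloc_zetaAt_isPrimitiveRoot (p := p) S w.1 (w.2 : GQ))
        (mackeySub ((locSysS S).r w.1) H (w.2 : GQ)) (asmloc_isOpen S H hH w.1 (w.2 : GQ))
        (asmloc_fix S H hHχ w.1 (w.2 : GQ)) _ (asmloc_isMuRep S H hHχ w.1 (w.2 : GQ)) P' c'' h'')
      (P.loc (locSysMackey (locSysS S) H T) w) c' hc'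
  · intro b
    have := hc b
    rw [pairI11, LinearMap.mk₂_apply, asmInv_apply] at this
    exact this

end Leaves

end Fermat.Agent.S55
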