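import Fermat.Agent.S55.Asm.TrivDefs
import Fermat.Agent.S55.Asm.LamQ
import Fermat.Agent.S55.SB.LocalH3Glue
import Fermat.Agent.S55.SB.AsTr
import Fermat.Agent.S55.Asm.C2
import Fermat.Agent.S55.Asm.C1
import Fermat.Agent.S55.Asm.Loc
import Fermat.Agent.S55.Asm.B2
import Fermat.Agent.S55.Asm.B1
import Fermat.Agent.S55.Top.CdSpec
import Fermat.Agent.S55.Bridge.BridgeSpec

/-!
# S55, package ASM: `core_triv` ASSEMBLED (all leaves delivered; NO sorry).

Data (all in `Asm/TrivDefs.lean`, sorry-free): `ζ₀ = asmZeta p`; for `H` open `≤ ker χ` and a family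
`T` of double coset representatives (`exists_isDoubleCosetReps`): `D' = locSysMackey (locSysS S) H T`,
`inv = asmInv p S H T = Σ_{w = (v,t)} lbInv v p (emb_v (t⁻¹ ζ₀)) Γ_w`; over `ℚ`:
`asmInvQ p S = Σ_{v ∈ S} lbInv v p (emb_v ζ₀) ⊤` on `∏_v H²(ℚ_v, μ_p)`.

LEAVES (each: a field of `CritTriv` VERBATIM for these data, or an input of the trace):
* `asm_c1`  (SB, from U4 `gl_h3_mu_vanish`)            : `H³(H, 𝔽_p) = 0`
* `asm_a1`, `asm_b1f`, `asm_b1'` (LOCAL: `LocalBridgeCrit`) : purely local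
DELIVERED (imported): `asm_c2` (`Asm/C2.lean`, helper15: U3 `gl_realise_mu` + GL glue);
`asm_b2f`, `asm_b2f2`, `asm_b2` (`Asm/B2.lean`, helper10 (+ helper5, helper9): GK U5 + Kummer);
the FIRST conjunct of `core_triv` (`tr`, `hN`) = `sb_core_triv_hN` (`SB/AsTr.lean`, helper17:
reciprocity over `ℚ` via `gl_reciprocity_mu_gen` + route B `hN_of_local_h3` + row 311 helper25).
PROVED HERE: `asm_P`, `asm_critTriv`, `asm_core_triv` (= `core_triv`); also (unused now, alternative
data over `ℚ`) `asm_local_h3`, `asm_hlam`, `asmInvQAt_surjective` (`Asm/LamQ.lean`).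
-/

set_option autoImplicit false
set_option linter.style.haveILetI false

namespace Fermat.Agent.S55

open ExtCitation

section P

variable {k : Type*} [Field k] {G' : Type*} [Group G'] (𝓛' : Levels G')

/-- the multiplication pairing `k × k → k` for the trivial representation -/
theorem asm_P : PairingData 𝓛' (1 : Representation k G' k) 1 1 (LinearMap.mul k k) := by
  have hsm : IsSmoothRep 𝓛' (1 : Representation k G' k) := by
    intro v
    obtain ⟨U, hU⟩ := 𝓛'.exists_level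
    exact ⟨U, hU, fun s _ => rfl⟩
  exact ⟨hsm, hsm, hsm, fun g v w => rfl⟩

end P

section Leaves

set_option maxSynthPendingDepth 3

variable {p : ℕ} [Fact p.Prime] (hp2 : p ≠ 2) (S : Finset Nat.Primes) (hpS : pPrime p ∈ S)
  (H : Subgroup GQ) (hH : (levelsS S).IsOpen H) (hHχ : H ≤ (cycloChar p).ker)

include hp2 hpS hH hHχ

/-- AS-c1 (PROVED: `Asm/C1.lean` = helper13 `sb_c1` + U4): `H³(H, 𝔽_p) = 0`. -/
theorem asm_c1 : ∀ a : ↥H × ↥H × ↥H → ZMod p,
    a ∈ smZ3 ((levelsS S).sub H) (trivRep (k := ZMod p) H) →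
      a ∈ smB3 ((levelsS S).sub H) (trivRep (k := ZMod p) H) :=
  asmc1_c1 hp2 S hpS H hH hHχ

variable (T : ↥S → Finset GQ) (hT : IsDoubleCosetReps (locSysS S) H T)

include hT

/-- AS-a1 (PROVED: `Asm/Loc.lean`, helper27): each `inv_w` is injective. -/
theorem asm_a1 : ∀ c : ∀ w, smH2 ((locSysMackey (locSysS S) H T).lev w)
      ((locSysMackey (locSysS S) H T).rep (trivRep (k := ZMod p) H) w),
    (∀ a : (Σ v : ↥S, ↥(T v)) → ZMod p, asmInv p S H T (fun w => a w • c w) = 0) → c = 0 :=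
  asmloc_a1 hp2 S hpS H hH hHχ T hT

/-- AS-b1 (PROVED: `Asm/B1.lean`, helper28: GK `gk_exact_annihilator` + Kummer dictionaries + GL):
`b ∈ P¹` orthogonal to `loc H¹(H, k)` is global. -/
theorem asm_b1 : ∀ b : ∀ w, smH1 ((locSysMackey (locSysS S) H T).lev w)
      ((locSysMackey (locSysS S) H T).rep (trivRep (k := ZMod p) H) w),
    (∀ y : smH1 ((levelsS S).sub H) (trivRep (k := ZMod p) H),
      pairI11 (locSysMackey (locSysS S) H T) (asm_P ((levelsS S).sub H)) (asmInv p S H T) b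
        (locP1 (locSysMackey (locSysS S) H T) (ρ := trivRep (k := ZMod p) H) y) = 0) →
      ∃ x : smH1 ((levelsS S).sub H) (trivRep (k := ZMod p) H),
        locP1 (locSysMackey (locSysS S) H T) (ρ := trivRep (k := ZMod p) H) x = b :=
  asmb1_main hp2 S hpS H hH hHχ T hT (asm_P ((levelsS S).sub H))

/-- AS-b1f (PROVED: `Asm/Loc.lean`, helper27): `P¹` is finite-dimensional. -/
theorem asm_b1f : FiniteDimensional (ZMod p)
    (∀ w, smH1 ((locSysMackey (locSysS S) H T).lev w)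
      ((locSysMackey (locSysS S) H T).rep (trivRep (k := ZMod p) H) w)) :=
  asmloc_b1f hp2 S hpS H hH hHχ T hT

/-- AS-b1' (PROVED: `Asm/Loc.lean`, helper27): the local pairing on `P¹` has trivial right kernel. -/
theorem asm_b1' : ∀ c : ∀ w, smH1 ((locSysMackey (locSysS S) H T).lev w)
      ((locSysMackey (locSysS S) H T).rep (trivRep (k := ZMod p) H) w),
    (∀ b, pairI11 (locSysMackey (locSysS S) H T) (asm_P ((levelsS S).sub H))
      (asmInv p S H T) b c = 0) → c = 0 :=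
  asmloc_b1' hp2 S hpS H hH hHχ T hT (asm_P ((levelsS S).sub H))

/-- `CritTriv` for `H` (assembly of the nine leaves). -/
theorem asm_critTriv : CritTriv (locSysMackey (locSysS S) H T) (trivRep (k := ZMod p) H)
    (asmInv p S H T) where
  P := asm_P ((levelsS S).sub H)
  c1 := asm_c1 hp2 S hpS H hH hHχ
  c2 := asm_c2 hp2 S hpS H hH hHχ T hT
  a1 := asm_a1 hp2 S hpS H hH hHχ T hT
  b1 := asm_b1 hp2 S hpS H hH hHχ T hT
  b1f := asm_b1f hp2 S hpS H hH hHχ T hT
  b1' := asm_b1' hp2 S hpS H hH hHχ T hT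
  b2f := asm_b2f hp2 S hpS H hH hHχ T hT
  b2f2 := asm_b2f2 hp2 S hpS H hH hHχ T hT
  b2 := asm_b2 hp2 S hpS H hH hHχ T hT

end Leaves

section Trace

set_option maxSynthPendingDepth 3

variable {p : ℕ} [Fact p.Prime] (hp2 : p ≠ 2) (S : Finset Nat.Primes) (hpS : pPrime p ∈ S)

include hp2 hpS

omit hp2 hpS in
/-- AS-h3loc (row 311, helper25 `SB/LocalH3Glue.lean`, PROVED): `H³(G_E, 𝔽_p) = 0` for the finite
extensions `E ⊇ ℚ_q(μ_p)`. -/
theorem asm_local_h3 : ∀ v : ↥S, ∀ Γ' : Subgroup (primeLocalGaloisGroup v.1),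
    ((locSysS S).lev v).IsOpen Γ' → Γ' ≤ ((cycloChar p).comp ((locSysS S).r v)).ker →
      ∀ x : smH3 (((locSysS S).lev v).sub Γ') (trivRep (k := ZMod p) Γ'), x = 0 :=
  lb_h3_locSysS S

omit hp2 hpS in
/-- hypothesis `hlam` of `hN_of_local_h3`: the local traces are nonzero -/
theorem asm_hlam (tr : smHc3 (locSysS S) (chiRep (cycloChar p)) →ₗ[ZMod p] ZMod p)
    (htr : ∀ b, tr (bdry3 (locSysS S) (ρ := chiRep (cycloChar p)) b) = asmInvQ p S b) (v : ↥S) :
    ∃ z : ∀ v, smH2 ((locSysS S).lev v) ((locSysS S).rep (chiRep (cycloChar p)) v),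
      (∀ v', v' ≠ v → z v' = 0) ∧ trLoc (locSysS S) tr z ≠ 0 := by
  classical
  obtain ⟨z, hz⟩ := asmInvQAt_surjective (p := p) S v 1
  refine ⟨Pi.single v z, fun v' hv' => by rw [Pi.single_eq_of_ne hv'], ?_⟩
  have h1 : trLoc (locSysS S) tr (Pi.single v z) = asmInvQ p S (Pi.single v z) := htr _
  rw [h1, asmInvQ_apply, Finset.sum_eq_single v, Pi.single_eq_same, hz]
  · exact one_ne_zero
  · intro v' _ hv'
    rw [Pi.single_eq_of_ne hv', map_zero]
  · intro hv
    exact absurd (Finset.mem_univ v) hv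

/-- **`core_triv`** from the leaves of this file. -/
theorem asm_core_triv :
    ∃ tr : smHc3 (locSysS S) (chiRep (cycloChar p)) →ₗ[ZMod p] ZMod p,
      (∀ H : Subgroup GQ, (levelsS S).IsOpen H → H ≤ (cycloChar p).ker →
        ∀ P : PairingData (levelsS S) (indRep H (trivRep (k := ZMod p) H))
          (indRep H (trivRep (k := ZMod p) H)) (chiRep (cycloChar p))
          (basePairing (cycloChar p) H),
        ∀ b : ∀ v, ↥(smH0 ((locSysS S).rep (indRep H (trivRep (k := ZMod p) H)) v)),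
          (∀ c, pair02 (locSysS S) P tr b c = 0) → b = 0) ∧
      (∀ H : Subgroup GQ, (levelsS S).IsOpen H → H ≤ (cycloChar p).ker →
        ∃ T : ↥S → Finset GQ, IsDoubleCosetReps (locSysS S) H T ∧
          ∃ inv, CritTriv (locSysMackey (locSysS S) H T) (trivRep (k := ZMod p) H) inv) := by
  obtain ⟨tr, hN⟩ := sb_core_triv_hN hp2 S hpS
  refine ⟨tr, hN, ?_⟩
  intro H hH hHχ
  obtain ⟨T, hT⟩ := exists_isDoubleCosetReps (locSysS S) H hH
  exact ⟨T, hT, asmInv p S H T, asm_critTriv hp2 S hpS H hH hHχ T hT⟩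

end Trace

end Fermat.Agent.S55
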