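/-
S55, package ASM, file `Asm/Abstract.lean` (ASM-4b, abstract form): the hyperplane step and the
transport of the pairing fields `c2 c3 a1 b1 b1'` of `CoreCrit`.

No Mackey/Shapiro names occur here.  INPUT: a "`G`-side" `(D, ρB, ρZ, β, P, tr, one)`, an
"`H`-side" `(D', ρ₀ = trivial character on k, Pt, inv)`, dictionaries `Sh1 Sh2` (global) and
`MS0 MS1 MS2` (local products) compatible with the localisation maps, a functional `Lam` on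
`∏_w H²(Γ'_w, k)` and the three formulas `I20 I11 I02` expressing the local pairings of the
`G`-side through `Lam`.  OUTPUT: `Lam = c₀ • inv` with `c₀ ≠ 0` (from the realisation field `c2`
of the `H`-side and the non-vanishing of `Lam`), and then the fields `c2 c3 a1 b1 b1'` of the
`G`-side from the corresponding fields of the `H`-side.  Lemmas are prefixed `asma_`.
-/
import Fermat.Agent.S55.Top.CoreCritSpec
import Fermat.Agent.S55.Asm.Hyperplane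

set_option autoImplicit false
set_option maxSynthPendingDepth 3

namespace Fermat.Agent.S55

section Abstract

variable {k : Type*} [Field k]
  {G : Type*} [Group G] {𝓛 : Levels G} {ι : Type*} {Γ : ι → Type*} [∀ v, Group (Γ v)]
  (D : LocSys 𝓛 ι Γ)
  {B Z : Type*} [AddCommGroup B] [Module k B] [AddCommGroup Z] [Module k Z]
  {ρB : Representation k G B} {ρZ : Representation k G Z} {β : B →ₗ[k] B →ₗ[k] Z}
  (P : PairingData 𝓛 ρB ρB ρZ β) (tr : smHc3 D ρZ →ₗ[k] k) (one : ↥(smH0 ρB))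
  {G' : Type*} [Group G'] {𝓛' : Levels G'} {ι' : Type*} {Γ' : ι' → Type*} [∀ w, Group (Γ' w)]
  (D' : LocSys 𝓛' ι' Γ') {ρ₀ : Representation k G' k}
  (Pt : PairingData 𝓛' ρ₀ ρ₀ ρ₀ (LinearMap.mul k k))
  (inv : (∀ w, smH2 (D'.lev w) (D'.rep ρ₀ w)) →ₗ[k] k)
  (Sh1 : smH1 𝓛 ρB ≃ₗ[k] smH1 𝓛' ρ₀) (Sh2 : smH2 𝓛 ρB ≃ₗ[k] smH2 𝓛' ρ₀)
  (MS0 : (∀ v, ↥(smH0 (D.rep ρB v))) ≃ₗ[k] (∀ w, ↥(smH0 (D'.rep ρ₀ w))))
  (MS1 : (∀ v, smH1 (D.lev v) (D.rep ρB v)) ≃ₗ[k] (∀ w, smH1 (D'.lev w) (D'.rep ρ₀ w)))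
  (MS2 : (∀ v, smH2 (D.lev v) (D.rep ρB v)) ≃ₗ[k] (∀ w, smH2 (D'.lev w) (D'.rep ρ₀ w)))
  (Lam : (∀ w, smH2 (D'.lev w) (D'.rep ρ₀ w)) →ₗ[k] k)

/-- `Lam` kills the global classes (from `I20`, `θ³ ∘ ∂ = ⟨·, loc ·⟩` and `∂ ∘ loc = 0`) -/
theorem asma_lam_locP2
    (h2 : ∀ x, MS2 (locP2 D (ρ := ρB) x) = locP2 D' (ρ := ρ₀) (Sh2 x))
    (I20 : ∀ b, pair20 D P tr b (locP0 D (ρ := ρB) one) = Lam (MS2 b))
    (x' : smH2 𝓛' ρ₀) : Lam (locP2 D' (ρ := ρ₀) x') = 0 := by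
  obtain ⟨x, rfl⟩ := Sh2.surjective x'
  rw [← h2, ← I20, ← theta3_bdry3 D P tr _ one]
  have h := (exact_locP2_bdry3 D (ρ := ρB) (P.smV) (locP2 D (ρ := ρB) x)).2 ⟨x, rfl⟩
  rw [h, map_zero]
  rfl

/-- THE HYPERPLANE STEP: `Lam = c₀ • inv`, `c₀ ≠ 0` -/
theorem asma_exists_smul
    (hc2 : ∀ b : ∀ w, smH2 (D'.lev w) (D'.rep ρ₀ w), inv b = 0 →
      ∃ x : smH2 𝓛' ρ₀, locP2 D' (ρ := ρ₀) x = b)
    (h2 : ∀ x, MS2 (locP2 D (ρ := ρB) x) = locP2 D' (ρ := ρ₀) (Sh2 x))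
    (I20 : ∀ b, pair20 D P tr b (locP0 D (ρ := ρB) one) = Lam (MS2 b))
    (hne : ∃ b, Lam b ≠ 0) : ∃ c₀ : k, c₀ ≠ 0 ∧ Lam = c₀ • inv := by
  refine asmh_exists_smul inv Lam (fun b hb => ?_) hne
  obtain ⟨x, rfl⟩ := hc2 b hb
  exact asma_lam_locP2 D P tr one D' Sh2 MS2 Lam h2 I20 x

/-- `Lam ≠ 0` from the left non-degeneracy of `pair02` -/
theorem asma_lam_ne_zero
    (I02 : ∀ b c, pair02 D P tr b c
      = Lam (fun w => cupH02 (Pt.loc D' w) (MS0 b w) (MS2 c w)))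
    (hN : ∀ b : ∀ v, ↥(smH0 (D.rep ρB v)), (∀ c, pair02 D P tr b c = 0) → b = 0)
    (hb0 : ∃ b : ∀ v, ↥(smH0 (D.rep ρB v)), b ≠ 0) : ∃ b, Lam b ≠ 0 := by
  obtain ⟨b, hb⟩ := hb0
  by_contra hcon
  push Not at hcon
  exact hb (hN b (fun c => by rw [I02]; exact hcon _))

variable {c₀ : k} (hc₀ : c₀ ≠ 0) (hLam : Lam = c₀ • inv)

include hc₀ hLam in
theorem asma_lam_eq_zero_iff (b : ∀ w, smH2 (D'.lev w) (D'.rep ρ₀ w)) :
    Lam b = 0 ↔ inv b = 0 :=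
  asmh_eq_zero_iff_of_smul hc₀ hLam b

include hc₀ hLam in
/-- field `c2` -/
theorem asma_c2
    (hc2 : ∀ b : ∀ w, smH2 (D'.lev w) (D'.rep ρ₀ w), inv b = 0 →
      ∃ x : smH2 𝓛' ρ₀, locP2 D' (ρ := ρ₀) x = b)
    (h2 : ∀ x, MS2 (locP2 D (ρ := ρB) x) = locP2 D' (ρ := ρ₀) (Sh2 x))
    (I20 : ∀ b, pair20 D P tr b (locP0 D (ρ := ρB) one) = Lam (MS2 b))
    (b : ∀ v, smH2 (D.lev v) (D.rep ρB v))
    (hb : pair20 D P tr b (locP0 D (ρ := ρB) one) = 0) :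
    ∃ x, locP2 D (ρ := ρB) x = b := by
  rw [I20, asma_lam_eq_zero_iff D' inv Lam hc₀ hLam] at hb
  obtain ⟨x', hx'⟩ := hc2 _ hb
  refine ⟨Sh2.symm x', MS2.injective ?_⟩
  rw [h2, LinearEquiv.apply_symm_apply, hx']

/-- field `c3` -/
theorem asma_c3
    (I20 : ∀ b, pair20 D P tr b (locP0 D (ρ := ρB) one) = Lam (MS2 b))
    (hne : ∃ b, Lam b ≠ 0) :
    ∃ b : ∀ v, smH2 (D.lev v) (D.rep ρB v),
      pair20 D P tr b (locP0 D (ρ := ρB) one) ≠ 0 := by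
  obtain ⟨b', hb'⟩ := hne
  refine ⟨MS2.symm b', ?_⟩
  rw [I20, LinearEquiv.apply_symm_apply]
  exact hb'

/-- for the multiplication pairing on trivial coefficients, `a ∪ c = a • c` -/
theorem asma_cupH02_mul {Δ : Type*} [Group Δ] {𝓜 : Levels Δ} {τ : Representation k Δ k}
    (Q : PairingData 𝓜 τ τ τ (LinearMap.mul k k)) (a : ↥(smH0 τ)) (c : smH2 𝓜 τ) :
    cupH02 Q a c = (a : k) • c := by
  induction c using Submodule.Quotient.induction_on with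
  | _ c =>
  show smH2π 𝓜 τ _ = (a : k) • smH2π 𝓜 τ c
  rw [← map_smul]
  congr 1

include hc₀ hLam in
/-- field `a1` -/
theorem asma_a1 (hρ₀ : ∀ g x, ρ₀ g x = x)
    (ha1 : ∀ c : ∀ w, smH2 (D'.lev w) (D'.rep ρ₀ w),
      (∀ a : ι' → k, inv (fun w => a w • c w) = 0) → c = 0)
    (I02 : ∀ b c, pair02 D P tr b c
      = Lam (fun w => cupH02 (Pt.loc D' w) (MS0 b w) (MS2 c w)))
    (c : ∀ v, smH2 (D.lev v) (D.rep ρB v)) (hc : ∀ b, pair02 D P tr b c = 0) : c = 0 := by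
  have h0 : MS2 c = 0 := by
    apply ha1
    intro a
    have hmem : ∀ w, a w ∈ smH0 (D'.rep ρ₀ w) := by
      intro w
      show dd0 (D'.rep ρ₀ w) (a w) = 0
      funext g
      rw [dd0_apply]
      show ρ₀ (D'.r w g) (a w) - a w = 0
      rw [hρ₀, sub_self]
    have h1 := hc (MS0.symm (fun w => ⟨a w, hmem w⟩))
    rw [I02, LinearEquiv.apply_symm_apply, asma_lam_eq_zero_iff D' inv Lam hc₀ hLam] at h1
    rw [← h1]
    congr 1
    funext w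
    exact (asma_cupH02_mul (Pt.loc D' w) ⟨a w, hmem w⟩ (MS2 c w)).symm
  exact MS2.injective (by rw [h0, map_zero])

include hc₀ hLam in
/-- field `b1` -/
theorem asma_b1
    (hb1 : ∀ b : ∀ w, smH1 (D'.lev w) (D'.rep ρ₀ w),
      (∀ y : smH1 𝓛' ρ₀, inv (fun w => cupH11 (Pt.loc D' w) (b w)
        (locP1 D' (ρ := ρ₀) y w)) = 0) → ∃ x : smH1 𝓛' ρ₀, locP1 D' (ρ := ρ₀) x = b)
    (h1 : ∀ x, MS1 (locP1 D (ρ := ρB) x) = locP1 D' (ρ := ρ₀) (Sh1 x))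
    (I11 : ∀ b c, pair11 D P tr b c
      = Lam (fun w => cupH11 (Pt.loc D' w) (MS1 b w) (MS1 c w)))
    (b : ∀ v, smH1 (D.lev v) (D.rep ρB v))
    (hb : ∀ y, pair11 D P tr b (locP1 D (ρ := ρB) y) = 0) :
    ∃ x, locP1 D (ρ := ρB) x = b := by
  obtain ⟨x', hx'⟩ := hb1 (MS1 b) (fun y' => by
    have h := hb (Sh1.symm y')
    rw [I11, asma_lam_eq_zero_iff D' inv Lam hc₀ hLam, h1, LinearEquiv.apply_symm_apply] at h
    exact h)
  refine ⟨Sh1.symm x', MS1.injective ?_⟩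
  rw [h1, LinearEquiv.apply_symm_apply, hx']

include hc₀ hLam in
/-- field `b1'` -/
theorem asma_b1'
    (hb1' : ∀ c : ∀ w, smH1 (D'.lev w) (D'.rep ρ₀ w),
      (∀ b : ∀ w, smH1 (D'.lev w) (D'.rep ρ₀ w),
        inv (fun w => cupH11 (Pt.loc D' w) (b w) (c w)) = 0) → c = 0)
    (I11 : ∀ b c, pair11 D P tr b c
      = Lam (fun w => cupH11 (Pt.loc D' w) (MS1 b w) (MS1 c w)))
    (c : ∀ v, smH1 (D.lev v) (D.rep ρB v)) (hc : ∀ b, pair11 D P tr b c = 0) : c = 0 := by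
  have h0 : MS1 c = 0 := by
    apply hb1'
    intro b'
    have h := hc (MS1.symm b')
    rw [I11, asma_lam_eq_zero_iff D' inv Lam hc₀ hLam, LinearEquiv.apply_symm_apply] at h
    exact h
  exact MS1.injective (by rw [h0, map_zero])

end Abstract

end Fermat.Agent.S55
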