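/-
S55, package ASM, file `Asm/Cup.lean`: cup products versus the multiplication of `Ind_H^G k`
and versus the Mackey-Shapiro maps (ASM-2).

A. generic: if a pairing `β : B × B → Z` factors as `ε ∘ m` through a multiplication
   `m : B × B → B` (`ε` equivariant) then `cupH11_β = ε_* ∘ cupH11_m`, `cupH02_β = ε_* ∘ cupH02_m`
   and `cupH20_β (b, 1) = ε_* b`.
B. `indMul H` = pointwise multiplication on `Ind_H^G k`; the Mackey-Shapiro maps are
   multiplicative: `MS_t (b ∪_m c) = MS_t b ∪ MS_t c` in degrees `(1,1)` and `(0,2)`.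
Helper lemmas are prefixed `asm_`.
-/
import Fermat.Agent.S55.Top.CoreCritSpec
import Fermat.Agent.S55.SM.MackeyLoc

set_option autoImplicit false

namespace Fermat.Agent.S55

/-! ### A. pairings factoring through a multiplication -/

section Factor

variable {k : Type*} [Field k] {Γ : Type*} [Group Γ] {𝓛Γ : Levels Γ}
  {B Z : Type*} [AddCommGroup B] [Module k B] [AddCommGroup Z] [Module k Z]
  {ρB : Representation k Γ B} {ρZ : Representation k Γ Z}
  {m : B →ₗ[k] B →ₗ[k] B} {β : B →ₗ[k] B →ₗ[k] Z}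
  (Pm : PairingData 𝓛Γ ρB ρB ρB m) (Pβ : PairingData 𝓛Γ ρB ρB ρZ β)
  (ε : B →ₗ[k] Z) (hε : IsEquivariant ρB ρZ ε) (hβ : ∀ x y, β x y = ε (m x y))

include hβ in
theorem asm_cupH11_factor (b c : smH1 𝓛Γ ρB) :
    cupH11 Pβ b c = smH2map 𝓛Γ ε hε (cupH11 Pm b c) := by
  induction b using Submodule.Quotient.induction_on with
  | _ b =>
  induction c using Submodule.Quotient.induction_on with
  | _ c =>
  show smH2π 𝓛Γ ρZ _ = smH2π 𝓛Γ ρZ _
  congr 1
  apply Subtype.ext
  funext p
  exact hβ _ _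

include hβ in
theorem asm_cupH02_factor (b : ↥(smH0 ρB)) (c : smH2 𝓛Γ ρB) :
    cupH02 Pβ b c = smH2map 𝓛Γ ε hε (cupH02 Pm b c) := by
  induction c using Submodule.Quotient.induction_on with
  | _ c =>
  show smH2π 𝓛Γ ρZ _ = smH2π 𝓛Γ ρZ _
  congr 1
  apply Subtype.ext
  funext p
  exact hβ _ _

include hβ in
theorem asm_cupH20_one (one : ↥(smH0 ρB)) (hone : ∀ x, m x (one : B) = x) (b : smH2 𝓛Γ ρB) :
    cupH20 Pβ b one = smH2map 𝓛Γ ε hε b := by
  induction b using Submodule.Quotient.induction_on with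
  | _ b =>
  show smH2π 𝓛Γ ρZ _ = smH2π 𝓛Γ ρZ _
  congr 1
  apply Subtype.ext
  funext p
  obtain ⟨g, h⟩ := p
  have h1 : ρB (g * h) (one : B) = (one : B) := by
    have h2 : dd0 ρB (one : B) = 0 := one.2
    have h3 := congrFun h2 (g * h)
    rw [dd0_apply, Pi.zero_apply, sub_eq_zero] at h3
    exact h3
  show β ((b : Γ × Γ → B) (g, h)) (ρB (g * h) (one : B)) = ε ((b : Γ × Γ → B) (g, h))
  rw [h1, hβ, hone]

end Factor

/-! ### B. the multiplication of `Ind_H^G k` -/

section IndMul

universe u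

variable {k : Type u} [Field k] {G : Type u} [Group G] (H : Subgroup G)

/-- pointwise multiplication on `Ind_H^G k` -/
def indMul : ↥(indSpace H (trivRep (k := k) H)) →ₗ[k] ↥(indSpace H (trivRep (k := k) H)) →ₗ[k]
    ↥(indSpace H (trivRep (k := k) H)) :=
  LinearMap.mk₂ k (fun F F' => ⟨fun g => F.1 g * F'.1 g, fun h g => by
      show F.1 (h * g) * F'.1 (h * g) = F.1 g * F'.1 g
      rw [F.2 h g, F'.2 h g]
      rfl⟩)
    (fun F₁ F₂ F' => by
      apply Subtype.ext; funext g
      show (F₁.1 g + F₂.1 g) * F'.1 g = F₁.1 g * F'.1 g + F₂.1 g * F'.1 g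
      ring)
    (fun c F F' => by
      apply Subtype.ext; funext g
      show (c • F.1 g) * F'.1 g = c • (F.1 g * F'.1 g)
      rw [smul_eq_mul, smul_eq_mul, mul_assoc])
    (fun F F₁ F₂ => by
      apply Subtype.ext; funext g
      show F.1 g * (F₁.1 g + F₂.1 g) = F.1 g * F₁.1 g + F.1 g * F₂.1 g
      ring)
    (fun c F F' => by
      apply Subtype.ext; funext g
      show F.1 g * (c • F'.1 g) = c • (F.1 g * F'.1 g)
      rw [smul_eq_mul, smul_eq_mul, mul_left_comm])

@[simp] theorem indMul_apply (F F' : ↥(indSpace H (trivRep (k := k) H))) (g : G) :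
    (indMul H F F').1 g = F.1 g * F'.1 g := rfl

theorem indMul_equivariant :
    IsEquivariant₂ (indRep H (trivRep (k := k) H)) (indRep H (trivRep (k := k) H))
      (indRep H (trivRep (k := k) H)) (indMul H) :=
  fun _ _ _ => rfl

/-- the pairing data of the multiplication -/
theorem indMul_pairingData {𝓛 : Levels G}
    (hsm : IsSmoothRep 𝓛 (indRep H (trivRep (k := k) H))) :
    PairingData 𝓛 (indRep H (trivRep (k := k) H)) (indRep H (trivRep (k := k) H))
      (indRep H (trivRep (k := k) H)) (indMul H) :=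
  ⟨hsm, hsm, hsm, indMul_equivariant H⟩

end IndMul

/-! ### the Mackey-Shapiro maps are multiplicative -/

section MackeyMul

universe u

variable {k : Type u} [Field k] {G : Type u} {Γ : Type*} [Group G] [Group Γ] {𝓛Γ : Levels Γ}
  (r : Γ →* G) (H : Subgroup G) (t : G)

/-- elements of `Ind_H^G k` are constant along `t * r(Γ_t)` -/
theorem asm_apply_mul_rep (f : ↥(indSpace H (trivRep (k := k) H)))
    (δ : ↥(mackeySub r H t)) (x : G) (hx : x = t) : f.1 (x * r δ) = f.1 x := by
  subst hx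
  have h := mky_apply_mul_rep r H (trivRep (k := k) H) x f δ
  rw [h]
  rfl

variable (Pm : PairingData 𝓛Γ ((indRep H (trivRep (k := k) H)).comp r)
    ((indRep H (trivRep (k := k) H)).comp r) ((indRep H (trivRep (k := k) H)).comp r) (indMul H))
  (Pt : PairingData (𝓛Γ.sub (mackeySub r H t)) (mackeyRep r H (trivRep (k := k) H) t)
    (mackeyRep r H (trivRep (k := k) H) t) (mackeyRep r H (trivRep (k := k) H) t)
    (LinearMap.mul k k))

theorem asm_mackeyShapiroHom2_cupH11
    (b c : smH1 𝓛Γ ((indRep H (trivRep (k := k) H)).comp r)) :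
    mackeyShapiroHom2 𝓛Γ (trivRep (k := k) H) t (cupH11 Pm b c)
      = cupH11 Pt (mackeyShapiroHom1 𝓛Γ (trivRep (k := k) H) t b)
          (mackeyShapiroHom1 𝓛Γ (trivRep (k := k) H) t c) := by
  induction b using Submodule.Quotient.induction_on with
  | _ b =>
  induction c using Submodule.Quotient.induction_on with
  | _ c =>
  show smH2π (𝓛Γ.sub (mackeySub r H t)) (mackeyRep r H (trivRep (k := k) H) t) _
    = smH2π (𝓛Γ.sub (mackeySub r H t)) (mackeyRep r H (trivRep (k := k) H) t) _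
  congr 1
  apply Subtype.ext
  funext p
  obtain ⟨δ, δ'⟩ := p
  show ((b : Γ → ↥(indSpace H (trivRep (k := k) H))) δ).1 (t * r 1) *
      ((c : Γ → ↥(indSpace H (trivRep (k := k) H))) δ').1 (t * r 1 * r δ)
    = ((b : Γ → ↥(indSpace H (trivRep (k := k) H))) δ).1 (t * r 1) *
      ((c : Γ → ↥(indSpace H (trivRep (k := k) H))) δ').1 (t * r 1)
  rw [asm_apply_mul_rep r H t _ δ (t * r 1) (by rw [map_one, mul_one])]

theorem asm_mackeyShapiroHom2_cupH02
    (b : ↥(smH0 ((indRep H (trivRep (k := k) H)).comp r)))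
    (c : smH2 𝓛Γ ((indRep H (trivRep (k := k) H)).comp r)) :
    mackeyShapiroHom2 𝓛Γ (trivRep (k := k) H) t (cupH02 Pm b c)
      = cupH02 Pt (mackeyShapiroHom0 (trivRep (k := k) H) t b)
          (mackeyShapiroHom2 𝓛Γ (trivRep (k := k) H) t c) := by
  induction c using Submodule.Quotient.induction_on with
  | _ c =>
  show smH2π (𝓛Γ.sub (mackeySub r H t)) (mackeyRep r H (trivRep (k := k) H) t) _
    = smH2π (𝓛Γ.sub (mackeySub r H t)) (mackeyRep r H (trivRep (k := k) H) t) _
  congr 1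

end MackeyMul

end Fermat.Agent.S55
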