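import Fermat.Agent.S55.Top.CoreCritSpec
import Fermat.Agent.S55.SM.MackeyLoc

/-!
# S55, package ASM: definitions (`IsDoubleCosetReps`, `locSysMackey`, `pairI11`, `CritTriv`).

Sections `Defs` and `Triv` of the ASM interface, verbatim; see `Asm/Spec.lean` for the
documentation.  Plus the bridge `IsDoubleCosetReps.isDCReps` to `IsDCReps` of `SM/Mackey.lean`.
-/

set_option autoImplicit false

namespace Fermat.Agent.S55

section Defs

variable {k : Type*} [Field k] {G : Type*} [Group G] {𝓛 : Levels G}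
  {ι : Type*} {Γ : ι → Type*} [∀ v, Group (Γ v)] (D : LocSys 𝓛 ι Γ) (H : Subgroup G)

/-- `T v` is a set of representatives of the double cosets `H \ G / r_v (Γ v)` -/
def IsDoubleCosetReps (T : ι → Finset G) : Prop :=
  ∀ v g, ∃! t, t ∈ T v ∧ ∃ h ∈ H, ∃ γ : Γ v, g = h * t * D.r v γ

/-- the local system of `H`: one local group `mackeySub (D.r v) H t` for each `v` and `t ∈ T v`
(`mackeySub`, `mackeyHom` of `SM/Mackey.lean`; this is `D.mackey H (fun v t => t.1)`) -/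
def locSysMackey (T : ι → Finset G) :
    LocSys (𝓛.sub H) (Σ v, ↥(T v)) (fun w => ↥(mackeySub (D.r w.1) H (w.2 : G))) where
  lev w := (D.lev w.1).sub (mackeySub (D.r w.1) H (w.2 : G))
  r w := mackeyHom (D.r w.1) H (w.2 : G)
  cont w := mackeyHom_continuous (D.cont w.1) (w.2 : G)

/-- `locSysMackey` is `LocSys.mackey` of `SM/MackeyLoc.lean` for the inclusions `T v → G` -/
theorem locSysMackey_eq_mackey (T : ι → Finset G) :
    locSysMackey D H T = D.mackey H (fun v (t : ↥(T v)) => (t : G)) := rfl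

variable {D H} in
/-- bridge to `IsDCReps` of `SM/Mackey.lean` -/
theorem IsDoubleCosetReps.isDCReps {T : ι → Finset G} (hT : IsDoubleCosetReps D H T) (v : ι) :
    IsDCReps (D.r v) H (fun t : ↥(T v) => (t : G)) := by
  intro g
  obtain ⟨t, ⟨ht, h, hh, γ, hg⟩, huniq⟩ := hT v g
  refine ⟨⟨t, ht⟩, ⟨⟨h, hh⟩, γ, hg⟩, ?_⟩
  rintro ⟨t', ht'⟩ ⟨h', γ', hg'⟩
  exact Subtype.ext (huniq t' ⟨ht', h', h'.2, γ', hg'⟩)

variable {V W Z : Type*} [AddCommGroup V] [Module k V] [AddCommGroup W] [Module k W]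
  [AddCommGroup Z] [Module k Z]
  {ρV : Representation k G V} {ρW : Representation k G W} {ρZ : Representation k G Z}
  {β : V →ₗ[k] W →ₗ[k] Z} (P : PairingData 𝓛 ρV ρW ρZ β)
  (inv : (∀ v, smH2 (D.lev v) (D.rep ρZ v)) →ₗ[k] k)

/-- the local pairing `P¹(V) × P¹(W) → k` attached to a functional `inv` on `P²(Z)` -/
noncomputable def pairI11 : (∀ v, smH1 (D.lev v) (D.rep ρV v)) →ₗ[k]
    (∀ v, smH1 (D.lev v) (D.rep ρW v)) →ₗ[k] k :=
  LinearMap.mk₂ k (fun b c => inv (fun v => cupH11 (P.loc D v) (b v) (c v)))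
    (fun _ _ _ => by rw [← map_add]; congr 1; ext v; simp)
    (fun _ _ _ => by rw [← map_smul]; congr 1; ext v; simp)
    (fun _ _ _ => by rw [← map_add]; congr 1; ext v; simp)
    (fun _ _ _ => by rw [← map_smul]; congr 1; ext v; simp)

theorem pair11_eq_pairI11 (tr : smHc3 D ρZ →ₗ[k] k) :
    pair11 D P tr = pairI11 D P (trLoc D tr) := rfl

end Defs

section Triv

variable {k : Type*} [Field k] {G' : Type*} [Group G'] {𝓛' : Levels G'}
  {ι' : Type*} {Γ' : ι' → Type*} [∀ w, Group (Γ' w)]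

set_option maxSynthPendingDepth 3 in
/-- THE `H`-INTRINSIC LIST (to be proved by SB for `G' = H`, `D' = locSysMackey D H T`,
`ρ₀ = trivRep H`, `inv = Σ_w inv_w ∘ proj_w` with `inv_w` the local invariants of the completions
of `K' = fix H`).  `ρ₀ : G' → GL(k)` is the trivial representation in the application. -/
structure CritTriv (D' : LocSys 𝓛' ι' Γ') (ρ₀ : Representation k G' k)
    (inv : (∀ w, smH2 (D'.lev w) (D'.rep ρ₀ w)) →ₗ[k] k) : Prop where
  /-- smoothness + equivariance of the multiplication pairing (trivial) -/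
  P : PairingData 𝓛' ρ₀ ρ₀ ρ₀ (LinearMap.mul k k)
  /-- `H³(G', k) = 0` -/
  c1 : ∀ a : G' × G' × G' → k, a ∈ smZ3 𝓛' ρ₀ → a ∈ smB3 𝓛' ρ₀
  /-- realisation: a family of local classes with `Σ_w inv_w = 0` is global -/
  c2 : ∀ b : ∀ w, smH2 (D'.lev w) (D'.rep ρ₀ w), inv b = 0 →
      ∃ x : smH2 𝓛' ρ₀, locP2 D' (ρ := ρ₀) x = b
  /-- each `inv_w` is injective -/
  a1 : ∀ c : ∀ w, smH2 (D'.lev w) (D'.rep ρ₀ w),
      (∀ a : ι' → k, inv (fun w => a w • c w) = 0) → c = 0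
  /-- `b ∈ P¹` orthogonal to `loc H¹(G', k)` is global -/
  b1 : ∀ b : ∀ w, smH1 (D'.lev w) (D'.rep ρ₀ w),
      (∀ y : smH1 𝓛' ρ₀, pairI11 D' P inv b (locP1 D' (ρ := ρ₀) y) = 0) →
        ∃ x : smH1 𝓛' ρ₀, locP1 D' (ρ := ρ₀) x = b
  b1f : FiniteDimensional k (∀ w, smH1 (D'.lev w) (D'.rep ρ₀ w))
  /-- the local pairing on `P¹` has trivial right kernel -/
  b1' : ∀ c : ∀ w, smH1 (D'.lev w) (D'.rep ρ₀ w),
      (∀ b, pairI11 D' P inv b c = 0) → c = 0
  b2f : FiniteDimensional k ↥(sha1 D' ρ₀)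
  b2f2 : FiniteDimensional k ↥(sha2 D' ρ₀)
  b2 : Module.finrank k ↥(sha2 D' ρ₀) ≤ Module.finrank k ↥(sha1 D' ρ₀)

end Triv

end Fermat.Agent.S55
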