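import Fermat.Agent.S55.Asm.TrivDefs
import Fermat.Agent.S55.LG.QbarMackey

/-!
# S55 / ASM: `asmInvAt` (Asm/TrivDefs, helper29) is `lgqmInv` (LG/QbarMackey, helper2)

The statements of record of the fields of `CritTriv` (`Asm/TrivSpec.lean`) use `asmInvAt`/`asmInv`;
the local-global glue (`LG/QbarMackey.lean`) is stated with `lgqmInv`.  They agree by `rfl`.
-/

set_option autoImplicit false
set_option linter.style.haveILetI false

namespace Fermat.Agent.S55

open ExtCitation

theorem smH2congr_eq_lgqmH2Congr {k : Type*} [CommRing k] {G : Type*} [Group G] {V : Type*}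
    [AddCommGroup V] [Module k V] {𝓛 𝓛' : Levels G} (h h' : 𝓛 = 𝓛') (ρ : Representation k G V) :
    smH2congr h ρ = lgqmH2Congr h' ρ := rfl

variable (p : ℕ) [Fact p.Prime] (S : Finset Nat.Primes) (H : Subgroup GQ)

theorem asmInvAt_eq_lgqmInv (v : ↥S) (t : GQ) :
    haveI : Fact ((v.1 : Nat.Primes) : ℕ).Prime := ⟨v.1.2⟩
    asmInvAt p S H v t =
      lgqmInv ((v.1 : Nat.Primes) : ℕ) p
        (padicEmbedding ((v.1 : Nat.Primes) : ℕ) ((t⁻¹ : GQ) (asmZeta p)))
        (lg_locSysS_lev S v) (mackeySub ((locSysS S).r v) H t)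
        ((trivRep (k := ZMod p) H).comp (mackeyHom ((locSysS S).r v) H t)) := rfl

end Fermat.Agent.S55
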