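/-
S55 / ASM, GLUE (AS-GL) in the language of helper29's data `Asm/TrivDefs.lean`
(`asmZeta`, `asmZetaAt`, `asmInvAt`, `asmInv`): the consumers' forms of helper2's
`LG/QbarMackey.lean` for `H = K'.fixingSubgroup`, `K' ⊆ ℚ̄` a number field.

* (`asmInvAt_eq_lgqmInv` is helper14's `Asm/GlBridge.lean`);
* `asmInvAt_injective`, `asmInvAt_surjective` (for `ζ₀ ∈ K'`);
* (GL-inv) `asm_geInv_eq` : `geInv q (lgqmEmb q M t) (ζ₀^c') = (asmInvAt (res_w [c' ∘ sbRes])).val / p`;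
* (GL-places) `asmglPlace`, `asmglPlace_injective`, `asmglPlace_surjective`, `asmglPlace_mem`:
  `(v, t) ↦ lgPlace v (lgqmEmb v K' t)` is a bijection from `Σ v, T v` onto the places of `K'` above
  `S`.
Helper lemmas are prefixed `asmgl`.
-/
import Mathlib
import Fermat.Agent.S55.Asm.TrivDefs
import Fermat.Agent.S55.Asm.GlBridge
import Fermat.Agent.S55.LG.QbarMackey
import Fermat.Agent.S55.SB.Root
import Fermat.Agent.S55.Global.Defs

set_option autoImplicit false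
set_option linter.unusedSectionVars false
set_option linter.style.haveILetI false

noncomputable section

namespace Fermat.Agent.S55

open NumberField ExtCitation

section Inv

variable (p : ℕ) [Fact p.Prime] (S : Finset Nat.Primes)

variable {K' M : IntermediateField ℚ (AlgebraicClosure ℚ)} [NumberField K'] [NumberField M]

/-- The local group at `w = (v, t)` is open for `lbLevels`. -/
theorem asmgl_isOpen_mackeySub (v : ↥S) (t : GQ) :
    haveI : Fact ((v.1 : Nat.Primes) : ℕ).Prime := ⟨v.1.2⟩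
    (lbLevels ((v.1 : Nat.Primes) : ℕ)).IsOpen
      (mackeySub ((locSysS S).r v) K'.fixingSubgroup t : Subgroup (primeLocalGaloisGroup v.1)) := by
  haveI : Fact ((v.1 : Nat.Primes) : ℕ).Prime := ⟨v.1.2⟩
  refine ⟨_, ⟨lgField ((v.1 : Nat.Primes) : ℕ) (lgqmEmb ((v.1 : Nat.Primes) : ℕ) K' t),
    inferInstance, rfl⟩, ?_⟩
  rw [lgqm_mackeySub_eq S v K' t]

/-- `ζ_w` is a primitive `p`-th root of unity. -/
theorem asmZetaAt_isPrimitiveRoot (v : ↥S) (t : GQ) :
    haveI : Fact ((v.1 : Nat.Primes) : ℕ).Prime := ⟨v.1.2⟩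
    IsPrimitiveRoot (asmZetaAt p S v t) p := by
  haveI : Fact ((v.1 : Nat.Primes) : ℕ).Prime := ⟨v.1.2⟩
  have h1 : IsPrimitiveRoot ((t⁻¹ : GQ) (asmZeta p)) p :=
    (asmZeta_spec p).map_of_injective (t⁻¹ : GQ).injective
  exact h1.map_of_injective (lgq_padicEmbedding_injective ((v.1 : Nat.Primes) : ℕ))

/-- Each `inv_w` is injective (for `ζ₀ ∈ K'`). -/
theorem asmInvAt_injective (hζK : asmZeta p ∈ K') (v : ↥S) (t : GQ) :
    Function.Injective (asmInvAt p S K'.fixingSubgroup v t) := by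
  haveI : Fact ((v.1 : Nat.Primes) : ℕ).Prime := ⟨v.1.2⟩
  rw [asmInvAt_eq_lgqmInv]
  exact lgqmInv_injective (asmZetaAt_isPrimitiveRoot p S v t) (lg_locSysS_lev S v) _
    ((lg_locSysS_lev S v) ▸ asmgl_isOpen_mackeySub S v t) _
    (lgqm_isMuRep_triv S v p t (asmZeta p) hζK)

/-- Each `inv_w` is surjective (for `ζ₀ ∈ K'`). -/
theorem asmInvAt_surjective (hζK : asmZeta p ∈ K') (v : ↥S) (t : GQ) :
    Function.Surjective (asmInvAt p S K'.fixingSubgroup v t) := by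
  haveI : Fact ((v.1 : Nat.Primes) : ℕ).Prime := ⟨v.1.2⟩
  rw [asmInvAt_eq_lgqmInv]
  exact lgqmInv_surjective (asmZetaAt_isPrimitiveRoot p S v t) (lg_locSysS_lev S v) _
    ((lg_locSysS_lev S v) ▸ asmgl_isOpen_mackeySub S v t) _
    (lgqm_isMuRep_triv S v p t (asmZeta p) hζK)

/-- (GL-inv) The invariant `inv_w` at `w = (v, t)` of the local restriction of the smooth global
class of `c' ∘ sbRes` is `p · geInv` of the multiplicative cocycle `ζ₀^c'` at the `t`-twisted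
embedding of the layer `M`. -/
theorem asm_geInv_eq (v : ↥S) (h : K' ≤ M) (hg : letI := sbAlgebra h; IsGalois ↥K' ↥M) (t : GQ)
    (hζK : asmZeta p ∈ K') (ζM : (↥M)ˣ) (hζM : ((ζM : ↥M) : AlgebraicClosure ℚ) = asmZeta p)
    (c' : (letI := sbAlgebra h; (↥M ≃ₐ[↥K'] ↥M) × (↥M ≃ₐ[↥K'] ↥M)) → ZMod p)
    (hcg : (fun s : ↥K'.fixingSubgroup × ↥K'.fixingSubgroup =>
        c' (sbRes h hg.to_normal s.1, sbRes h hg.to_normal s.2)) ∈
      smZ2 ((levelsS S).sub K'.fixingSubgroup) (trivRep (k := ZMod p) K'.fixingSubgroup))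
    (hcont : (((locSysS S).lev v).sub (mackeySub ((locSysS S).r v) K'.fixingSubgroup t)).Continuous
      ((levelsS S).sub K'.fixingSubgroup) (mackeyHom ((locSysS S).r v) K'.fixingSubgroup t)) :
    haveI : Fact ((v.1 : Nat.Primes) : ℕ).Prime := ⟨v.1.2⟩
    letI := sbAlgebra h
    geInv ((v.1 : Nat.Primes) : ℕ) (lgqmEmb ((v.1 : Nat.Primes) : ℕ) M t) (sbMul₂ ζM c') =
      (((((asmInvAt p S K'.fixingSubgroup v t
        (smH2res (trivRep (k := ZMod p) K'.fixingSubgroup) hcont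
          (smH2π ((levelsS S).sub K'.fixingSubgroup) (trivRep (k := ZMod p) K'.fixingSubgroup)
            ⟨_, hcg⟩))).val : ℕ) : ℚ) / (p : ℚ) : ℚ)) := by
  haveI : Fact ((v.1 : Nat.Primes) : ℕ).Prime := ⟨v.1.2⟩
  have hζM' : IsPrimitiveRoot ((ζM : ↥M) : AlgebraicClosure ℚ) p := hζM ▸ asmZeta_spec p
  have hζK' : ((ζM : ↥M) : AlgebraicClosure ℚ) ∈ K' := hζM ▸ hζK
  have key := lgqm_geInv_eq_res S v p h hg t ζM hζM' hζK' c' hcg hcont
  have e : padicEmbedding ((v.1 : Nat.Primes) : ℕ)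
      ((t⁻¹ : GQ) ((ζM : ↥M) : AlgebraicClosure ℚ)) = asmZetaAt p S v t := by
    unfold asmZetaAt
    rw [hζM]
  rw [e] at key
  exact key

end Inv

/-! ## (GL-places) the index set of `locSysMackey (locSysS S) H T` = the places of `K'` above `S` -/

section Places

open IsDedekindDomain

variable (S : Finset Nat.Primes) (K' : IntermediateField ℚ (AlgebraicClosure ℚ)) [NumberField K']
  (T : ↥S → Finset GQ)

/-- The place of `K'` attached to the index `w = (v, t)`: the one induced by the `t`-twisted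
`v`-adic embedding `x ↦ padicEmbedding v (t⁻¹ x)`. -/
def asmglPlace (w : Σ v : ↥S, ↥(T v)) : HeightOneSpectrum (𝓞 K') :=
  haveI : Fact ((w.1.1 : Nat.Primes) : ℕ).Prime := ⟨w.1.1.2⟩
  lgPlace ((w.1.1 : Nat.Primes) : ℕ) (lgqmEmb ((w.1.1 : Nat.Primes) : ℕ) K' (w.2 : GQ))

theorem asmglPlace_apply (v : ↥S) (t : ↥(T v)) :
    haveI : Fact ((v.1 : Nat.Primes) : ℕ).Prime := ⟨v.1.2⟩
    asmglPlace S K' T ⟨v, t⟩ =
      lgPlace ((v.1 : Nat.Primes) : ℕ) (lgqmEmb ((v.1 : Nat.Primes) : ℕ) K' (t : GQ)) := rfl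

theorem asmglPlace_natCast_mem (w : Σ v : ↥S, ↥(T v)) :
    ((((w.1.1 : Nat.Primes) : ℕ) : ℕ) : 𝓞 K') ∈ (asmglPlace S K' T w).asIdeal := by
  haveI : Fact ((w.1.1 : Nat.Primes) : ℕ).Prime := ⟨w.1.1.2⟩
  exact natCast_mem_lgIdeal ((w.1.1 : Nat.Primes) : ℕ) _

theorem asmglPlace_glAbove (w : Σ v : ↥S, ↥(T v)) : GlAbove S ↥K' (asmglPlace S K' T w) :=
  ⟨w.1.1, w.1.2, asmglPlace_natCast_mem S K' T w⟩

/-- Two distinct rational primes do not lie in the same prime ideal. -/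
theorem asmgl_prime_unique {R : Type*} [CommRing R] (P : Ideal R) (hP : P.IsPrime) {q q' : ℕ}
    (hq : q.Prime) (hq' : q'.Prime) (h : (q : R) ∈ P) (h' : (q' : R) ∈ P) : q = q' := by
  by_contra hne
  have hco : Nat.Coprime q q' := (Nat.coprime_primes hq hq').2 hne
  obtain ⟨a, b, hab⟩ := (Nat.isCoprime_iff_coprime.2 hco)
  have h1 : ((a : R) * (q : R) + (b : R) * (q' : R)) = 1 := by
    have := congrArg (Int.cast : ℤ → R) hab
    push_cast at this
    exact this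
  apply hP.ne_top
  rw [Ideal.eq_top_iff_one, ← h1]
  exact P.add_mem (P.mul_mem_left _ h) (P.mul_mem_left _ h')

variable {S K' T}

theorem asmglPlace_injective (hT : IsDoubleCosetReps (locSysS S) K'.fixingSubgroup T) :
    Function.Injective (asmglPlace S K' T) := by
  rintro ⟨v, t⟩ ⟨v', t'⟩ h
  have hv : v = v' := by
    apply Subtype.ext
    apply Subtype.ext
    have h1 := asmglPlace_natCast_mem S K' T ⟨v, t⟩
    have h2 := asmglPlace_natCast_mem S K' T ⟨v', t'⟩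
    rw [← h] at h2
    exact asmgl_prime_unique _ (asmglPlace S K' T ⟨v, t⟩).isPrime v.1.2 v'.1.2 h1 h2
  subst hv
  have ht : (t : GQ) = (t' : GQ) := lgqm_place_injOn hT v t.2 t'.2 h
  have : t = t' := Subtype.ext ht
  rw [this]

theorem asmglPlace_surjective (hT : IsDoubleCosetReps (locSysS S) K'.fixingSubgroup T)
    (u : HeightOneSpectrum (𝓞 K')) (hu : GlAbove S ↥K' u) :
    ∃ w, asmglPlace S K' T w = u := by
  obtain ⟨q, hq, hmem⟩ := hu
  obtain ⟨t, ht, htu⟩ := lgqm_place_surj hT ⟨q, hq⟩ u hmem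
  exact ⟨⟨⟨q, hq⟩, ⟨t, ht⟩⟩, htu⟩

theorem asmglPlace_existsUnique (hT : IsDoubleCosetReps (locSysS S) K'.fixingSubgroup T)
    (u : HeightOneSpectrum (𝓞 K')) (hu : GlAbove S ↥K' u) :
    ∃! w, asmglPlace S K' T w = u := by
  obtain ⟨w, hw⟩ := asmglPlace_surjective hT u hu
  exact ⟨w, hw, fun w' hw' => asmglPlace_injective hT (hw'.trans hw.symm)⟩

/-- (GL-places) as an equivalence onto the places of `K'` above `S`. -/
def asmglPlaceEquiv (hT : IsDoubleCosetReps (locSysS S) K'.fixingSubgroup T) :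
    (Σ v : ↥S, ↥(T v)) ≃ {u : HeightOneSpectrum (𝓞 K') // GlAbove S ↥K' u} :=
  Equiv.ofBijective (fun w => ⟨asmglPlace S K' T w, asmglPlace_glAbove S K' T w⟩)
    ⟨fun w w' h => asmglPlace_injective hT (congrArg Subtype.val h),
      fun u => by
        obtain ⟨w, hw⟩ := asmglPlace_surjective hT u.1 u.2
        exact ⟨w, Subtype.ext hw⟩⟩

@[simp] theorem asmglPlaceEquiv_apply (hT : IsDoubleCosetReps (locSysS S) K'.fixingSubgroup T)
    (w : Σ v : ↥S, ↥(T v)) :
    ((asmglPlaceEquiv hT w : {u : HeightOneSpectrum (𝓞 K') // GlAbove S ↥K' u}) :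
      HeightOneSpectrum (𝓞 K')) = asmglPlace S K' T w := rfl

end Places

end Fermat.Agent.S55
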