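/-
S55 / Asm, leaf ASM-3: the hyperplane lemma (pure linear algebra, Mathlib only).

`asmh_exists_smul`      : `ker inv ≤ ker Lam`, `Lam ≠ 0`  ⟹  `Lam = c • inv`, `c ≠ 0`.
`asmh_exists_smul_pi`   : the product form used by ASM-MAIN (`Lam ∘ single w ≠ 0` for one `w`).
`asmh_single_injective` : the `CritTriv.a1` shape gives injectivity of each `inv ∘ single w`.
`asmh_eq_zero_of_smul`  : transport of the vanishing / non-degeneracy statements along `Lam = c • inv`.
-/
import Mathlib

set_option autoImplicit false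

namespace Fermat.Agent.S55

section Hyperplane

variable {k : Type*} [Field k] {V : Type*} [AddCommGroup V] [Module k V]

/-- two functionals with `ker inv ≤ ker Lam` are proportional. -/
theorem asmh_exists_smul_of_ker_le (inv Lam : V →ₗ[k] k) (hker : ∀ b, inv b = 0 → Lam b = 0) :
    ∃ c : k, Lam = c • inv := by
  by_cases hinv : inv = 0
  · refine ⟨0, ?_⟩
    rw [zero_smul]
    ext b
    exact hker b (by rw [hinv]; rfl)
  · obtain ⟨b₀, hb₀⟩ : ∃ b₀, inv b₀ ≠ 0 := by
      by_contra hcon
      push Not at hcon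
      exact hinv (LinearMap.ext hcon)
    refine ⟨Lam b₀ / inv b₀, ?_⟩
    ext b
    have h1 : inv (b - (inv b / inv b₀) • b₀) = 0 := by
      rw [map_sub, map_smul, smul_eq_mul, div_mul_cancel₀ _ hb₀, sub_self]
    have h2 := hker _ h1
    rw [map_sub, map_smul, smul_eq_mul, sub_eq_zero] at h2
    rw [LinearMap.smul_apply, smul_eq_mul, h2]
    field_simp

/-- THE HYPERPLANE LEMMA: `ker inv ≤ ker Lam` and `Lam ≠ 0` give `Lam = c • inv` with `c ≠ 0`. -/
theorem asmh_exists_smul (inv Lam : V →ₗ[k] k) (hker : ∀ b, inv b = 0 → Lam b = 0)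
    (hne : ∃ b, Lam b ≠ 0) : ∃ c : k, c ≠ 0 ∧ Lam = c • inv := by
  obtain ⟨c, hc⟩ := asmh_exists_smul_of_ker_le inv Lam hker
  refine ⟨c, ?_, hc⟩
  rintro rfl
  obtain ⟨b, hb⟩ := hne
  apply hb
  rw [hc, zero_smul]
  rfl

/-- transport along `Lam = c • inv`, `c ≠ 0`: the two functionals have the same kernel. -/
theorem asmh_eq_zero_iff_of_smul {inv Lam : V →ₗ[k] k} {c : k} (hc : c ≠ 0) (h : Lam = c • inv)
    (b : V) : Lam b = 0 ↔ inv b = 0 := by
  rw [h, LinearMap.smul_apply, smul_eq_mul, mul_eq_zero]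
  exact ⟨fun h' => h'.resolve_left hc, Or.inr⟩

end Hyperplane

section Pi

variable {k : Type*} [Field k] {ι : Type*} [DecidableEq ι] {X : ι → Type*}
  [∀ w, AddCommGroup (X w)] [∀ w, Module k (X w)]

/-- product form: `Lam` is nonzero on one factor. -/
theorem asmh_exists_smul_pi (inv Lam : (∀ w, X w) →ₗ[k] k)
    (hker : ∀ b, inv b = 0 → Lam b = 0) (w : ι) (hw : ∃ x : X w, Lam (Pi.single w x) ≠ 0) :
    ∃ c : k, c ≠ 0 ∧ Lam = c • inv := by
  obtain ⟨x, hx⟩ := hw
  exact asmh_exists_smul inv Lam hker ⟨_, hx⟩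

/-- the `CritTriv.a1` shape says that each `inv ∘ single w` is injective. -/
theorem asmh_single_injective (inv : (∀ w, X w) →ₗ[k] k)
    (a1 : ∀ c : ∀ w, X w, (∀ a : ι → k, inv (fun w => a w • c w) = 0) → c = 0)
    (w : ι) (x : X w) (hx : inv (Pi.single w x) = 0) : x = 0 := by
  have h1 : (Pi.single w x : ∀ w, X w) = 0 := by
    apply a1
    intro a
    have h2 : (fun w' => a w' • (Pi.single w x : ∀ w, X w) w') = a w • (Pi.single w x : ∀ w, X w) := by
      funext w'
      by_cases hww : w' = w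
      · subst hww
        simp
      · simp [Pi.single_eq_of_ne hww]
    rw [h2, map_smul, hx, smul_zero]
  have h3 := congrFun h1 w
  simpa using h3

/-- conversely, a functional on a finite product all of whose components are injective satisfies
the `CritTriv.a1` shape. -/
theorem asmh_a1_of_single_injective [Fintype ι] (inv : (∀ w, X w) →ₗ[k] k)
    (hinj : ∀ (w : ι) (x : X w), inv (Pi.single w x) = 0 → x = 0)
    (c : ∀ w, X w) (hc : ∀ a : ι → k, inv (fun w => a w • c w) = 0) : c = 0 := by
  funext w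
  apply hinj w
  have h1 := hc (fun w' => if w' = w then 1 else 0)
  have h2 : (fun w' => (if w' = w then (1 : k) else 0) • c w') = Pi.single w (c w) := by
    funext w'
    by_cases hww : w' = w
    · subst hww
      simp
    · simp [hww]
  rw [h2] at h1
  exact h1

end Pi

end Fermat.Agent.S55
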