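/-
S55 / ASM, GLUE (GL-d): the KUMMER DICTIONARY between the global Kummer functions `sbKumFun`
(helper9, `SB/KummerGlobal.lean`) and the local ones `lbKumFun` (LB3, `LocalBridgeKummer.lean`) at the
place `w = (v, t)` of `K' ⊆ ℚ̄` (`H = K'.fixingSubgroup`, `ζ₀ ∈ K'` a primitive `p`-th root of unity,
`ζ_w = padicEmbedding v (t⁻¹ ζ₀)`, `a_w = padicEmbedding v (t⁻¹ a)`):

* `asmkd_kumFun_comp`  : `sbKumFun ζ₀ H a ∘ r = lbKumFun ζ_w V a_w` for any `V, r` with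
  `r σ = t r_v(σ) t⁻¹` (`V = mackeySub`, `r = mackeyHom`);
* `asmkd_inv_cup`      : `lgqmInv (f_b ∪ f_a) = lfSymbol (a, b)` for local Kummer classes, for a subgroup
  `V` propositionally equal to `E.fixingSubgroup` and levels propositionally equal to `lbLevels`;
* `asm_kumFun_mackeyHom`, `asm_smH1res_kum`, `asmInvAt_cup_kum`: the forms for `locSysS S`, `asmInvAt`.
Helper lemmas are prefixed `asmkd`.
-/
import Mathlib
import Fermat.Agent.S55.Asm.GL
import Fermat.Agent.S55.SB.KummerGlobal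
import Fermat.Agent.S55.LocalBridgeCrit

set_option autoImplicit false
set_option linter.unusedSectionVars false
set_option linter.style.haveILetI false

noncomputable section

namespace Fermat.Agent.S55

open NumberField ExtCitation

section Dict

variable (q : ℕ) [Fact q.Prime] {p : ℕ} [Fact p.Prime] {ζ₀ : AlgebraicClosure ℚ}
  (K' : IntermediateField ℚ (AlgebraicClosure ℚ)) [NumberField K']

/-- (GL-d) The global Kummer function of `a ∈ K'ˣ` composed with `σ ↦ t r_q(σ) t⁻¹` is the local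
Kummer function of `a_w = padicEmbedding q (t⁻¹ a)` with respect to `ζ_w = padicEmbedding q (t⁻¹ ζ₀)`. -/
theorem asmkd_kumFun_comp (hζ : IsPrimitiveRoot ζ₀ p) (hζK : ζ₀ ∈ K') (a : (↥K')ˣ) (t : GQ)
    (V : Subgroup (lbGal q)) (r : ↥V →* ↥K'.fixingSubgroup)
    (hV : ∀ σ : lbGal q, σ ∈ V ↔ t * localGaloisToGlobal q σ * t⁻¹ ∈ K'.fixingSubgroup)
    (hr : ∀ σ : ↥V, ((r σ : ↥K'.fixingSubgroup) : GQ) =
      t * localGaloisToGlobal q (σ : lbGal q) * t⁻¹) (σ : ↥V) :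
    sbKumFun (p := p) ζ₀ K'.fixingSubgroup (((a : (↥K')ˣ) : ↥K') : AlgebraicClosure ℚ) (r σ) =
      lbKumFun (p := p) (padicEmbedding q ((t⁻¹ : GQ) ζ₀)) V
        (padicEmbedding q ((t⁻¹ : GQ) (((a : (↥K')ˣ) : ↥K') : AlgebraicClosure ℚ))) σ := by
  set E := lgField q (lgqmEmb q K' t) with hE
  have hσE : (σ : lbGal q) ∈ E.fixingSubgroup :=
    (lgqm_conj_mem_fixingSubgroup_iff q K' t _).1 ((hV _).1 σ.2)
  have hζw : IsPrimitiveRoot (padicEmbedding q ((t⁻¹ : GQ) ζ₀)) p := by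
    have h1 : IsPrimitiveRoot ((t⁻¹ : GQ) ζ₀) p := hζ.map_of_injective (t⁻¹ : GQ).injective
    exact h1.map_of_injective (lgq_padicEmbedding_injective q)
  have hζE : padicEmbedding q ((t⁻¹ : GQ) ζ₀) ∈ E :=
    range_le_lgField q (lgqmEmb q K' t) ⟨ζ₀, hζK⟩
  -- the local unit
  set aw : (↥E)ˣ := Units.map (lgEmb q (lgqmEmb q K' t) : ↥K' →* ↥E) a with haw
  have hawc : (((aw : (↥E)ˣ) : ↥E) : PadicAlgCl q) =
      padicEmbedding q ((t⁻¹ : GQ) (((a : (↥K')ˣ) : ↥K') : AlgebraicClosure ℚ)) := rfl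
  -- the roots
  set α := sbRoot p ((((a : (↥K')ˣ) : ↥K') : AlgebraicClosure ℚ)) with hα
  have hαp : α ^ p = (((a : (↥K')ˣ) : ↥K') : AlgebraicClosure ℚ) := sbRoot_pow (p := p) _
  set αw := padicEmbedding q ((t⁻¹ : GQ) α) with hαw
  have hαwp : αw ^ p = (((aw : (↥E)ˣ) : ↥E) : PadicAlgCl q) := by
    rw [hawc, hαw, ← map_pow, ← map_pow, hαp]
  -- the global exponent
  set x := sbKumFun (p := p) ζ₀ K'.fixingSubgroup
    (((a : (↥K')ˣ) : ↥K') : AlgebraicClosure ℚ) (r σ) with hx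
  have hspec := sbKumFun_spec hζ K' hζK a α hαp (r σ)
  rw [← hx, hr σ] at hspec
  -- transport to the local side
  have hloc : (σ : lbGal q) αw = padicEmbedding q ((t⁻¹ : GQ) ζ₀) ^ x.val * αw := by
    rw [hαw, ← padicEmbedding_localGaloisToGlobal]
    have h2 : localGaloisToGlobal q (σ : lbGal q) ((t⁻¹ : GQ) α) =
        (t⁻¹ : GQ) ((t * localGaloisToGlobal q (σ : lbGal q) * t⁻¹ : GQ) α) := by
      rw [AlgEquiv.mul_apply, AlgEquiv.mul_apply, ← AlgEquiv.mul_apply (t⁻¹ : GQ) t,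
        inv_mul_cancel, AlgEquiv.one_apply]
    rw [h2, hspec, map_mul, map_pow, map_mul, map_pow]
  have key := (lbk_kumFun_eq_iff hζw E hζE aw αw hαwp ⟨(σ : lbGal q), hσE⟩ x).2 hloc
  rw [← key, hawc]
  rfl

end Dict

/-! ## cup product of local Kummer classes = Kummer symbol, for `V ≃ E.fixingSubgroup`, `𝓛 ≃ lbLevels` -/

section Cup

variable {q : ℕ} [Fact q.Prime] {p : ℕ} [Fact p.Prime] {ζ : PadicAlgCl q}

/-- The local Kummer function is a smooth cocycle (general `V`, `𝓛`). -/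
theorem asmkd_lbKumFun_mem_smZ1 (hζ : IsPrimitiveRoot ζ p)
    (E : IntermediateField ℚ_[q] (PadicAlgCl q)) [FiniteDimensional ℚ_[q] E] (hζE : ζ ∈ E)
    {𝓛 : Levels (lbGal q)} (h𝓛 : 𝓛 = lbLevels q) (V : Subgroup (lbGal q))
    (hV : V = E.fixingSubgroup) (ρ : Representation (ZMod p) ↥V (ZMod p)) (hρ : IsMuRep ζ V ρ)
    (a : (↥E)ˣ) :
    lbKumFun (p := p) ζ V (((a : (↥E)ˣ) : ↥E) : PadicAlgCl q) ∈ smZ1 (𝓛.sub V) ρ := by
  subst h𝓛
  subst hV
  exact lbKumFun_mem_smZ1 hζ E hζE ρ hρ a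

/-- CUP PRODUCT = KUMMER SYMBOL (general `V`, `𝓛`): `inv (χ_b ∪ χ_a) = (a, b)`. -/
theorem asmkd_inv_cup (hζ : IsPrimitiveRoot ζ p)
    (E : IntermediateField ℚ_[q] (PadicAlgCl q)) [FiniteDimensional ℚ_[q] E] (hζE : ζ ∈ E)
    {𝓛 : Levels (lbGal q)} (h𝓛 : 𝓛 = lbLevels q) (V : Subgroup (lbGal q))
    (hV : V = E.fixingSubgroup) (ρ : Representation (ZMod p) ↥V (ZMod p)) (hρ : IsMuRep ζ V ρ)
    (P : PairingData (𝓛.sub V) ρ ρ ρ (LinearMap.mul (ZMod p) (ZMod p))) (a b : (↥E)ˣ)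
    (ζE : ↥E) (hζE' : (ζE : PadicAlgCl q) = ζ)
    (hfa : lbKumFun (p := p) ζ V (((a : (↥E)ˣ) : ↥E) : PadicAlgCl q) ∈ smZ1 (𝓛.sub V) ρ)
    (hfb : lbKumFun (p := p) ζ V (((b : (↥E)ˣ) : ↥E) : PadicAlgCl q) ∈ smZ1 (𝓛.sub V) ρ) :
    lgqmInv q p ζ h𝓛 V ρ (cupH11 P (smH1π (𝓛.sub V) ρ ⟨_, hfb⟩) (smH1π (𝓛.sub V) ρ ⟨_, hfa⟩)) =
      lfSymbol q ↥E p ζE a b := by
  subst h𝓛
  subst hV
  have hζEeq : ζE = (⟨ζ, hζE⟩ : ↥E) := Subtype.ext hζE'
  subst hζEeq
  have hρ1 : ρ = 1 := IsMuRep.eq_one hζ E hζE ρ hρ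
  have hmem := crita_cup11_mem P
    ⟨lbKumFun (p := p) ζ E.fixingSubgroup (((b : (↥E)ˣ) : ↥E) : PadicAlgCl q), hfb⟩
    ⟨lbKumFun (p := p) ζ E.fixingSubgroup (((a : (↥E)ˣ) : ↥E) : PadicAlgCl q), hfa⟩
  rw [cupH11_mk P _ _ hmem]
  have hmem' := lb_cup_mem_smZ2 hζ E hζE ρ hρ _ _ hfb hfa
  have heq : (fun s : ↥E.fixingSubgroup × ↥E.fixingSubgroup =>
      lbKumFun (p := p) ζ E.fixingSubgroup (((b : (↥E)ˣ) : ↥E) : PadicAlgCl q) s.1 *
        lbKumFun (p := p) ζ E.fixingSubgroup (((a : (↥E)ˣ) : ↥E) : PadicAlgCl q) s.2) =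
      cup11 (LinearMap.mul (ZMod p) (ZMod p)) ρ
        (lbKumFun (p := p) ζ E.fixingSubgroup (((b : (↥E)ˣ) : ↥E) : PadicAlgCl q))
        (lbKumFun (p := p) ζ E.fixingSubgroup (((a : (↥E)ˣ) : ↥E) : PadicAlgCl q)) := by
    funext s
    have hρs : ρ s.1 = 1 := by rw [hρ1]; rfl
    show _ = (LinearMap.mul (ZMod p) (ZMod p)) _ (ρ s.1 _)
    rw [hρs]
    rfl
  have hsub : (⟨_, hmem'⟩ : ↥(smZ2 ((lbLevels q).sub E.fixingSubgroup) ρ)) = ⟨_, hmem⟩ :=
    Subtype.ext heq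
  have key := lbInv_cup_lbKumFun hζ E hζE ρ hρ a b hmem'
  rw [hsub] at key
  exact key

end Cup

/-! ## the forms for `locSysS S`, `mackeySub`, `mackeyHom`, `asmInvAt` -/

section Asm

variable (p : ℕ) [Fact p.Prime] (S : Finset Nat.Primes)
  (K' : IntermediateField ℚ (AlgebraicClosure ℚ)) [NumberField K']

/-- (GL-d) for `locSysS S`: the global Kummer function restricted to the local group at `w = (v, t)`
is the local Kummer function of `a_w = padicEmbedding v (t⁻¹ a)` w.r.t. `ζ_w = asmZetaAt p S v t`. -/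
theorem asm_kumFun_mackeyHom (hζK : asmZeta p ∈ K') (v : ↥S) (t : GQ) (a : (↥K')ˣ)
    (σ : ↥(mackeySub ((locSysS S).r v) K'.fixingSubgroup t)) :
    haveI : Fact ((v.1 : Nat.Primes) : ℕ).Prime := ⟨v.1.2⟩
    sbKumFun (p := p) (asmZeta p) K'.fixingSubgroup (((a : (↥K')ˣ) : ↥K') : AlgebraicClosure ℚ)
        (mackeyHom ((locSysS S).r v) K'.fixingSubgroup t σ) =
      lbKumFun (p := p) (asmZetaAt p S v t)
        (mackeySub ((locSysS S).r v) K'.fixingSubgroup t : Subgroup (primeLocalGaloisGroup v.1))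
        (padicEmbedding ((v.1 : Nat.Primes) : ℕ)
          ((t⁻¹ : GQ) (((a : (↥K')ˣ) : ↥K') : AlgebraicClosure ℚ))) σ := by
  haveI : Fact ((v.1 : Nat.Primes) : ℕ).Prime := ⟨v.1.2⟩
  exact asmkd_kumFun_comp ((v.1 : Nat.Primes) : ℕ) K' (asmZeta_spec p) hζK a t
    (mackeySub ((locSysS S).r v) K'.fixingSubgroup t : Subgroup (primeLocalGaloisGroup v.1))
    (mackeyHom ((locSysS S).r v) K'.fixingSubgroup t) (fun _ => Iff.rfl) (fun _ => rfl) σ

/-- The local unit `a_w ∈ E_wˣ`, `E_w = lgField v (lgqmEmb v K' t)`. -/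
def asmkdLoc (q : ℕ) [Fact q.Prime] (t : GQ) :
    (↥K')ˣ →* (↥(lgField q (lgqmEmb q K' t)))ˣ :=
  Units.map (lgEmb q (lgqmEmb q K' t) : ↥K' →* ↥(lgField q (lgqmEmb q K' t)))

theorem asmkdLoc_coe (q : ℕ) [Fact q.Prime] (t : GQ) (a : (↥K')ˣ) :
    (((asmkdLoc K' q t a : (↥(lgField q (lgqmEmb q K' t)))ˣ) : ↥(lgField q (lgqmEmb q K' t))) :
      PadicAlgCl q) = padicEmbedding q ((t⁻¹ : GQ) (((a : (↥K')ˣ) : ↥K') : AlgebraicClosure ℚ)) :=
  rfl

/-- The restriction to the local group at `w = (v, t)` of the global Kummer CLASS of `a` is the local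
Kummer class of `a_w`. -/
theorem asm_smH1res_kum (hζK : asmZeta p ∈ K') (v : ↥S) (t : GQ) (a : (↥K')ˣ)
    (hfa : sbKumFun (p := p) (asmZeta p) K'.fixingSubgroup
        (((a : (↥K')ˣ) : ↥K') : AlgebraicClosure ℚ) ∈
      smZ1 ((levelsS S).sub K'.fixingSubgroup) (trivRep (k := ZMod p) K'.fixingSubgroup))
    (hcont : (((locSysS S).lev v).sub (mackeySub ((locSysS S).r v) K'.fixingSubgroup t)).Continuous
      ((levelsS S).sub K'.fixingSubgroup) (mackeyHom ((locSysS S).r v) K'.fixingSubgroup t)) :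
    haveI : Fact ((v.1 : Nat.Primes) : ℕ).Prime := ⟨v.1.2⟩
    ∃ h' : lbKumFun (p := p) (asmZetaAt p S v t)
        (mackeySub ((locSysS S).r v) K'.fixingSubgroup t : Subgroup (primeLocalGaloisGroup v.1))
        (padicEmbedding ((v.1 : Nat.Primes) : ℕ)
          ((t⁻¹ : GQ) (((a : (↥K')ˣ) : ↥K') : AlgebraicClosure ℚ))) ∈
        smZ1 (((locSysS S).lev v).sub (mackeySub ((locSysS S).r v) K'.fixingSubgroup t))
          ((trivRep (k := ZMod p) K'.fixingSubgroup).comp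
            (mackeyHom ((locSysS S).r v) K'.fixingSubgroup t)),
      smH1res (trivRep (k := ZMod p) K'.fixingSubgroup) hcont
          (smH1π ((levelsS S).sub K'.fixingSubgroup) (trivRep (k := ZMod p) K'.fixingSubgroup)
            ⟨_, hfa⟩) =
        smH1π (((locSysS S).lev v).sub (mackeySub ((locSysS S).r v) K'.fixingSubgroup t))
          ((trivRep (k := ZMod p) K'.fixingSubgroup).comp
            (mackeyHom ((locSysS S).r v) K'.fixingSubgroup t)) ⟨_, h'⟩ := by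
  haveI : Fact ((v.1 : Nat.Primes) : ℕ).Prime := ⟨v.1.2⟩
  have hfun : (fun σ : ↥(mackeySub ((locSysS S).r v) K'.fixingSubgroup t) =>
      sbKumFun (p := p) (asmZeta p) K'.fixingSubgroup
        (((a : (↥K')ˣ) : ↥K') : AlgebraicClosure ℚ)
        (mackeyHom ((locSysS S).r v) K'.fixingSubgroup t σ)) =
      lbKumFun (p := p) (asmZetaAt p S v t)
        (mackeySub ((locSysS S).r v) K'.fixingSubgroup t : Subgroup (primeLocalGaloisGroup v.1))
        (padicEmbedding ((v.1 : Nat.Primes) : ℕ)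
          ((t⁻¹ : GQ) (((a : (↥K')ˣ) : ↥K') : AlgebraicClosure ℚ))) :=
    funext (asm_kumFun_mackeyHom p S K' hζK v t a)
  have hres := (smZ1res (trivRep (k := ZMod p) K'.fixingSubgroup) hcont ⟨_, hfa⟩).2
  refine ⟨hfun ▸ hres, ?_⟩
  rw [smH1res_mk]
  congr 1
  exact Subtype.ext hfun

/-- CUP PRODUCT = KUMMER SYMBOL at the place `w = (v, t)`: the invariant `inv_w` of the cup product of
the local restrictions of the global Kummer classes of `b` and `a` is the local symbol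
`(a_w, b_w)` of `E_w = lgField v (lgqmEmb v K' t)` w.r.t. the image of `ζ₀`. -/
theorem asmInvAt_cup_kum (hζK : asmZeta p ∈ K') (v : ↥S) (t : GQ)
    (P' : PairingData (((locSysS S).lev v).sub (mackeySub ((locSysS S).r v) K'.fixingSubgroup t))
      ((trivRep (k := ZMod p) K'.fixingSubgroup).comp
        (mackeyHom ((locSysS S).r v) K'.fixingSubgroup t))
      ((trivRep (k := ZMod p) K'.fixingSubgroup).comp
        (mackeyHom ((locSysS S).r v) K'.fixingSubgroup t))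
      ((trivRep (k := ZMod p) K'.fixingSubgroup).comp
        (mackeyHom ((locSysS S).r v) K'.fixingSubgroup t)) (LinearMap.mul (ZMod p) (ZMod p)))
    (a b : (↥K')ˣ)
    (hfa : sbKumFun (p := p) (asmZeta p) K'.fixingSubgroup
        (((a : (↥K')ˣ) : ↥K') : AlgebraicClosure ℚ) ∈
      smZ1 ((levelsS S).sub K'.fixingSubgroup) (trivRep (k := ZMod p) K'.fixingSubgroup))
    (hfb : sbKumFun (p := p) (asmZeta p) K'.fixingSubgroup
        (((b : (↥K')ˣ) : ↥K') : AlgebraicClosure ℚ) ∈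
      smZ1 ((levelsS S).sub K'.fixingSubgroup) (trivRep (k := ZMod p) K'.fixingSubgroup))
    (hcont : (((locSysS S).lev v).sub (mackeySub ((locSysS S).r v) K'.fixingSubgroup t)).Continuous
      ((levelsS S).sub K'.fixingSubgroup) (mackeyHom ((locSysS S).r v) K'.fixingSubgroup t)) :
    haveI : Fact ((v.1 : Nat.Primes) : ℕ).Prime := ⟨v.1.2⟩
    asmInvAt p S K'.fixingSubgroup v t
        (cupH11 P'
          (smH1res (trivRep (k := ZMod p) K'.fixingSubgroup) hcont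
            (smH1π ((levelsS S).sub K'.fixingSubgroup) (trivRep (k := ZMod p) K'.fixingSubgroup)
              ⟨_, hfb⟩))
          (smH1res (trivRep (k := ZMod p) K'.fixingSubgroup) hcont
            (smH1π ((levelsS S).sub K'.fixingSubgroup) (trivRep (k := ZMod p) K'.fixingSubgroup)
              ⟨_, hfa⟩))) =
      lfSymbol ((v.1 : Nat.Primes) : ℕ)
        ↥(lgField ((v.1 : Nat.Primes) : ℕ) (lgqmEmb ((v.1 : Nat.Primes) : ℕ) K' t)) p
        (lgEmb ((v.1 : Nat.Primes) : ℕ) (lgqmEmb ((v.1 : Nat.Primes) : ℕ) K' t)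
          ⟨asmZeta p, hζK⟩)
        (asmkdLoc K' ((v.1 : Nat.Primes) : ℕ) t a) (asmkdLoc K' ((v.1 : Nat.Primes) : ℕ) t b) := by
  haveI : Fact ((v.1 : Nat.Primes) : ℕ).Prime := ⟨v.1.2⟩
  obtain ⟨ha', ea⟩ := asm_smH1res_kum p S K' hζK v t a hfa hcont
  obtain ⟨hb', eb⟩ := asm_smH1res_kum p S K' hζK v t b hfb hcont
  rw [ea, eb]
  have hζE : asmZetaAt p S v t ∈
      lgField ((v.1 : Nat.Primes) : ℕ) (lgqmEmb ((v.1 : Nat.Primes) : ℕ) K' t) :=
    range_le_lgField _ (lgqmEmb ((v.1 : Nat.Primes) : ℕ) K' t) ⟨asmZeta p, hζK⟩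
  exact asmkd_inv_cup (asmZetaAt_isPrimitiveRoot p S v t)
    (lgField ((v.1 : Nat.Primes) : ℕ) (lgqmEmb ((v.1 : Nat.Primes) : ℕ) K' t)) hζE
    (lg_locSysS_lev S v)
    (mackeySub ((locSysS S).r v) K'.fixingSubgroup t : Subgroup (primeLocalGaloisGroup v.1))
    (lgqm_mackeySub_eq S v K' t) _ (lgqm_isMuRep_triv S v p t (asmZeta p) hζK) P'
    (asmkdLoc K' ((v.1 : Nat.Primes) : ℕ) t a) (asmkdLoc K' ((v.1 : Nat.Primes) : ℕ) t b)
    (lgEmb ((v.1 : Nat.Primes) : ℕ) (lgqmEmb ((v.1 : Nat.Primes) : ℕ) K' t) ⟨asmZeta p, hζK⟩) rfl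
    ha' hb'

end Asm

end Fermat.Agent.S55
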