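/-
S55, package ASM, file `Asm/Lam.lean` (ASM-2, assembled form): the functional
`Λ = trLoc D tr ∘ (ε_*)_v ∘ MS₂⁻¹` on `∏_{(v,t)} H²(Γ_{v,t}, k)` and the three formulas expressing
the local pairings `pair20 / pair11 / pair02` of the base pair `(Ind_H^G k, basePairing)` through
`Λ` and the cup products of the trivial coefficients on the Mackey local system `D.mackey H rep`.
Names are prefixed `asm`.
-/
import Fermat.Agent.S55.Asm.Cup

set_option autoImplicit false
set_option maxSynthPendingDepth 3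

namespace Fermat.Agent.S55

section Lam

universe u

variable {k : Type u} [Field k] {G : Type u} [Group G] {𝓛 : Levels G}
  {ι : Type*} {Γ : ι → Type*} [∀ v, Group (Γ v)] (D : LocSys 𝓛 ι Γ) (χ : G →* kˣ)
  (H : Subgroup G)

/-- `ε : Ind_H^G k → k`, `F ↦ ⟨F, 1⟩` -/
noncomputable def asmEps : ↥(indSpace H (trivRep (k := k) H)) →ₗ[k] k :=
  (basePairing χ H).flip ((baseOne H : ↥(smH0 (indRep H (trivRep (k := k) H)))) :
    ↥(indSpace H (trivRep (k := k) H)))

theorem asmEps_apply (F : ↥(indSpace H (trivRep (k := k) H))) :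
    asmEps χ H F = basePairing χ H F
      ((baseOne H : ↥(smH0 (indRep H (trivRep (k := k) H)))) :
        ↥(indSpace H (trivRep (k := k) H))) := rfl

/-- `1` is a unit for the pointwise multiplication -/
theorem indMul_baseOne (F : ↥(indSpace H (trivRep (k := k) H))) :
    indMul H F ((baseOne H : ↥(smH0 (indRep H (trivRep (k := k) H)))) :
      ↥(indSpace H (trivRep (k := k) H))) = F := by
  apply Subtype.ext
  funext g
  show F.1 g * 1 = F.1 g
  rw [mul_one]

theorem asmEps_equivariant
    (hβ : IsEquivariant₂ (indRep H (trivRep (k := k) H)) (indRep H (trivRep (k := k) H))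
      (chiRep χ) (basePairing χ H)) :
    IsEquivariant (indRep H (trivRep (k := k) H)) (chiRep χ) (asmEps χ H) := by
  intro g F
  have h := hβ g F ((baseOne H : ↥(smH0 (indRep H (trivRep (k := k) H)))) :
    ↥(indSpace H (trivRep (k := k) H)))
  have h1 : indRep H (trivRep (k := k) H) g
      ((baseOne H : ↥(smH0 (indRep H (trivRep (k := k) H)))) :
        ↥(indSpace H (trivRep (k := k) H)))
      = ((baseOne H : ↥(smH0 (indRep H (trivRep (k := k) H)))) :
        ↥(indSpace H (trivRep (k := k) H))) := rfl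
  rw [h1] at h
  exact h

/-- the base pairing factors through the multiplication: `⟨F, F'⟩ = ε (F · F')` -/
theorem basePairing_eq_asmEps_indMul [H.FiniteIndex]
    (F F' : ↥(indSpace H (trivRep (k := k) H))) :
    basePairing χ H F F' = asmEps χ H (indMul H F F') := by
  rw [asmEps_apply]
  unfold basePairing
  rw [indPairing_apply_out, indPairing_apply_out]
  refine finsum_congr fun q => ?_
  congr 1
  show F.1 q.out * F'.1 q.out = (F.1 q.out * F'.1 q.out) * 1
  rw [mul_one]

variable {T : ι → Type*} (rep : ∀ v, T v → G) [∀ v, Fintype (T v)]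
  (hrep : ∀ v, IsDCReps (D.r v) H (rep v)) (hH : 𝓛.IsOpen H)
  (P : PairingData 𝓛 (indRep H (trivRep (k := k) H)) (indRep H (trivRep (k := k) H))
    (chiRep χ) (basePairing χ H))
  (Pt : PairingData (𝓛.sub H) (trivRep (k := k) H) (trivRep (k := k) H) (trivRep (k := k) H)
    (LinearMap.mul k k))
  (tr : smHc3 D (chiRep χ) →ₗ[k] k)

/-- `(ε_*)_v : ∏_v H²(Γ_v, Ind_H^G k) → ∏_v H²(Γ_v, k(χ))` -/
noncomputable def asmEpsP :
    (∀ v, smH2 (D.lev v) (D.rep (indRep H (trivRep (k := k) H)) v)) →ₗ[k]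
      (∀ v, smH2 (D.lev v) (D.rep (chiRep χ) v)) :=
  LinearMap.pi fun v =>
    (smH2map (D.lev v) (ρ := D.rep (indRep H (trivRep (k := k) H)) v) (ρ' := D.rep (chiRep χ) v)
      (asmEps χ H) (fun g F => asmEps_equivariant χ H P.equiv (D.r v g) F)).comp
      (LinearMap.proj v)

theorem asmEpsP_apply (b : ∀ v, smH2 (D.lev v) (D.rep (indRep H (trivRep (k := k) H)) v))
    (v : ι) :
    asmEpsP D χ H P b v
      = smH2map (D.lev v) (ρ := D.rep (indRep H (trivRep (k := k) H)) v)
          (ρ' := D.rep (chiRep χ) v) (asmEps χ H)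
          (fun g F => asmEps_equivariant χ H P.equiv (D.r v g) F) (b v) := rfl

/-- THE FUNCTIONAL `Λ` on `∏_{(v,t)} H²(Γ_{v,t}, k)` -/
noncomputable def asmLam :
    (∀ w : Σ v, T v, smH2 ((D.mackey H rep).lev w) ((D.mackey H rep).rep (trivRep (k := k) H) w))
      →ₗ[k] k :=
  ((trLoc D tr).comp (asmEpsP D χ H P)).comp
    (mackeyShapiroP2 D H rep (trivRep (k := k) H) hrep hH).symm.toLinearMap

theorem asmLam_mackeyShapiroP2
    (b : ∀ v, smH2 (D.lev v) (D.rep (indRep H (trivRep (k := k) H)) v)) :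
    asmLam D χ H rep hrep hH P tr (mackeyShapiroP2 D H rep (trivRep (k := k) H) hrep hH b)
      = trLoc D tr (asmEpsP D χ H P b) := by
  show trLoc D tr (asmEpsP D χ H P
    ((mackeyShapiroP2 D H rep (trivRep (k := k) H) hrep hH).symm
      (mackeyShapiroP2 D H rep (trivRep (k := k) H) hrep hH b))) = _
  rw [LinearEquiv.symm_apply_apply]

/-- formula `I20` -/
theorem asm_pair20_eq (b : ∀ v, smH2 (D.lev v) (D.rep (indRep H (trivRep (k := k) H)) v)) :
    pair20 D P tr b (locP0 D (ρ := indRep H (trivRep (k := k) H)) (baseOne H))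
      = asmLam D χ H rep hrep hH P tr
          (mackeyShapiroP2 D H rep (trivRep (k := k) H) hrep hH b) := by
  have : H.FiniteIndex := hH.finiteIndex
  rw [asmLam_mackeyShapiroP2]
  show trLoc D tr (fun v => cupH20 (P.loc D v) (b v)
    (locP0 D (ρ := indRep H (trivRep (k := k) H)) (baseOne H) v)) = _
  congr 1
  funext v
  rw [asmEpsP_apply]
  exact asm_cupH20_one (m := indMul H) (P.loc D v) (asmEps χ H) _
    (basePairing_eq_asmEps_indMul χ H) _ (indMul_baseOne H) (b v)

/-- formula `I11` -/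
theorem asm_pair11_eq (b c : ∀ v, smH1 (D.lev v) (D.rep (indRep H (trivRep (k := k) H)) v)) :
    pair11 D P tr b c
      = asmLam D χ H rep hrep hH P tr (fun w =>
          cupH11 (Pt.loc (D.mackey H rep) w)
            (mackeyShapiroP1 D H rep (trivRep (k := k) H) hrep hH b w)
            (mackeyShapiroP1 D H rep (trivRep (k := k) H) hrep hH c w)) := by
  have : H.FiniteIndex := hH.finiteIndex
  have Pm := indMul_pairingData H (𝓛 := 𝓛) P.smV
  have h1 : (fun w : Σ v, T v => cupH11 (Pt.loc (D.mackey H rep) w)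
      (mackeyShapiroP1 D H rep (trivRep (k := k) H) hrep hH b w)
      (mackeyShapiroP1 D H rep (trivRep (k := k) H) hrep hH c w))
      = mackeyShapiroP2 D H rep (trivRep (k := k) H) hrep hH
          (fun v => cupH11 (Pm.loc D v) (b v) (c v)) := by
    funext w
    rw [mackeyShapiroP2_apply, mackeyShapiroP1_apply, mackeyShapiroP1_apply]
    exact (asm_mackeyShapiroHom2_cupH11 (D.r w.1) H (rep w.1 w.2) (Pm.loc D w.1)
      (Pt.loc (D.mackey H rep) w) (b w.1) (c w.1)).symm
  rw [h1, asmLam_mackeyShapiroP2]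
  show trLoc D tr (fun v => cupH11 (P.loc D v) (b v) (c v)) = _
  congr 1
  funext v
  rw [asmEpsP_apply]
  exact asm_cupH11_factor (Pm.loc D v) (P.loc D v) (asmEps χ H) _
    (basePairing_eq_asmEps_indMul χ H) (b v) (c v)

/-- formula `I02` -/
theorem asm_pair02_eq (b : ∀ v, ↥(smH0 (D.rep (indRep H (trivRep (k := k) H)) v)))
    (c : ∀ v, smH2 (D.lev v) (D.rep (indRep H (trivRep (k := k) H)) v)) :
    pair02 D P tr b c
      = asmLam D χ H rep hrep hH P tr (fun w =>
          cupH02 (Pt.loc (D.mackey H rep) w)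
            (mackeyShapiroP0 D H rep (trivRep (k := k) H) hrep b w)
            (mackeyShapiroP2 D H rep (trivRep (k := k) H) hrep hH c w)) := by
  have : H.FiniteIndex := hH.finiteIndex
  have Pm := indMul_pairingData H (𝓛 := 𝓛) P.smV
  have h1 : (fun w : Σ v, T v => cupH02 (Pt.loc (D.mackey H rep) w)
      (mackeyShapiroP0 D H rep (trivRep (k := k) H) hrep b w)
      (mackeyShapiroP2 D H rep (trivRep (k := k) H) hrep hH c w))
      = mackeyShapiroP2 D H rep (trivRep (k := k) H) hrep hH
          (fun v => cupH02 (Pm.loc D v) (b v) (c v)) := by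
    funext w
    rw [mackeyShapiroP2_apply, mackeyShapiroP2_apply, mackeyShapiroP0_apply]
    exact (asm_mackeyShapiroHom2_cupH02 (D.r w.1) H (rep w.1 w.2) (Pm.loc D w.1)
      (Pt.loc (D.mackey H rep) w) (b w.1) (c w.1)).symm
  rw [h1, asmLam_mackeyShapiroP2]
  show trLoc D tr (fun v => cupH02 (P.loc D v) (b v) (c v)) = _
  congr 1
  funext v
  rw [asmEpsP_apply]
  exact asm_cupH02_factor (Pm.loc D v) (P.loc D v) (asmEps χ H) _
    (basePairing_eq_asmEps_indMul χ H) (b v) (c v)

end Lam

end Fermat.Agent.S55
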