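/-
S55 / Asm, leaf ASM-4a: transport of the pairing-free fields of `CoreCrit` along Shapiro (global) and
Mackey–Shapiro (local):  `c1`, `b1f`, `b2f`, `b2f2`, `b2`.

Setting: `D : LocSys 𝓛 ι Γ`, `H ≤ G` open, `rep v : T v → G` representatives of the double cosets
`H \ G / r_v (Γ v)`, `D' := D.mackey H rep` the local system of `H`, `σ` a representation of `H`.

* `asms_c1`    : `Z³(H, σ) ⊆ B³(H, σ)`  ⟹  `jc3 D x = 0` on `Ind_H σ`.
* `asms_b1f`   : `∏_w H¹(Γ_w, σ)` finite-dimensional ⟹ `∏_v H¹(Γ_v, Ind_H σ)` finite-dimensional.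
* `asmsSha1`, `asmsSha2` : `Шⁿ(D, Ind_H σ) ≃ₗ Шⁿ(D', σ)`, `n = 1, 2`.
* `asms_b2f`, `asms_b2f2`, `asms_b2` : finite-dimensionality and the inequality of dimensions.
-/
import Fermat.Agent.S55.SM.MackeyLoc
import Fermat.Agent.S55.Top.Final

set_option autoImplicit false

namespace Fermat.Agent.S55

section ShaTransport

variable {k : Type*} [Field k] {G : Type*} [Group G] {𝓛 : Levels G} {ι : Type*}
  {Γ : ι → Type*} [∀ v, Group (Γ v)] (D : LocSys 𝓛 ι Γ) (H : Subgroup G) {T : ι → Type*}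
  (rep : ∀ v, T v → G)
  {V : Type*} [AddCommGroup V] [Module k V] (σ : Representation k H V)

/-- `c1`: if `H³(H, σ) = 0` then `j³ : H_c³(Ind_H σ) → H³(G, Ind_H σ)` is zero. -/
theorem asms_c1 (hH : 𝓛.IsOpen H)
    (h : ∀ a : ↥H × ↥H × ↥H → V, a ∈ smZ3 (𝓛.sub H) σ → a ∈ smB3 (𝓛.sub H) σ)
    (x : smHc3 D (indRep H σ)) : jc3 D (ρ := indRep H σ) x = 0 := by
  apply (smShapiro3 𝓛 σ hH).injective
  rw [map_zero]
  obtain ⟨a, ha⟩ := Submodule.mkQ_surjective _ (smShapiro3 𝓛 σ hH (jc3 D (ρ := indRep H σ) x))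
  rw [← ha]
  exact (smH3π_eq_zero_iff (𝓛.sub H) σ a).2 (h _ a.2)

variable [∀ v, Fintype (T v)] (hrep : ∀ v, IsDCReps (D.r v) H (rep v)) (hH : 𝓛.IsOpen H)

include hrep hH in
set_option maxSynthPendingDepth 3 in
/-- `b1f` -/
theorem asms_b1f
    (h : FiniteDimensional k
      (∀ vt : Σ v, T v, smH1 ((D.mackey H rep).lev vt) ((D.mackey H rep).rep σ vt))) :
    FiniteDimensional k (∀ v, smH1 (D.lev v) (D.rep (indRep H σ) v)) :=
  LinearEquiv.finiteDimensional (mackeyShapiroP1 D H rep σ hrep hH).symm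

include hrep in
theorem asms_mem_sha1_iff (x : smH1 𝓛 (indRep H σ)) :
    x ∈ sha1 D (indRep H σ) ↔ smShapiro1 𝓛 σ hH x ∈ sha1 (D.mackey H rep) σ := by
  show locP1 D (ρ := indRep H σ) x = 0 ↔ locP1 (D.mackey H rep) (ρ := σ) (smShapiro1 𝓛 σ hH x) = 0
  rw [← mackeyShapiroP1_locP1 D H rep σ hrep hH x, LinearEquiv.map_eq_zero_iff]

include hrep in
theorem asms_mem_sha2_iff (x : smH2 𝓛 (indRep H σ)) :
    x ∈ sha2 D (indRep H σ) ↔ smShapiro2 𝓛 σ hH x ∈ sha2 (D.mackey H rep) σ := by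
  show locP2 D (ρ := indRep H σ) x = 0 ↔ locP2 (D.mackey H rep) (ρ := σ) (smShapiro2 𝓛 σ hH x) = 0
  rw [← mackeyShapiroP2_locP2 D H rep σ hrep hH x, LinearEquiv.map_eq_zero_iff]

/-- `Ш¹(D, Ind_H σ) ≃ Ш¹(D', σ)` -/
noncomputable def asmsSha1 : ↥(sha1 D (indRep H σ)) ≃ₗ[k] ↥(sha1 (D.mackey H rep) σ) :=
  LinearEquiv.ofSubmodules (smShapiro1 𝓛 σ hH) (sha1 D (indRep H σ)) (sha1 (D.mackey H rep) σ) (by
    ext y
    constructor
    · rintro ⟨x, hx, rfl⟩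
      exact (asms_mem_sha1_iff D H rep σ hrep hH x).1 hx
    · intro hy
      refine ⟨(smShapiro1 𝓛 σ hH).symm y, ?_, LinearEquiv.apply_symm_apply _ y⟩
      apply (asms_mem_sha1_iff D H rep σ hrep hH _).2
      rw [LinearEquiv.apply_symm_apply]
      exact hy)

/-- `Ш²(D, Ind_H σ) ≃ Ш²(D', σ)` -/
noncomputable def asmsSha2 : ↥(sha2 D (indRep H σ)) ≃ₗ[k] ↥(sha2 (D.mackey H rep) σ) :=
  LinearEquiv.ofSubmodules (smShapiro2 𝓛 σ hH) (sha2 D (indRep H σ)) (sha2 (D.mackey H rep) σ) (by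
    ext y
    constructor
    · rintro ⟨x, hx, rfl⟩
      exact (asms_mem_sha2_iff D H rep σ hrep hH x).1 hx
    · intro hy
      refine ⟨(smShapiro2 𝓛 σ hH).symm y, ?_, LinearEquiv.apply_symm_apply _ y⟩
      apply (asms_mem_sha2_iff D H rep σ hrep hH _).2
      rw [LinearEquiv.apply_symm_apply]
      exact hy)

@[simp] theorem asmsSha1_coe (x : ↥(sha1 D (indRep H σ))) :
    ((asmsSha1 D H rep σ hrep hH x : ↥(sha1 (D.mackey H rep) σ)) : smH1 (𝓛.sub H) σ)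
      = smShapiro1 𝓛 σ hH (x : smH1 𝓛 (indRep H σ)) := rfl

@[simp] theorem asmsSha2_coe (x : ↥(sha2 D (indRep H σ))) :
    ((asmsSha2 D H rep σ hrep hH x : ↥(sha2 (D.mackey H rep) σ)) : smH2 (𝓛.sub H) σ)
      = smShapiro2 𝓛 σ hH (x : smH2 𝓛 (indRep H σ)) := rfl

include hrep hH in
/-- `b2f` -/
theorem asms_b2f (h : FiniteDimensional k ↥(sha1 (D.mackey H rep) σ)) :
    FiniteDimensional k ↥(sha1 D (indRep H σ)) :=
  LinearEquiv.finiteDimensional (asmsSha1 D H rep σ hrep hH).symm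

include hrep hH in
/-- `b2f2` -/
theorem asms_b2f2 (h : FiniteDimensional k ↥(sha2 (D.mackey H rep) σ)) :
    FiniteDimensional k ↥(sha2 D (indRep H σ)) :=
  LinearEquiv.finiteDimensional (asmsSha2 D H rep σ hrep hH).symm

include hrep hH in
/-- `b2` -/
theorem asms_b2
    (h : Module.finrank k ↥(sha2 (D.mackey H rep) σ) ≤ Module.finrank k ↥(sha1 (D.mackey H rep) σ)) :
    Module.finrank k ↥(sha2 D (indRep H σ)) ≤ Module.finrank k ↥(sha1 D (indRep H σ)) := by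
  rw [LinearEquiv.finrank_eq (asmsSha1 D H rep σ hrep hH),
    LinearEquiv.finrank_eq (asmsSha2 D H rep σ hrep hH)]
  exact h

end ShaTransport

end Fermat.Agent.S55
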