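/-
S55, package ASM, file `Asm/Main.lean`: ASM-MAIN `coreCrit_of_critTriv`.

`CritTriv` for the Mackey local system of every open `H ≤ ker χ` (with ANY functional `inv`) plus the
left non-degeneracy `hN` of `pair02` on the base pairs gives `CoreCrit D χ tr`.

Ingredients: `Asm/Lam.lean` (the functional `Λ` and the three formulas), `Asm/Abstract.lean`
(hyperplane step `Λ = c₀ • inv` and the pairing fields `c2 c3 a1 b1 b1'`), `Asm/ShaTransport.lean`
(the pairing-free fields `c1 b1f b2f b2f2 b2`).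
-/
import Fermat.Agent.S55.Asm.Defs
import Fermat.Agent.S55.Asm.Abstract
import Fermat.Agent.S55.Asm.Lam
import Fermat.Agent.S55.Asm.ShaTransport

set_option autoImplicit false
set_option maxSynthPendingDepth 3

namespace Fermat.Agent.S55

section Pairing

universe u

variable {k : Type u} [Field k] {G : Type u} [Group G] {𝓛 : Levels G}
  {ι : Type*} [Nonempty ι] {Γ : ι → Type*} [∀ v, Group (Γ v)] (D : LocSys 𝓛 ι Γ) (χ : G →* kˣ)
  (H : Subgroup G) {T : ι → Type*} (rep : ∀ v, T v → G) [∀ v, Fintype (T v)]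
  (hrep : ∀ v, IsDCReps (D.r v) H (rep v)) (hH : 𝓛.IsOpen H)
  (P : PairingData 𝓛 (indRep H (trivRep (k := k) H)) (indRep H (trivRep (k := k) H))
    (chiRep χ) (basePairing χ H))
  (tr : smHc3 D (chiRep χ) →ₗ[k] k)
  (inv : (∀ w : Σ v, T v, smH2 ((D.mackey H rep).lev w)
    ((D.mackey H rep).rep (trivRep (k := k) H) w)) →ₗ[k] k)
  (hC : CritTriv (D.mackey H rep) (trivRep (k := k) H) inv)
  (hN : ∀ b : ∀ v, ↥(smH0 (D.rep (indRep H (trivRep (k := k) H)) v)),
    (∀ c, pair02 D P tr b c = 0) → b = 0)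

omit [Nonempty ι] [∀ v, Fintype (T v)] in
/-- `loc 1 ≠ 0` in `P⁰(Ind_H^G k)` -/
theorem asm_locP0_baseOne_ne_zero [Nonempty ι] :
    locP0 D (ρ := indRep H (trivRep (k := k) H)) (baseOne H) ≠ 0 := by
  intro h
  obtain ⟨v⟩ := ‹Nonempty ι›
  have h1 := congrFun h v
  have h2 : ((locP0 D (ρ := indRep H (trivRep (k := k) H)) (baseOne H) v :
      ↥(smH0 (D.rep (indRep H (trivRep (k := k) H)) v))) :
        ↥(indSpace H (trivRep (k := k) H))).1 1 = (0 : k) := by
    rw [h1]; rfl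
  exact one_ne_zero h2

include hrep hH hC hN in
/-- `Λ ≠ 0` -/
theorem asm_lam_ne_zero : ∃ b, asmLam D χ H rep hrep hH P tr b ≠ 0 :=
  asma_lam_ne_zero D P tr (D.mackey H rep) hC.P
    (mackeyShapiroP0 D H rep (trivRep (k := k) H) hrep)
    (mackeyShapiroP2 D H rep (trivRep (k := k) H) hrep hH)
    (asmLam D χ H rep hrep hH P tr)
    (asm_pair02_eq D χ H rep hrep hH P hC.P tr) hN
    ⟨_, asm_locP0_baseOne_ne_zero D H⟩

include hrep hH hC hN in
/-- the hyperplane step: `Λ = c₀ • inv`, `c₀ ≠ 0` -/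
theorem asm_exists_lam_eq :
    ∃ c₀ : k, c₀ ≠ 0 ∧ asmLam D χ H rep hrep hH P tr = c₀ • inv :=
  asma_exists_smul D P tr (baseOne H) (D.mackey H rep) inv
    (smShapiro2 𝓛 (trivRep (k := k) H) hH)
    (mackeyShapiroP2 D H rep (trivRep (k := k) H) hrep hH)
    (asmLam D χ H rep hrep hH P tr) hC.c2
    (mackeyShapiroP2_locP2 D H rep (trivRep (k := k) H) hrep hH)
    (asm_pair20_eq D χ H rep hrep hH P tr)
    (asm_lam_ne_zero D χ H rep hrep hH P tr inv hC hN)

include hrep hH hC hN in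
theorem asm_field_c2 (b : ∀ v, smH2 (D.lev v) (D.rep (indRep H (trivRep (k := k) H)) v))
    (hb : pair20 D P tr b (locP0 D (ρ := indRep H (trivRep (k := k) H)) (baseOne H)) = 0) :
    ∃ x, locP2 D (ρ := indRep H (trivRep (k := k) H)) x = b := by
  obtain ⟨c₀, hc₀, hLam⟩ := asm_exists_lam_eq D χ H rep hrep hH P tr inv hC hN
  exact asma_c2 D P tr (baseOne H) (D.mackey H rep) inv
    (smShapiro2 𝓛 (trivRep (k := k) H) hH)
    (mackeyShapiroP2 D H rep (trivRep (k := k) H) hrep hH)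
    (asmLam D χ H rep hrep hH P tr) hc₀ hLam hC.c2
    (mackeyShapiroP2_locP2 D H rep (trivRep (k := k) H) hrep hH)
    (asm_pair20_eq D χ H rep hrep hH P tr) b hb

include hrep hH hC hN in
theorem asm_field_c3 :
    ∃ b : ∀ v, smH2 (D.lev v) (D.rep (indRep H (trivRep (k := k) H)) v),
      pair20 D P tr b (locP0 D (ρ := indRep H (trivRep (k := k) H)) (baseOne H)) ≠ 0 :=
  asma_c3 D P tr (baseOne H) (D.mackey H rep)
    (mackeyShapiroP2 D H rep (trivRep (k := k) H) hrep hH)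
    (asmLam D χ H rep hrep hH P tr)
    (asm_pair20_eq D χ H rep hrep hH P tr)
    (asm_lam_ne_zero D χ H rep hrep hH P tr inv hC hN)

include hrep hH hC hN in
theorem asm_field_a1 (c : ∀ v, smH2 (D.lev v) (D.rep (indRep H (trivRep (k := k) H)) v))
    (hc : ∀ b, pair02 D P tr b c = 0) : c = 0 := by
  obtain ⟨c₀, hc₀, hLam⟩ := asm_exists_lam_eq D χ H rep hrep hH P tr inv hC hN
  exact asma_a1 D P tr (D.mackey H rep) hC.P inv
    (mackeyShapiroP0 D H rep (trivRep (k := k) H) hrep)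
    (mackeyShapiroP2 D H rep (trivRep (k := k) H) hrep hH)
    (asmLam D χ H rep hrep hH P tr) hc₀ hLam (fun _ _ => rfl) hC.a1
    (asm_pair02_eq D χ H rep hrep hH P hC.P tr) c hc

include hrep hH hC hN in
theorem asm_field_b1 (b : ∀ v, smH1 (D.lev v) (D.rep (indRep H (trivRep (k := k) H)) v))
    (hb : ∀ y, pair11 D P tr b (locP1 D (ρ := indRep H (trivRep (k := k) H)) y) = 0) :
    ∃ x, locP1 D (ρ := indRep H (trivRep (k := k) H)) x = b := by
  obtain ⟨c₀, hc₀, hLam⟩ := asm_exists_lam_eq D χ H rep hrep hH P tr inv hC hN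
  exact asma_b1 D P tr (D.mackey H rep) hC.P inv
    (smShapiro1 𝓛 (trivRep (k := k) H) hH)
    (mackeyShapiroP1 D H rep (trivRep (k := k) H) hrep hH)
    (asmLam D χ H rep hrep hH P tr) hc₀ hLam (fun b' h => hC.b1 b' h)
    (mackeyShapiroP1_locP1 D H rep (trivRep (k := k) H) hrep hH)
    (asm_pair11_eq D χ H rep hrep hH P hC.P tr) b hb

include hrep hH hC hN in
theorem asm_field_b1' (c : ∀ v, smH1 (D.lev v) (D.rep (indRep H (trivRep (k := k) H)) v))
    (hc : ∀ b, pair11 D P tr b c = 0) : c = 0 := by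
  obtain ⟨c₀, hc₀, hLam⟩ := asm_exists_lam_eq D χ H rep hrep hH P tr inv hC hN
  exact asma_b1' D P tr (D.mackey H rep) hC.P inv
    (mackeyShapiroP1 D H rep (trivRep (k := k) H) hrep hH)
    (asmLam D χ H rep hrep hH P tr) hc₀ hLam (fun c' h => hC.b1' c' h)
    (asm_pair11_eq D χ H rep hrep hH P hC.P tr) c hc

end Pairing

section Main

universe u

variable {k : Type u} [Field k] [Finite k] {G : Type u} [Group G] {𝓛 : Levels G}
  {ι : Type*} [Finite ι] [Nonempty ι] {Γ : ι → Type*} [∀ v, Group (Γ v)] (D : LocSys 𝓛 ι Γ)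
  (χ : G →* kˣ)

set_option maxSynthPendingDepth 3 in
/-- ASM-MAIN. -/
theorem coreCrit_of_critTriv (hχ : ∃ U, 𝓛.IsLevel U ∧ U ≤ χ.ker)
    (tr : smHc3 D (chiRep χ) →ₗ[k] k)
    (hT : ∀ H : Subgroup G, 𝓛.IsOpen H → H ≤ χ.ker →
      ∃ T : ι → Finset G, IsDoubleCosetReps D H T ∧
        ∃ inv, CritTriv (locSysMackey D H T) (trivRep (k := k) H) inv)
    (hN : ∀ H : Subgroup G, 𝓛.IsOpen H → H ≤ χ.ker →
      ∀ P : PairingData 𝓛 (indRep H (trivRep (k := k) H)) (indRep H (trivRep (k := k) H))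
        (chiRep χ) (basePairing χ H),
      ∀ b : ∀ v, ↥(smH0 (D.rep (indRep H (trivRep (k := k) H)) v)),
        (∀ c, pair02 D P tr b c = 0) → b = 0) :
    CoreCrit D χ tr := by
  refine ⟨?_, ?_, ?_, ?_, ?_, ?_, ?_, ?_, ?_, ?_⟩
  · -- c1
    intro H hH hHχ x
    obtain ⟨T, hTT, inv, hC⟩ := hT H hH hHχ
    exact asms_c1 D H (trivRep (k := k) H) hH hC.c1 x
  · -- c2
    intro H hH hHχ P b hb
    obtain ⟨T, hTT, inv, hC⟩ := hT H hH hHχ
    exact asm_field_c2 D χ H (fun v (t : ↥(T v)) => (t : G)) (fun v => hTT.isDCReps v) hH P tr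
      inv hC (hN H hH hHχ P) b hb
  · -- c3
    intro H hH hHχ P
    obtain ⟨T, hTT, inv, hC⟩ := hT H hH hHχ
    exact asm_field_c3 D χ H (fun v (t : ↥(T v)) => (t : G)) (fun v => hTT.isDCReps v) hH P tr
      inv hC (hN H hH hHχ P)
  · -- a1
    intro H hH hHχ P c hc
    obtain ⟨T, hTT, inv, hC⟩ := hT H hH hHχ
    exact asm_field_a1 D χ H (fun v (t : ↥(T v)) => (t : G)) (fun v => hTT.isDCReps v) hH P tr
      inv hC (hN H hH hHχ P) c hc
  · -- b1
    intro H hH hHχ P b hb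
    obtain ⟨T, hTT, inv, hC⟩ := hT H hH hHχ
    exact asm_field_b1 D χ H (fun v (t : ↥(T v)) => (t : G)) (fun v => hTT.isDCReps v) hH P tr
      inv hC (hN H hH hHχ P) b hb
  · -- b1f
    intro H hH hHχ
    obtain ⟨T, hTT, inv, hC⟩ := hT H hH hHχ
    exact asms_b1f D H (fun v (t : ↥(T v)) => (t : G)) (trivRep (k := k) H)
      (fun v => hTT.isDCReps v) hH hC.b1f
  · -- b1'
    intro H hH hHχ P c hc
    obtain ⟨T, hTT, inv, hC⟩ := hT H hH hHχ
    exact asm_field_b1' D χ H (fun v (t : ↥(T v)) => (t : G)) (fun v => hTT.isDCReps v) hH P tr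
      inv hC (hN H hH hHχ P) c hc
  · -- b2f
    intro H hH hHχ
    obtain ⟨T, hTT, inv, hC⟩ := hT H hH hHχ
    exact asms_b2f D H (fun v (t : ↥(T v)) => (t : G)) (trivRep (k := k) H)
      (fun v => hTT.isDCReps v) hH hC.b2f
  · -- b2f2
    intro H hH hHχ
    obtain ⟨T, hTT, inv, hC⟩ := hT H hH hHχ
    exact asms_b2f2 D H (fun v (t : ↥(T v)) => (t : G)) (trivRep (k := k) H)
      (fun v => hTT.isDCReps v) hH hC.b2f2
  · -- b2
    intro H hH hHχ
    obtain ⟨T, hTT, inv, hC⟩ := hT H hH hHχ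
    exact asms_b2 D H (fun v (t : ↥(T v)) => (t : G)) (trivRep (k := k) H)
      (fun v => hTT.isDCReps v) hH hC.b2

end Main

end Fermat.Agent.S55
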