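import Fermat.Agent.S55.Asm.TrivDefs
import Fermat.Agent.S55.SB.AsTr

/-!
# S55, package ASM, leaf AS-rec (row 333): RECIPROCITY over `ℚ`

`asm_reciprocity` (statement verbatim from `Asm/TrivSpec.lean`): the functional
`asmInvQ p S = Σ_{v ∈ S} inv_v` kills the global classes.  This is `sbtr_hrec` (`SB/AsTr.lean`,
row 327) for `ζ₀ = asmZeta p`: the local functional `asmInvQAt p S v` of `Asm/TrivDefs.lean` is
`sbtrInvS p S (asmZeta p) v` (`lbInv` on the subgroup `⊤` after restriction to `⊤`; the two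
definitions only differ in the way the level structures are transported).

Auxiliary names have the prefix `asmrec`.
-/

set_option autoImplicit false
set_option linter.style.haveILetI false
set_option linter.unusedSectionVars false

namespace Fermat.Agent.S55

open ExtCitation

section Bridge

variable (q : ℕ) [Fact q.Prime] (p : ℕ) [Fact p.Prime] (ζ : PadicAlgCl q)

/-- `sbtrInvLev` in the shape of `asmInvQAt` -/
theorem asmrec_sbtrInvLev_eq (𝓛 : Levels (lbGal q)) (h𝓛 : 𝓛 = lbLevels q)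
    (h𝓛' : (𝓛.sub (⊤ : Subgroup (lbGal q)) : Levels ↥(⊤ : Subgroup (lbGal q))) =
      (lbLevels q).sub (⊤ : Subgroup (lbGal q)))
    (ρ : Representation (ZMod p) (lbGal q) (ZMod p)) :
    sbtrInvLev q p ζ 𝓛 h𝓛 ρ =
      ((lbInv q p ζ (⊤ : Subgroup (lbGal q)) (ρ.comp (⊤ : Subgroup (lbGal q)).subtype)).comp
        (smH2congr h𝓛' (ρ.comp (⊤ : Subgroup (lbGal q)).subtype)).toLinearMap).comp
      (smH2res ρ (Levels.continuous_comap 𝓛 (⊤ : Subgroup (lbGal q)).subtype)) := by
  subst h𝓛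
  rfl

end Bridge

section Rec

variable {p : ℕ} [Fact p.Prime]

/-- the local functional of `Asm/TrivDefs.lean` is the one of `SB/AsTr.lean` -/
theorem asmrec_asmInvQAt_eq (S : Finset Nat.Primes) (v : ↥S) :
    asmInvQAt p S v = sbtrInvS p S (asmZeta p) v :=
  haveI : Fact ((v.1 : Nat.Primes) : ℕ).Prime := ⟨v.1.2⟩
  (asmrec_sbtrInvLev_eq ((v.1 : Nat.Primes) : ℕ) p
    (padicEmbedding ((v.1 : Nat.Primes) : ℕ) (asmZeta p)) ((locSysS S).lev v)
    (lg_locSysS_lev S v) (asm_lev_top_eq S v)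
    ((chiRep (cycloChar p)).comp (localGaloisToGlobal ((v.1 : Nat.Primes) : ℕ)))).symm

/-- LEAF AS-rec: RECIPROCITY over `ℚ`: `Σ_{v ∈ S} inv_v (loc_v x) = 0` for `x ∈ H²(G_S, μ_p)`. -/
theorem asm_reciprocity (hp2 : p ≠ 2) (S : Finset Nat.Primes) (hpS : pPrime p ∈ S) :
    ∀ x : smH2 (levelsS S) (chiRep (cycloChar p)),
    asmInvQ p S (locP2 (locSysS S) (ρ := chiRep (cycloChar p)) x) = 0 := by
  intro x
  rw [asmInvQ_apply]
  simp only [asmrec_asmInvQAt_eq]
  exact sbtr_hrec hp2 S hpS (asmZeta p) (asmZeta_spec p) x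

end Rec

end Fermat.Agent.S55
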