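import Fermat.Agent.S55.Asm.Defs

/-!
# S55, package ASM: existence of double coset representatives (sorry-free).

`exists_isDoubleCosetReps`: for an open subgroup `H` there is a family `T v` of finite sets of
representatives of the double cosets `H \ G / r_v (Γ v)`.
-/

set_option autoImplicit false

namespace Fermat.Agent.S55

section Reps

variable {G : Type*} [Group G] {𝓛 : Levels G}
  {ι : Type*} {Γ : ι → Type*} [∀ v, Group (Γ v)] (D : LocSys 𝓛 ι Γ) (H : Subgroup G)

/-- the double coset relation `g' ∈ H g r_v(Γ v)` -/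
def asmDosetRel (v : ι) (g g' : G) : Prop := ∃ h ∈ H, ∃ γ : Γ v, g' = h * g * D.r v γ

theorem asmDosetRel_refl (v : ι) (g : G) : asmDosetRel D H v g g :=
  ⟨1, H.one_mem, 1, by simp⟩

theorem asmDosetRel_symm {v : ι} {g g' : G} (h : asmDosetRel D H v g g') :
    asmDosetRel D H v g' g := by
  obtain ⟨h, hh, γ, rfl⟩ := h
  exact ⟨h⁻¹, H.inv_mem hh, γ⁻¹, by simp [mul_assoc]⟩

theorem asmDosetRel_trans {v : ι} {g g' g'' : G} (h : asmDosetRel D H v g g')
    (h' : asmDosetRel D H v g' g'') : asmDosetRel D H v g g'' := by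
  obtain ⟨h, hh, γ, rfl⟩ := h
  obtain ⟨h', hh', γ', rfl⟩ := h'
  exact ⟨h' * h, H.mul_mem hh' hh, γ * γ', by simp [mul_assoc]⟩

/-- the double coset setoid -/
def asmDosetSetoid (v : ι) : Setoid G where
  r := asmDosetRel D H v
  iseqv := ⟨asmDosetRel_refl D H v, asmDosetRel_symm D H, asmDosetRel_trans D H⟩

theorem asm_finite_doset (hH : 𝓛.IsOpen H) (v : ι) : Finite (Quotient (asmDosetSetoid D H v)) := by
  obtain ⟨U, hU, hUH⟩ := hH
  obtain ⟨N, hN, hNn, hNU⟩ := 𝓛.exists_normal_le U hU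
  have := hNn
  have : N.FiniteIndex := 𝓛.finiteIndex N hN
  have : Finite (G ⧸ N) := Subgroup.finite_quotient_of_finiteIndex
  let f : G ⧸ N → Quotient (asmDosetSetoid D H v) :=
    Quotient.lift (s := QuotientGroup.leftRel N) (fun g => Quotient.mk (asmDosetSetoid D H v) g)
      (by
        intro a b hab
        apply Quotient.sound
        have h1 : a⁻¹ * b ∈ N := QuotientGroup.leftRel_apply.1 hab
        have h2 : a * (a⁻¹ * b) * a⁻¹ ∈ N := hNn.conj_mem _ h1 a
        refine ⟨a * (a⁻¹ * b) * a⁻¹, hUH (hNU h2), 1, ?_⟩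
        simp [mul_assoc])
  refine Finite.of_surjective f ?_
  intro x
  induction x using Quotient.inductionOn with
  | h g => exact ⟨QuotientGroup.mk g, rfl⟩

/-- EXISTENCE OF DOUBLE COSET REPRESENTATIVES for an open subgroup. -/
theorem exists_isDoubleCosetReps (hH : 𝓛.IsOpen H) :
    ∃ T : ι → Finset G, IsDoubleCosetReps D H T := by
  classical
  have hfin : ∀ v, Finite (Quotient (asmDosetSetoid D H v)) := asm_finite_doset D H hH
  have ft : ∀ v, Fintype (Quotient (asmDosetSetoid D H v)) := fun v => Fintype.ofFinite _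
  refine ⟨fun v => (@Finset.univ _ (ft v)).image (fun x => x.out), ?_⟩
  intro v g
  refine ⟨(Quotient.mk (asmDosetSetoid D H v) g).out, ⟨?_, ?_⟩, ?_⟩
  · exact Finset.mem_image.2 ⟨_, @Finset.mem_univ _ (ft v) _, rfl⟩
  · have h1 : asmDosetRel D H v (Quotient.mk (asmDosetSetoid D H v) g).out g :=
      Quotient.exact (s := asmDosetSetoid D H v) (Quotient.out_eq _)
    obtain ⟨h, hh, γ, hg⟩ := h1
    exact ⟨h, hh, γ, hg⟩
  · rintro t ⟨ht, h, hh, γ, hg⟩
    obtain ⟨x, _, rfl⟩ := Finset.mem_image.1 ht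
    have h1 : Quotient.mk (asmDosetSetoid D H v) x.out = Quotient.mk (asmDosetSetoid D H v) g :=
      Quotient.sound (s := asmDosetSetoid D H v) ⟨h, hh, γ, hg⟩
    rw [Quotient.out_eq] at h1
    rw [h1]

end Reps

end Fermat.Agent.S55
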