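/-
S55 / ASM, sub-leaf of AS-b2 (row 332): `Asm/Sha2Smooth.lean`.  THE SHA² HALF of the field `b2` of
`CritTriv`: `asm_sha2_dependent` — any `m` classes of `Ш²(H, 𝔽_p)` (`H = E.fixingSubgroup`,
`ζ_p ∈ E`) with `p^m > [Cl_T(E) : p Cl_T(E) + ⟨T⟩]` are linearly dependent.

Route: representatives, ONE common `S`-layer `M/E` (`sb_exists_factor₂` on the `Fin m → ZMod p`
valued cochain), local triviality of the multiplicative forms `ζ^(c i)` at EVERY prime `q` and every
embedding `j` of `M`: for `q ∈ S` from `Ш²`-membership via helper2's glue `lgqm_geInv_eq_res` +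
`lgqm_place_surj` + independence of the embedding `geInv_eq_of_lgPlace_eq`; for `q ∉ S` from
unramified-units vanishing; then `sb_sha2_layer` (SB-KG2) and back to `smB2`.
Helper names are prefixed `asms2_`.
-/
import Fermat.Agent.S55.Asm.Spec
import Fermat.Agent.S55.LG.QbarMackey
import Fermat.Agent.S55.SB.Sha2Layer
import Fermat.Agent.S55.SB.Root
import Fermat.Agent.S55.Global.Recip.IndepSpec
import Fermat.Agent.S55.Global.Recip.SupportSpec
import Fermat.Agent.S55.Global.UnramLoc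
import Fermat.Agent.S55.Top.Final

set_option autoImplicit false
set_option linter.style.haveILetI false
set_option linter.unusedSectionVars false
set_option linter.unusedVariables false

namespace Fermat.Agent.S55

open scoped NumberField
open NumberField IsDedekindDomain ExtCitation

section Generic

variable {G : Type*} [Group G] (𝓛 : Levels G)

/-- finitely many levels contain a common level -/
theorem asms2_exists_level_le {m : ℕ} (U : Fin m → Subgroup G) (hU : ∀ i, 𝓛.IsLevel (U i)) :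
    ∃ W, 𝓛.IsLevel W ∧ ∀ i, W ≤ U i := by
  induction m with
  | zero =>
    obtain ⟨W, hW⟩ := 𝓛.exists_level
    exact ⟨W, hW, fun i => i.elim0⟩
  | succ m ih =>
    obtain ⟨W, hW, hle⟩ := ih (fun i => U i.succ) (fun i => hU i.succ)
    obtain ⟨W', hW', hle'⟩ := 𝓛.exists_le_inf W (U 0) hW (hU 0)
    refine ⟨W', hW', fun i => ?_⟩
    refine Fin.cases ?_ (fun i => ?_) i
    · exact hle'.trans inf_le_right
    · exact (hle'.trans inf_le_left).trans (hle i)

/-- a finite family of level-constant `2`-cochains is a level-constant family-valued cochain -/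
theorem asms2_isLC₂_pi {m : ℕ} {X : Type*} (f : Fin m → G × G → X) (hf : ∀ i, IsLC₂ 𝓛 (f i)) :
    IsLC₂ 𝓛 (fun s => fun i => f i s) := by
  choose U hU hfU using hf
  obtain ⟨W, hW, hle⟩ := asms2_exists_level_le 𝓛 U hU
  exact ⟨W, hW, fun g g' s s' hs hs' => funext fun i => hfU i g g' s s' (hle i hs) (hle i hs')⟩

/-- LINEAR ALGEBRA: if any `m` vectors are linearly dependent, the space is finite-dimensional of
dimension `< m`. -/
theorem asms2_finrank_lt {k V : Type*} [Field k] [AddCommGroup V] [Module k V] (m : ℕ)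
    (h : ∀ x : Fin m → V, ∃ n : Fin m → k, n ≠ 0 ∧ ∑ i, n i • x i = 0) :
    FiniteDimensional k V ∧ Module.finrank k V < m := by
  classical
  cases m with
  | zero =>
    obtain ⟨n, hn, -⟩ := h (fun i => i.elim0)
    exact absurd (Subsingleton.elim n 0) hn
  | succ m =>
    have hrank : Module.rank k V ≤ (m : Cardinal) := by
      apply rank_le
      intro s li
      by_contra hcon
      rw [not_le] at hcon
      obtain ⟨t, hts, htc⟩ := Finset.exists_subset_card_eq (Nat.succ_le_of_lt hcon)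
      have li' : LinearIndependent k (fun i : t => (i : V)) :=
        li.comp (fun i : t => (⟨i.1, hts i.2⟩ : s)) (fun a b hab => Subtype.ext (by
          have := congrArg (fun c : s => (c : V)) hab
          exact this))
      let e : Fin (m + 1) ≃ t := (t.equivFinOfCardEq htc).symm
      have li'' : LinearIndependent k (fun i : Fin (m + 1) => ((e i : t) : V)) :=
        li'.comp e e.injective
      obtain ⟨n, hn, hsum⟩ := h (fun i => ((e i : t) : V))
      exact hn (funext fun i => Fintype.linearIndependent_iff.1 li'' n hsum i)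
    have hfin : FiniteDimensional k V :=
      Module.rank_lt_aleph0_iff.1 (lt_of_le_of_lt hrank (Cardinal.natCast_lt_aleph0))
    exact ⟨hfin, Nat.lt_succ_of_le (Module.finrank_le_of_rank_le hrank)⟩

end Generic

section GenericInv

variable {p : ℕ} [Fact p.Prime]

/-- bookkeeping: the invariant attached to the zero class is `0` -/
theorem asms2_aux {A : Type*} [AddCommGroup A] [Module (ZMod p) A] (f : A →ₗ[ZMod p] ZMod p)
    (x : A) (r : AddCircle (1 : ℚ))
    (hr : r = (((((f x).val : ℕ) : ℚ) / (p : ℚ) : ℚ) : AddCircle (1 : ℚ))) (hx : x = 0) :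
    r = 0 := by
  rw [hr, hx, map_zero, ZMod.val_zero, Nat.cast_zero, zero_div]
  rfl

/-- roots of unity have norm one at every `q`-adic embedding -/
theorem asms2_norm_eq_one {F : Type} [Field F] (q : ℕ) [Fact q.Prime] (j : F →+* PadicAlgCl q)
    {n : ℕ} (hn : n ≠ 0) (x : Fˣ) (hx : x ^ n = 1) : ‖j ((x : Fˣ) : F)‖ = 1 := by
  have h1 : (j ((x : Fˣ) : F)) ^ n = 1 := by
    rw [← map_pow, ← Units.val_pow_eq_pow_val, hx, Units.val_one, map_one]
  have h2 : ‖j ((x : Fˣ) : F)‖ ^ n = 1 := by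
    rw [← norm_pow, h1, norm_one]
  exact (pow_eq_one_iff_of_nonneg (norm_nonneg _) hn).1 h2

variable {K F : Type} [Field K] [NumberField K] [Field F] [NumberField F] [Algebra K F]
  [IsGalois K F]

/-- vanishing of the invariant of `ζ^c'` transfers between embeddings over the same place -/
theorem asms2_geInv_transfer {ζ : Kˣ} (hζ : IsPrimitiveRoot ζ p)
    (c' : (F ≃ₐ[K] F) × (F ≃ₐ[K] F) → ZMod p)
    (hc' : dd2 (1 : Representation (ZMod p) (F ≃ₐ[K] F) (ZMod p)) c' = 0)
    (q : ℕ) [Fact q.Prime] (j j' : F →+* PadicAlgCl q)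
    (hpl : lgPlace q (j.comp (algebraMap K F)) = lgPlace q (j'.comp (algebraMap K F)))
    (hj' : geInv q j' (sbMul₂ (Units.map (algebraMap K F : K →* F) ζ) c') = 0) :
    geInv q j (sbMul₂ (Units.map (algebraMap K F : K →* F) ζ) c') = 0 := by
  rw [geInv_eq_of_lgPlace_eq q j j' hpl (sbs2_isMulCocycle₂_of_dd2 hζ c' hc')]
  exact hj'

/-- the invariant of `ζ^c'` vanishes at unramified embeddings -/
theorem asms2_geInv_unram {ζ : Kˣ} (hζ : IsPrimitiveRoot ζ p)
    (c' : (F ≃ₐ[K] F) × (F ≃ₐ[K] F) → ZMod p)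
    (hc' : dd2 (1 : Representation (ZMod p) (F ≃ₐ[K] F) (ZMod p)) c' = 0)
    (q : ℕ) [Fact q.Prime] (j : F →+* PadicAlgCl q)
    (hur : LfUnramified q (lgField q (j.comp (algebraMap K F))) (lgField q j)) :
    geInv q j (sbMul₂ (Units.map (algebraMap K F : K →* F) ζ) c') = 0 :=
  geInv_eq_zero_of_unramified_of_units q j hur _ (sbs2_isMulCocycle₂_of_dd2 hζ c' hc')
    (fun s => asms2_norm_eq_one q j (Fact.out : p.Prime).ne_zero _
      (sbs2_glMuValued_sbMul₂ hζ c' s))

end GenericInv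

section Loc

variable {p : ℕ} [Fact p.Prime] (S : Finset Nat.Primes)
  {E M : IntermediateField ℚ (AlgebraicClosure ℚ)}

/-- the cocycle condition descends from the pulled back cochain to the layer -/
theorem asms2_dd2_of_pullback (h : E ≤ M) (hg : letI := sbAlgebra h; IsGalois ↥E ↥M)
    (c' : (letI := sbAlgebra h; (↥M ≃ₐ[↥E] ↥M) × (↥M ≃ₐ[↥E] ↥M)) → ZMod p)
    (hc : dd2 (1 : Representation (ZMod p) ↥E.fixingSubgroup (ZMod p))
      (fun s => c' (sbRes h hg.to_normal s.1, sbRes h hg.to_normal s.2)) = 0) :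
    letI := sbAlgebra h
    dd2 (1 : Representation (ZMod p) (↥M ≃ₐ[↥E] ↥M) (ZMod p)) c' = 0 := by
  letI := sbAlgebra h
  funext ⟨a₁, a₂, a₃⟩
  obtain ⟨g₁, rfl⟩ := sbRes_surjective h hg.to_normal a₁
  obtain ⟨g₂, rfl⟩ := sbRes_surjective h hg.to_normal a₂
  obtain ⟨g₃, rfl⟩ := sbRes_surjective h hg.to_normal a₃
  have h1 := congrFun hc (g₁, g₂, g₃)
  simp only [dd2_apply, MonoidHom.one_apply, Module.End.one_apply, Pi.zero_apply, map_mul]
    at h1 ⊢
  exact h1

/-- LOCAL TRIVIALITY EVERYWHERE: for a class of `Ш²` represented on the layer `M/E` by `c'`, the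
multiplicative form `ζ^c'` has invariant `0` at every prime `q` and every embedding of `M`. -/
theorem asms2_geInv_eq_zero (h : E ≤ M) (hM : M.IsUnramifiedOutside S)
    (hg : letI := sbAlgebra h; IsGalois ↥E ↥M)
    {ζ : AlgebraicClosure ℚ} (hζ : IsPrimitiveRoot ζ p) (hζE : ζ ∈ E)
    (T : ↥S → Finset GQ) (hT : IsDoubleCosetReps (locSysS S) E.fixingSubgroup T)
    (c' : (letI := sbAlgebra h; (↥M ≃ₐ[↥E] ↥M) × (↥M ≃ₐ[↥E] ↥M)) → ZMod p)
    (hcg : (fun s : ↥E.fixingSubgroup × ↥E.fixingSubgroup =>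
        c' (sbRes h hg.to_normal s.1, sbRes h hg.to_normal s.2)) ∈
      smZ2 ((levelsS S).sub E.fixingSubgroup) (trivRep (k := ZMod p) E.fixingSubgroup))
    (hsha : smH2π ((levelsS S).sub E.fixingSubgroup) (trivRep (k := ZMod p) E.fixingSubgroup)
        ⟨_, hcg⟩ ∈
      sha2 (locSysMackey (locSysS S) E.fixingSubgroup T)
        (trivRep (k := ZMod p) E.fixingSubgroup))
    (q : ℕ) [Fact q.Prime] (j : ↥M →+* PadicAlgCl q) :
    letI := sbAlgebra h
    haveI := sb_numberField hM.1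
    haveI := sb_numberField (hM.of_le h).1
    geInv (K := ↥E) q j (sbMul₂ (Units.mk0 (⟨ζ, h hζE⟩ : ↥M)
      (fun h0 => hζ.ne_zero (Fact.out : p.Prime).ne_zero (congrArg Subtype.val h0))) c') = 0 := by
  letI := sbAlgebra h
  haveI := hg
  haveI hnfM : NumberField ↥M := sb_numberField hM.1
  haveI hnfE : NumberField ↥E := sb_numberField (hM.of_le h).1
  have h0 : ζ ≠ 0 := hζ.ne_zero (Fact.out : p.Prime).ne_zero
  let ζE : (↥E)ˣ := Units.mk0 ⟨ζ, hζE⟩ (fun h' => h0 (congrArg Subtype.val h'))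
  have hζE' : IsPrimitiveRoot ζE p := by
    apply IsPrimitiveRoot.coe_units_iff.1
    exact IsPrimitiveRoot.of_map_of_injective (f := E.val) (by exact hζ) E.val.injective
  have hroot : (Units.mk0 (⟨ζ, h hζE⟩ : ↥M)
      (fun h0' => h0 (congrArg Subtype.val h0')) : (↥M)ˣ) =
      Units.map (algebraMap ↥E ↥M : ↥E →* ↥M) ζE := Units.ext rfl
  have hc' : dd2 (1 : Representation (ZMod p) (↥M ≃ₐ[↥E] ↥M) (ZMod p)) c' = 0 :=
    asms2_dd2_of_pullback h hg c' ((mem_smZ2 _ _ _).1 hcg).1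
  by_cases hq : ∃ s ∈ S, ((s : Nat.Primes) : ℕ) = q
  · -- `q ∈ S`: glue + independence of the embedding
    obtain ⟨s, hs, rfl⟩ := hq
    have hu : (((s : Nat.Primes) : ℕ) : 𝓞 ↥E) ∈
        (lgPlace ((s : Nat.Primes) : ℕ) (j.comp (algebraMap ↥E ↥M))).asIdeal :=
      natCast_mem_lgIdeal _ _
    obtain ⟨t, ht, hpl⟩ := lgqm_place_surj hT ⟨s, hs⟩ _ hu
    have key := lgqm_geInv_eq_res S ⟨s, hs⟩ p h hg t (Units.mk0 (⟨ζ, h hζE⟩ : ↥M)
      (fun h0' => h0 (congrArg Subtype.val h0'))) hζ hζE c' hcg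
      ((locSysMackey (locSysS S) E.fixingSubgroup T).cont ⟨⟨s, hs⟩, ⟨t, ht⟩⟩)
    have hres : smH2res (trivRep (k := ZMod p) E.fixingSubgroup)
        ((locSysMackey (locSysS S) E.fixingSubgroup T).cont ⟨⟨s, hs⟩, ⟨t, ht⟩⟩)
        (smH2π ((levelsS S).sub E.fixingSubgroup) (trivRep (k := ZMod p) E.fixingSubgroup)
          ⟨_, hcg⟩) = 0 := by
      have h1 := LinearMap.mem_ker.1 hsha
      exact congrFun h1 ⟨⟨s, hs⟩, ⟨t, ht⟩⟩
    have key' := asms2_aux _ _ _ key hres
    rw [hroot] at key' ⊢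
    exact asms2_geInv_transfer hζE' c' hc' _ j (lgqmEmb ((s : Nat.Primes) : ℕ) M t) hpl.symm key'
  · -- `q ∉ S`: unramified, unit-valued
    have hq' : ∀ s ∈ S, ((s : Nat.Primes) : ℕ) ≠ q := fun s hs hsq => hq ⟨s, hs, hsq⟩
    have hur := gl_lfUnramified_of_unramOutside S (sb_glUnramOutside S h hM) q hq' j
    rw [hroot]
    exact asms2_geInv_unram hζE' c' hc' q j hur

end Loc

section Main

variable {p : ℕ} [Fact p.Prime]

/-- **SHA² HALF OF `b2`.**  `H = E.fixingSubgroup` open for `levelsS S`, `H ≤ ker χ_p`: any `m`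
classes of `Ш²(H, 𝔽_p)` with `[Cl_T(E) : p Cl_T(E) + ⟨T⟩] < p^m` are linearly dependent. -/
theorem asm_sha2_dependent (hp2 : p ≠ 2) (S : Finset Nat.Primes) (hpS : pPrime p ∈ S)
    (E : IntermediateField ℚ (AlgebraicClosure ℚ)) [NumberField ↥E]
    (hE : E.IsUnramifiedOutside S) (hHχ : E.fixingSubgroup ≤ (cycloChar p).ker)
    (T : ↥S → Finset GQ) (hT : IsDoubleCosetReps (locSysS S) E.fixingSubgroup T) {m : ℕ}
    (x : Fin m → ↥(sha2 (locSysMackey (locSysS S) E.fixingSubgroup T)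
      (trivRep (k := ZMod p) E.fixingSubgroup)))
    (hm : (gkClSub ↥E (gkT S ↥E : Set (HeightOneSpectrum (𝓞 ↥E))) p).index < p ^ m) :
    ∃ n : Fin m → ZMod p, n ≠ 0 ∧ ∑ i, n i • x i = 0 := by
  obtain ⟨ζ, hζ⟩ := Fermat.Agent.S14.plumb_exists_primitiveRoot p
  have hζE : ζ ∈ E := sb_root_mem hHχ hζ.pow_eq_one
  -- representatives
  have hrep : ∀ i, ∃ z : ↥(smZ2 ((levelsS S).sub E.fixingSubgroup)
      (trivRep (k := ZMod p) E.fixingSubgroup)),
      smH2π ((levelsS S).sub E.fixingSubgroup) (trivRep (k := ZMod p) E.fixingSubgroup) z =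
        ((x i : ↥(sha2 (locSysMackey (locSysS S) E.fixingSubgroup T)
          (trivRep (k := ZMod p) E.fixingSubgroup))) :
          smH2 ((levelsS S).sub E.fixingSubgroup) (trivRep (k := ZMod p) E.fixingSubgroup)) :=
    fun i => Submodule.Quotient.mk_surjective _ _
  choose z hz using hrep
  -- one common layer
  have hLC : IsLC₂ ((levelsS S).sub E.fixingSubgroup)
      (fun s => fun i => (z i : ↥E.fixingSubgroup × ↥E.fixingSubgroup → ZMod p) s) :=
    asms2_isLC₂_pi _ (fun i => (z i : ↥E.fixingSubgroup × ↥E.fixingSubgroup → ZMod p))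
      (fun i => ((mem_smZ2 _ _ _).1 (z i).2).2)
  obtain ⟨M, h, -, hM, -, hg, f', hff'⟩ :=
    sb_exists_factor₂ S E hE _ hLC ⊥ (IntermediateField.isUnramifiedOutside_bot S)
  letI := sbAlgebra h
  have heq : ∀ i, (z i : ↥E.fixingSubgroup × ↥E.fixingSubgroup → ZMod p) =
      fun s => f' (sbRes h hg.to_normal s.1, sbRes h hg.to_normal s.2) i :=
    fun i => funext fun s => congrFun (hff' s) i
  have hcg : ∀ i, (fun s : ↥E.fixingSubgroup × ↥E.fixingSubgroup =>
        f' (sbRes h hg.to_normal s.1, sbRes h hg.to_normal s.2) i) ∈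
      smZ2 ((levelsS S).sub E.fixingSubgroup) (trivRep (k := ZMod p) E.fixingSubgroup) := by
    intro i
    rw [← heq i]
    exact (z i).2
  have hzi : ∀ i, z i = ⟨_, hcg i⟩ := fun i => Subtype.ext (heq i)
  have hsha : ∀ i, smH2π ((levelsS S).sub E.fixingSubgroup)
      (trivRep (k := ZMod p) E.fixingSubgroup) ⟨_, hcg i⟩ ∈
      sha2 (locSysMackey (locSysS S) E.fixingSubgroup T)
        (trivRep (k := ZMod p) E.fixingSubgroup) := by
    intro i
    rw [← hzi i, hz i]
    exact (x i).2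
  have hc : ∀ i, dd2 (1 : Representation (ZMod p) (↥M ≃ₐ[↥E] ↥M) (ZMod p))
      (fun s => f' s i) = 0 :=
    fun i => asms2_dd2_of_pullback h hg (fun s => f' s i) ((mem_smZ2 _ _ _).1 (hcg i)).1
  -- U5d in layer form
  obtain ⟨n, hn, M', hMM', hM', hg', e, he⟩ :=
    sb_sha2_layer S hp2 ⟨pPrime p, hpS, rfl⟩ h hM hg hζ hζE (fun i s => f' s i) hc
      (fun i q _ j => asms2_geInv_eq_zero S h hM hg hζ hζE T hT (fun s => f' s i) (hcg i)
        (hsha i) q j) hm
  refine ⟨n, hn, ?_⟩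
  apply Subtype.ext
  rw [Submodule.coe_sum, Submodule.coe_zero]
  simp only [Submodule.coe_smul, ← hz, ← map_smul, ← map_sum]
  rw [smH2π_eq_zero_iff, mem_smB2]
  refine ⟨fun σ => e (sbRes (h.trans hMM') hg'.to_normal σ),
    sb_isLC₁_sbRes S hM' (h.trans hMM') hg'.to_normal e, ?_⟩
  funext ⟨g₁, g₂⟩
  have h1 := congrFun he (sbRes (h.trans hMM') hg'.to_normal g₁,
    sbRes (h.trans hMM') hg'.to_normal g₂)
  have h2 := restrictNormalHom_sbRes h hMM' hg.to_normal hg'.to_normal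
  simp only [dd1_apply, MonoidHom.one_apply, Module.End.one_apply, map_mul] at h1 ⊢
  rw [h1, h2 g₁, h2 g₂]
  simp only [Submodule.coe_sum, Submodule.coe_smul, Finset.sum_apply, Pi.smul_apply, smul_eq_mul]
  refine Finset.sum_congr rfl (fun i _ => ?_)
  rw [heq i]

/-- **`b2f2`** for `H = E.fixingSubgroup`: `Ш²(H, 𝔽_p)` is finite-dimensional. -/
theorem asm_sha2_finiteDimensional (hp2 : p ≠ 2) (S : Finset Nat.Primes) (hpS : pPrime p ∈ S)
    (E : IntermediateField ℚ (AlgebraicClosure ℚ)) [NumberField ↥E]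
    (hE : E.IsUnramifiedOutside S) (hHχ : E.fixingSubgroup ≤ (cycloChar p).ker)
    (T : ↥S → Finset GQ) (hT : IsDoubleCosetReps (locSysS S) E.fixingSubgroup T) :
    FiniteDimensional (ZMod p) ↥(sha2 (locSysMackey (locSysS S) E.fixingSubgroup T)
      (trivRep (k := ZMod p) E.fixingSubgroup)) :=
  (asms2_finrank_lt _ (fun x => asm_sha2_dependent hp2 S hpS E hE hHχ T hT x
    (Nat.lt_pow_self (Fact.out : p.Prime).one_lt))).1

/-- **THE INEQUALITY BEHIND `b2`**: `p ^ dim Ш²(H, 𝔽_p) ≤ [Cl_T(E) : p Cl_T(E) + ⟨T⟩]`. -/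
theorem asm_sha2_pow_finrank_le (hp2 : p ≠ 2) (S : Finset Nat.Primes) (hpS : pPrime p ∈ S)
    (E : IntermediateField ℚ (AlgebraicClosure ℚ)) [NumberField ↥E]
    (hE : E.IsUnramifiedOutside S) (hHχ : E.fixingSubgroup ≤ (cycloChar p).ker)
    (T : ↥S → Finset GQ) (hT : IsDoubleCosetReps (locSysS S) E.fixingSubgroup T) :
    p ^ Module.finrank (ZMod p) ↥(sha2 (locSysMackey (locSysS S) E.fixingSubgroup T)
      (trivRep (k := ZMod p) E.fixingSubgroup)) ≤
      (gkClSub ↥E (gkT S ↥E : Set (HeightOneSpectrum (𝓞 ↥E))) p).index := by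
  by_contra hlt
  rw [not_le] at hlt
  exact lt_irrefl _ (asms2_finrank_lt _ (fun x => asm_sha2_dependent hp2 S hpS E hE hHχ T hT x
    hlt)).2

/-- `b2f2` in the shape of `Asm/TrivSpec.lean` (arbitrary open `H ≤ ker χ_p`). -/
theorem asm_sha2_finiteDimensional_of_isOpen (hp2 : p ≠ 2) (S : Finset Nat.Primes)
    (hpS : pPrime p ∈ S) (H : Subgroup GQ) (hH : (levelsS S).IsOpen H)
    (hHχ : H ≤ (cycloChar p).ker) (T : ↥S → Finset GQ)
    (hT : IsDoubleCosetReps (locSysS S) H T) :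
    FiniteDimensional (ZMod p) ↥(sha2 (locSysMackey (locSysS S) H T)
      (trivRep (k := ZMod p) H)) := by
  obtain ⟨E, hE, rfl⟩ := (sb_isOpen_iff S H).1 hH
  haveI := sb_numberField hE.1
  exact asm_sha2_finiteDimensional hp2 S hpS E hE hHχ T hT

end Main

end Fermat.Agent.S55
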